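/-
S55 (Poitou–Tate), layer G (global class field theory) — DEFINITIONS, part 1.
Sub-architect: helper421.   Plan: `coord/S55-G.md` on `origin/helper421`.

The finite-level global modules of the roadmap (`origin/helper55:coord/S55.md`), in an
INTRINSIC model valid for every number field `L` (a type in universe `0`) and every group `G`
acting on `L` by field automorphisms (`[MulSemiringAction G L]`; typical cases: `G = L ≃ₐ[K] L`,
a subgroup of it, a quotient acting on a fixed field — see Mathlib's `IsGaloisGroup G K L`).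

* `Qq q = ℚ_q`, `QS S = ∏_{q ∈ S} ℚ_q`, `AS S L = L ⊗[ℚ] QS S  (≃ ∏_{w | q ∈ S} L_w)`;
* `LRep G L     = Lˣ`;
* `JRep S G L   = (AS S L)ˣ`            (the `S`-idèles; NO archimedean component);
* `DivRep S G L = ℤ[primes of L not above S]`   (divisors prime to `S`);
* `diagHom S G L : LRep ⟶ JRep × DivRep`,  `x ↦ (x ⊗ 1, div x)`;
* `CRep S G L   = (JRep × DivRep) / Lˣ`  (the `S`-idèle class group `C_S(L)`);
* `sUnit S L    = ker (Lˣ → Div^S)`      (the `S`-units), `ERep S G L`.

All modules are `Rep ℤ G` with `G : Type` (universe `0`, as required by Mathlib's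
`groupCohomology`).  No instance is declared globally on Mathlib types: every action is an
explicit definition.  This file contains no `sorry`.
-/
import Mathlib

set_option autoImplicit false
set_option linter.unusedSectionVars false

open scoped NumberField TensorProduct
open IsDedekindDomain CategoryTheory

noncomputable section

namespace Fermat.Agent.S55.G

/-! ## 1. The semi-local ring `ℚ_S` and the `S`-adèle ring `L ⊗ ℚ_S` -/

/-- `ℚ_q` for a bundled prime `q` (reducible: every Mathlib instance on `ℚ_[q]` applies). -/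
abbrev Qq (q : Nat.Primes) : Type := @Padic (q : ℕ) ⟨q.2⟩

/-- `Qq ⟨q, _⟩` is `ℚ_[q]` (definitionally). -/
lemma Qq_mk (q : ℕ) [hq : Fact q.Prime] : Qq ⟨q, hq.out⟩ = ℚ_[q] := rfl

/-- The semi-local ring `ℚ_S = ∏_{q ∈ S} ℚ_q`.  A `def` (not an `abbrev`) with its own
`CommRing` and `Algebra ℚ` instances: this keeps instance search on `L ⊗[ℚ] QS S` fast and
robust.  Use `QS.toPi` to go to the product. -/
def QS (S : Finset Nat.Primes) : Type := ∀ q : S, Qq q.1

instance QS.instCommRing (S : Finset Nat.Primes) : CommRing (QS S) :=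
  inferInstanceAs (CommRing (∀ q : S, Qq q.1))

instance QS.instAlgebra (S : Finset Nat.Primes) : Algebra ℚ (QS S) :=
  inferInstanceAs (Algebra ℚ (∀ q : S, Qq q.1))

/-- `ℚ_S` is the product of the `ℚ_q`, `q ∈ S` (the identity map). -/
def QS.toPi (S : Finset Nat.Primes) : QS S ≃ₐ[ℚ] (∀ q : S, Qq q.1) := AlgEquiv.refl

/-- The projection `ℚ_S → ℚ_q`. -/
def QS.proj (S : Finset Nat.Primes) (q : S) : QS S →ₐ[ℚ] Qq q.1 :=
  (Pi.evalAlgHom ℚ (fun q : S => Qq q.1) q).comp (QS.toPi S).toAlgHom

@[simp] lemma QS.proj_apply (S : Finset Nat.Primes) (q : S) (x : QS S) :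
    QS.proj S q x = QS.toPi S x q := rfl

/-- The ring of `S`-adèles `𝔸_S(L) = L ⊗_ℚ ℚ_S` of a field `L` of characteristic `0`. -/
abbrev AS (S : Finset Nat.Primes) (L : Type) [Field L] [CharZero L] : Type := L ⊗[ℚ] QS S

section Action

variable (S : Finset Nat.Primes) (G L : Type) [Group G] [Field L] [CharZero L]
  [MulSemiringAction G L]

/-- The automorphism of `L` over `ℚ` given by `g ∈ G`. -/
def fieldAut : G →* (L ≃ₐ[ℚ] L) where
  toFun g := (MulSemiringAction.toRingEquiv G L g).toRatAlgEquiv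
  map_one' := by ext x; simp
  map_mul' g h := by ext x; simp

@[simp] lemma fieldAut_apply (g : G) (x : L) : fieldAut G L g x = g • x := rfl

/-- The action of `G` on `𝔸_S(L) = L ⊗ ℚ_S` through the first factor. -/
def asAut : G →* (AS S L ≃ₐ[ℚ] AS S L) where
  toFun g := Algebra.TensorProduct.congr (fieldAut G L g) AlgEquiv.refl
  map_one' := by
    rw [map_one]
    exact Algebra.TensorProduct.congr_refl
  map_mul' g h := by
    rw [map_mul]
    ext x
    induction x using TensorProduct.induction_on with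
    | zero => simp
    | tmul a b => simp
    | add a b ha hb => simp only [map_add, ha, hb]

@[simp] lemma asAut_tmul (g : G) (x : L) (y : QS S) :
    asAut S G L g (x ⊗ₜ[ℚ] y) = (g • x) ⊗ₜ[ℚ] y := by
  simp [asAut]

/-- The diagonal embedding `L → 𝔸_S(L)`, `x ↦ x ⊗ 1`. -/
def asDiag : L →ₐ[ℚ] AS S L := Algebra.TensorProduct.includeLeft

@[simp] lemma asDiag_apply (x : L) : asDiag S L x = x ⊗ₜ[ℚ] (1 : QS S) := rfl

lemma asAut_asDiag (g : G) (x : L) : asAut S G L g (asDiag S L x) = asDiag S L (g • x) := by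
  simp

/-- The inclusion of the second factor `ℚ_S → 𝔸_S(L)`. -/
def asIncl : QS S →ₐ[ℚ] AS S L := Algebra.TensorProduct.includeRight

lemma asAut_asIncl (g : G) (y : QS S) : asAut S G L g (asIncl S L y) = asIncl S L y := by
  simp [asIncl]

end Action

/-! ## 2. Units as representations -/

section UnitsRep

variable (G : Type) [Group G]

/-- The `ℤ`-linear representation of `G` on `Additive Rˣ` attached to an action
`φ : G →* (R ≃+* R)` of `G` on a commutative ring `R` by ring automorphisms. -/
def unitsRepr {R : Type} [CommRing R] (φ : G →* (R ≃+* R)) :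
    Representation ℤ G (Additive Rˣ) where
  toFun g := (MonoidHom.toAdditive (Units.map ((φ g : R ≃+* R) : R →* R))).toIntLinearMap
  map_one' := by
    refine LinearMap.ext fun x => ?_
    have h : Units.map ((φ 1 : R ≃+* R) : R →* R) x.toMul = x.toMul := Units.ext (by simp)
    exact congrArg Additive.ofMul h
  map_mul' g h := by
    refine LinearMap.ext fun x => ?_
    have h : Units.map ((φ (g * h) : R ≃+* R) : R →* R) x.toMul =
        Units.map ((φ g : R ≃+* R) : R →* R) (Units.map ((φ h : R ≃+* R) : R →* R) x.toMul) :=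
      Units.ext (by simp)
    exact congrArg Additive.ofMul h

@[simp] lemma unitsRepr_apply {R : Type} [CommRing R] (φ : G →* (R ≃+* R)) (g : G)
    (x : Additive Rˣ) :
    unitsRepr G φ g x = Additive.ofMul (Units.map ((φ g : R ≃+* R) : R →* R) x.toMul) := rfl

lemma coe_unitsRepr_apply {R : Type} [CommRing R] (φ : G →* (R ≃+* R)) (g : G)
    (x : Additive Rˣ) :
    (((unitsRepr G φ g x).toMul : Rˣ) : R) = φ g ((x.toMul : Rˣ) : R) := rfl

variable (S : Finset Nat.Primes) (L : Type) [Field L] [CharZero L] [MulSemiringAction G L]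

/-- The action of `G` on `𝔸_S(L)` as a homomorphism to ring automorphisms. -/
def asRingAut : G →* (AS S L ≃+* AS S L) where
  toFun g := (asAut S G L g).toRingEquiv
  map_one' := by rw [map_one]; rfl
  map_mul' g h := by rw [map_mul]; rfl

@[simp] lemma asRingAut_apply (g : G) (x : AS S L) : asRingAut G S L g x = asAut S G L g x := rfl

/-- The representation of `G` on `Lˣ` (additively). -/
def lRepr : Representation ℤ G (Additive Lˣ) := unitsRepr G (MulSemiringAction.toRingEquiv G L)

/-- The representation of `G` on the `S`-idèles `J_S(L) = (L ⊗ ℚ_S)ˣ` (additively). -/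
def jRepr : Representation ℤ G (Additive (AS S L)ˣ) := unitsRepr G (asRingAut G S L)

/-- `Lˣ` as an object of `Rep ℤ G`. -/
def LRep : Rep ℤ G := Rep.of (lRepr G L)

/-- The `S`-idèle group `J_S(L) = (L ⊗_ℚ ℚ_S)ˣ` as an object of `Rep ℤ G`. -/
def JRep : Rep ℤ G := Rep.of (jRepr G S L)

omit [CharZero L] in
lemma coe_lRepr_apply (g : G) (x : Additive Lˣ) :
    (((lRepr G L g x).toMul : Lˣ) : L) = g • ((x.toMul : Lˣ) : L) := rfl

lemma coe_jRepr_apply (g : G) (x : Additive (AS S L)ˣ) :
    (((jRepr G S L g x).toMul : (AS S L)ˣ) : AS S L) =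
      asAut S G L g ((x.toMul : (AS S L)ˣ) : AS S L) := rfl

/-- The diagonal map `Lˣ → J_S(L)`, additively. -/
def unitsDiag : Additive Lˣ →+ Additive (AS S L)ˣ :=
  MonoidHom.toAdditive (Units.map ((asDiag S L : L →ₐ[ℚ] AS S L) : L →* AS S L))

lemma coe_unitsDiag_apply (x : Additive Lˣ) :
    (((unitsDiag S L x).toMul : (AS S L)ˣ) : AS S L) = asDiag S L ((x.toMul : Lˣ) : L) := rfl

lemma unitsDiag_equivariant (g : G) (x : Additive Lˣ) :
    unitsDiag S L (lRepr G L g x) = jRepr G S L g (unitsDiag S L x) := by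
  apply Additive.toMul.injective
  apply Units.ext
  rw [coe_unitsDiag_apply, coe_jRepr_apply, coe_unitsDiag_apply, coe_lRepr_apply, asAut_asDiag]

end UnitsRep

/-! ## 3. Primes outside `S`, divisors prime to `S` -/

section Primes

open scoped Pointwise

variable (S : Finset Nat.Primes) (G L : Type) [Group G] [Field L] [NumberField L]
  [MulSemiringAction G L]

/-- A finite prime `w` of `L` lies above `S` if its residue characteristic is in `S`. -/
def IsAbove (w : HeightOneSpectrum (𝓞 L)) : Prop :=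
  ∃ q ∈ S, ((q : ℕ) : 𝓞 L) ∈ w.asIdeal

/-- The finite primes of `L` not above `S`. -/
def PrimeOut : Type := {w : HeightOneSpectrum (𝓞 L) // ¬ IsAbove S L w}

/-- The finite primes of `L` above `S`. -/
def PrimeIn : Type := {w : HeightOneSpectrum (𝓞 L) // IsAbove S L w}

variable {L} in
/-- The action of `g ∈ G` on the finite primes of `L`: `w ↦ g(w)`. -/
def primeSMul (g : G) (w : HeightOneSpectrum (𝓞 L)) : HeightOneSpectrum (𝓞 L) where
  asIdeal := g • w.asIdeal
  isPrime := by
    rw [Ideal.pointwise_smul_def]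
    exact Ideal.map_isPrime_of_equiv (MulSemiringAction.toRingEquiv G (𝓞 L) g)
  ne_bot := by
    intro h
    apply w.ne_bot
    rw [eq_bot_iff] at h ⊢
    intro x hx
    have := h (Ideal.smul_mem_pointwise_smul_iff.2 hx : g • x ∈ g • w.asIdeal)
    exact (smul_eq_zero_iff_eq g).1 this

omit [NumberField L] in
variable {L} in
@[simp] lemma primeSMul_asIdeal (g : G) (w : HeightOneSpectrum (𝓞 L)) :
    (primeSMul G g w).asIdeal = g • w.asIdeal := rfl

omit [NumberField L] in
variable {L} in
lemma mem_primeSMul_iff (g : G) (w : HeightOneSpectrum (𝓞 L)) (x : 𝓞 L) :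
    x ∈ (primeSMul G g w).asIdeal ↔ g⁻¹ • x ∈ w.asIdeal :=
  Ideal.mem_pointwise_smul_iff_inv_smul_mem

/-- The action of `G` on the finite primes of `L` (a definition, NOT a global instance). -/
abbrev primeAction : MulAction G (HeightOneSpectrum (𝓞 L)) where
  smul g w := primeSMul G g w
  one_smul w := HeightOneSpectrum.ext (one_smul G w.asIdeal)
  mul_smul g h w := HeightOneSpectrum.ext (mul_smul g h w.asIdeal)

omit [NumberField L] in
variable {L} in
lemma isAbove_primeSMul_iff (g : G) (w : HeightOneSpectrum (𝓞 L)) :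
    IsAbove S L (primeSMul G g w) ↔ IsAbove S L w := by
  unfold IsAbove
  have key : ∀ n : ℕ, g⁻¹ • ((n : ℕ) : 𝓞 L) = n := fun n =>
    map_natCast (MulSemiringAction.toRingHom G (𝓞 L) g⁻¹) n
  simp only [mem_primeSMul_iff, key]

/-- The action of `G` on the finite primes of `L` not above `S`
(a definition, NOT a global instance). -/
abbrev primeOutAction : MulAction G (PrimeOut S L) where
  smul g w := ⟨primeSMul G g w.1, fun h => w.2 ((isAbove_primeSMul_iff S G g w.1).1 h)⟩
  one_smul w := Subtype.ext (HeightOneSpectrum.ext (one_smul G w.1.asIdeal))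
  mul_smul g h w := Subtype.ext (HeightOneSpectrum.ext (mul_smul g h w.1.asIdeal))

/-- The permutation of the primes outside `S` given by `g`. -/
def primeOutMap (g : G) (w : PrimeOut S L) : PrimeOut S L :=
  (primeOutAction S G L).smul g w

lemma primeOutMap_val (g : G) (w : PrimeOut S L) :
    (primeOutMap S G L g w).1 = primeSMul G g w.1 := rfl

lemma primeOutMap_one (w : PrimeOut S L) : primeOutMap S G L 1 w = w :=
  (primeOutAction S G L).one_smul w

lemma primeOutMap_mul (g h : G) (w : PrimeOut S L) :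
    primeOutMap S G L (g * h) w = primeOutMap S G L g (primeOutMap S G L h w) :=
  (primeOutAction S G L).mul_smul g h w

/-- The representation of `G` on the divisors prime to `S`:
`Div^S(L) = ℤ[primes of L not above S]`, `g • [w] = [g w]`. -/
def divRepr : Representation ℤ G (PrimeOut S L →₀ ℤ) where
  toFun g := Finsupp.lmapDomain ℤ ℤ (primeOutMap S G L g)
  map_one' := by
    refine LinearMap.ext fun x => ?_
    have : primeOutMap S G L 1 = id := funext (primeOutMap_one S G L)
    simp [this]
  map_mul' g h := by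
    refine LinearMap.ext fun x => ?_
    have : primeOutMap S G L (g * h) = primeOutMap S G L g ∘ primeOutMap S G L h :=
      funext (primeOutMap_mul S G L g h)
    simp [this, Finsupp.mapDomain_comp]

@[simp] lemma divRepr_single (g : G) (w : PrimeOut S L) (n : ℤ) :
    divRepr S G L g (Finsupp.single w n) = Finsupp.single (primeOutMap S G L g w) n := by
  simp [divRepr]

/-- `Div^S(L)` as an object of `Rep ℤ G`. -/
def DivRep : Rep ℤ G := Rep.of (divRepr S G L)

end Primes

/-! ## 4. The order maps `ord_w : Lˣ → ℤ` and the divisor map -/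

section Ord

open scoped Pointwise

variable (S : Finset Nat.Primes) (G L : Type) [Group G] [Field L] [NumberField L]
  [MulSemiringAction G L]

variable {L} in
/-- The order of `x ∈ Lˣ` at the finite prime `w`, normalised by `ord_w(uniformiser) = 1`:
`ord_w x = - log (w.valuation L x)`. -/
def ordAt (w : HeightOneSpectrum (𝓞 L)) : Additive Lˣ →+ ℤ where
  toFun x := - WithZero.log (w.valuation L ((x.toMul : Lˣ) : L))
  map_zero' := by simp
  map_add' x y := by
    have hx : w.valuation L ((x.toMul : Lˣ) : L) ≠ 0 := by simp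
    have hy : w.valuation L ((y.toMul : Lˣ) : L) ≠ 0 := by simp
    simp only [toMul_add, Units.val_mul, map_mul, WithZero.log_mul hx hy, neg_add]

variable {L} in
lemma ordAt_apply (w : HeightOneSpectrum (𝓞 L)) (x : Additive Lˣ) :
    ordAt w x = - WithZero.log (w.valuation L ((x.toMul : Lˣ) : L)) := rfl

variable {L} in
lemma valuation_eq_exp_neg_ordAt (w : HeightOneSpectrum (𝓞 L)) (x : Additive Lˣ) :
    w.valuation L ((x.toMul : Lˣ) : L) = WithZero.exp (- ordAt w x) := by
  have hx : w.valuation L ((x.toMul : Lˣ) : L) ≠ 0 := by simp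
  rw [ordAt_apply, neg_neg, WithZero.exp_log hx]

variable {L} in
lemma ordAt_eq_zero_iff (w : HeightOneSpectrum (𝓞 L)) (x : Additive Lˣ) :
    ordAt w x = 0 ↔ w.valuation L ((x.toMul : Lˣ) : L) = 1 := by
  rw [valuation_eq_exp_neg_ordAt, WithZero.exp_eq_one, neg_eq_zero]

variable {L} in
lemma ordAt_support_finite (x : Additive Lˣ) :
    {w : HeightOneSpectrum (𝓞 L) | ordAt w x ≠ 0}.Finite := by
  have h1 := HeightOneSpectrum.Support.finite (𝓞 L) ((x.toMul : Lˣ) : L)
  have h2 := HeightOneSpectrum.Support.finite (𝓞 L) (((x.toMul)⁻¹ : Lˣ) : L)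
  refine (h1.union h2).subset fun w hw => ?_
  simp only [Set.mem_ofPred_eq, ne_eq, ordAt_eq_zero_iff] at hw
  rcases lt_or_gt_of_ne hw with h | h
  · right
    simp only [HeightOneSpectrum.Support, Set.mem_ofPred_eq, Units.val_inv_eq_inv_val, map_inv₀]
    exact (one_lt_inv₀ (by simp [zero_lt_iff])).2 h
  · left
    exact h

/-- The divisor map `Lˣ → Div^S(L)`, `x ↦ ∑_{w ∉ S} ord_w(x) [w]`. -/
def ordHom : Additive Lˣ →+ (PrimeOut S L →₀ ℤ) where
  toFun x := Finsupp.ofSupportFinite (fun w : PrimeOut S L => ordAt w.1 x)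
    ((ordAt_support_finite x).preimage Subtype.val_injective.injOn)
  map_zero' := by
    ext w
    simp [Finsupp.ofSupportFinite_coe]
  map_add' x y := by
    ext w
    exact map_add (ordAt w.1) x y

@[simp] lemma ordHom_apply (x : Additive Lˣ) (w : PrimeOut S L) :
    ordHom S L x w = ordAt w.1 x := rfl

variable {L} in
lemma primeSMul_pow_mem_iff (g : G) (w : HeightOneSpectrum (𝓞 L)) (r : 𝓞 L) (n : ℕ) :
    g • r ∈ (primeSMul G g w).asIdeal ^ n ↔ r ∈ w.asIdeal ^ n := by
  have : (primeSMul G g w).asIdeal ^ n = g • (w.asIdeal ^ n) := by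
    rw [primeSMul_asIdeal, Ideal.pointwise_smul_def, Ideal.pointwise_smul_def, Ideal.map_pow]
  rw [this, Ideal.smul_mem_pointwise_smul_iff]

variable {L} in
/-- Galois-equivariance of the integral valuations: `v_{g w}(g r) = v_w(r)`. -/
lemma intValuation_primeSMul (g : G) (w : HeightOneSpectrum (𝓞 L)) (r : 𝓞 L) :
    (primeSMul G g w).intValuation (g • r) = w.intValuation r := by
  by_cases hr : r = 0
  · subst hr; simp
  have hgr : g • r ≠ 0 := fun h => hr ((smul_eq_zero_iff_eq g).1 h)
  have key : ∀ (v : HeightOneSpectrum (𝓞 L)) (x : 𝓞 L), x ≠ 0 →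
      ∃ n : ℕ, v.intValuation x = WithZero.exp (-(n : ℤ)) := by
    intro v x hx
    exact ⟨_, v.intValuation_if_neg hx⟩
  obtain ⟨a, ha⟩ := key w r hr
  obtain ⟨b, hb⟩ := key (primeSMul G g w) (g • r) hgr
  apply le_antisymm
  · rw [ha, HeightOneSpectrum.intValuation_le_pow_iff_mem, primeSMul_pow_mem_iff,
      ← HeightOneSpectrum.intValuation_le_pow_iff_mem, ha]
  · rw [hb, HeightOneSpectrum.intValuation_le_pow_iff_mem, ← primeSMul_pow_mem_iff G g,
      ← HeightOneSpectrum.intValuation_le_pow_iff_mem, hb]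

variable {L} in
/-- Galois-equivariance of the valuations: `v_{g w}(g x) = v_w(x)`. -/
lemma valuation_primeSMul (g : G) (w : HeightOneSpectrum (𝓞 L)) (x : L) :
    (primeSMul G g w).valuation L (g • x) = w.valuation L x := by
  obtain ⟨a, b, hb, rfl⟩ := IsFractionRing.div_surjective (A := 𝓞 L) x
  have h1 : g • (algebraMap (𝓞 L) L a / algebraMap (𝓞 L) L b) =
      algebraMap (𝓞 L) L (g • a) / algebraMap (𝓞 L) L (g • b) := by
    rw [smul_div₀']
    rfl
  rw [h1, map_div₀, map_div₀, HeightOneSpectrum.valuation_of_algebraMap,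
    HeightOneSpectrum.valuation_of_algebraMap, HeightOneSpectrum.valuation_of_algebraMap,
    HeightOneSpectrum.valuation_of_algebraMap, intValuation_primeSMul, intValuation_primeSMul]

variable {L} in
lemma ordAt_primeSMul (g : G) (w : HeightOneSpectrum (𝓞 L)) (x : Additive Lˣ) :
    ordAt (primeSMul G g w) (lRepr G L g x) = ordAt w x := by
  rw [ordAt_apply, ordAt_apply, coe_lRepr_apply, valuation_primeSMul]

lemma primeOutMap_injective (g : G) : Function.Injective (primeOutMap S G L g) := fun a b h => by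
  have := congrArg (primeOutMap S G L g⁻¹) h
  rwa [← primeOutMap_mul, ← primeOutMap_mul, inv_mul_cancel, primeOutMap_one,
    primeOutMap_one] at this

lemma divRepr_apply_apply (g : G) (d : PrimeOut S L →₀ ℤ) (w : PrimeOut S L) :
    divRepr S G L g d (primeOutMap S G L g w) = d w :=
  Finsupp.mapDomain_apply (primeOutMap_injective S G L g) d w

/-- The divisor map is `G`-equivariant. -/
lemma ordHom_equivariant (g : G) (x : Additive Lˣ) :
    ordHom S L (lRepr G L g x) = divRepr S G L g (ordHom S L x) := by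
  ext w
  have hw : w = primeOutMap S G L g (primeOutMap S G L g⁻¹ w) := by
    rw [← primeOutMap_mul, mul_inv_cancel, primeOutMap_one]
  rw [hw, divRepr_apply_apply, ordHom_apply, ordHom_apply, primeOutMap_val, ordAt_primeSMul]

end Ord

/-! ## 5. The `S`-idèle class group `C_S(L)` and the `S`-units -/

section ClassGroup

variable (S : Finset Nat.Primes) (G L : Type) [Group G] [Field L] [NumberField L]
  [MulSemiringAction G L]

/-- The underlying group of `J_S(L) × Div^S(L)` (additively). -/
abbrev JD : Type := Additive (AS S L)ˣ × (PrimeOut S L →₀ ℤ)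

/-- The representation of `G` on `J_S(L) × Div^S(L)`. -/
def jdRepr : Representation ℤ G (JD S L) := (jRepr G S L).prod (divRepr S G L)

/-- The diagonal map `Lˣ → J_S(L) × Div^S(L)`, `x ↦ (x ⊗ 1, div x)`. -/
def diagHom : Additive Lˣ →+ JD S L := (unitsDiag S L).prod (ordHom S L)

@[simp] lemma diagHom_fst (x : Additive Lˣ) : (diagHom S L x).1 = unitsDiag S L x := rfl

@[simp] lemma diagHom_snd (x : Additive Lˣ) : (diagHom S L x).2 = ordHom S L x := rfl

lemma diagHom_equivariant (g : G) (x : Additive Lˣ) :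
    diagHom S L (lRepr G L g x) = jdRepr S G L g (diagHom S L x) :=
  Prod.ext (unitsDiag_equivariant G S L g x) (ordHom_equivariant S G L g x)

/-- The subgroup of principal `S`-idèles: the image of `Lˣ` in `J_S(L) × Div^S(L)`. -/
def principal : Submodule ℤ (JD S L) := LinearMap.range (diagHom S L).toIntLinearMap

lemma mem_principal_iff (y : JD S L) : y ∈ principal S L ↔ ∃ x, diagHom S L x = y := Iff.rfl

lemma principal_stable (g : G) : principal S L ≤ (principal S L).comap (jdRepr S G L g) := by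
  rintro _ ⟨x, rfl⟩
  exact ⟨lRepr G L g x, diagHom_equivariant S G L g x⟩

/-- The underlying group of the `S`-idèle class group `C_S(L) = (J_S(L) × Div^S(L)) / Lˣ`. -/
abbrev CS : Type := JD S L ⧸ principal S L

/-- The representation of `G` on the `S`-idèle class group. -/
def cRepr : Representation ℤ G (CS S L) :=
  (jdRepr S G L).quotient (principal S L) (principal_stable S G L)

/-- `J_S(L) × Div^S(L)` as an object of `Rep ℤ G`. -/
def JDRep : Rep ℤ G := Rep.of (jdRepr S G L)

/-- The `S`-idèle class group `C_S(L) = (J_S(L) × Div^S(L)) / Lˣ` as an object of `Rep ℤ G`. -/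
def CRep : Rep ℤ G := Rep.of (cRepr S G L)

/-- The `S`-units of `L`: the kernel of the divisor map `Lˣ → Div^S(L)`. -/
def sUnit : Submodule ℤ (Additive Lˣ) := LinearMap.ker (ordHom S L).toIntLinearMap

lemma mem_sUnit_iff (x : Additive Lˣ) : x ∈ sUnit S L ↔ ∀ w : PrimeOut S L, ordAt w.1 x = 0 := by
  change ordHom S L x = 0 ↔ _
  rw [DFunLike.ext_iff]
  rfl

lemma sUnit_stable (g : G) : sUnit S L ≤ (sUnit S L).comap (lRepr G L g) := by
  intro x hx
  change ordHom S L (lRepr G L g x) = 0
  rw [ordHom_equivariant, (show ordHom S L x = 0 from hx), map_zero]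

/-- The representation of `G` on the `S`-units `E_S(L)`. -/
def eRepr : Representation ℤ G (sUnit S L) :=
  (lRepr G L).subrepresentation (sUnit S L) (sUnit_stable S G L)

/-- The `S`-units `E_S(L) = 𝒪_{L,S}ˣ` as an object of `Rep ℤ G`. -/
def ERep : Rep ℤ G := Rep.of (eRepr S G L)

/-- The group `C'_S(L) = J_S(L) / E_S(L)`: the image of `J_S(L)` in `C_S(L)`. -/
def jImage : Submodule ℤ (CS S L) :=
  LinearMap.range ((principal S L).mkQ ∘ₗ LinearMap.inl ℤ (Additive (AS S L)ˣ) (PrimeOut S L →₀ ℤ))

end ClassGroup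

/-! ## 6. Morphisms in `Rep ℤ G` -/

section Morphisms

variable (S : Finset Nat.Primes) (G L : Type) [Group G] [Field L] [NumberField L]
  [MulSemiringAction G L]

/-- The diagonal embedding `Lˣ ⟶ J_S(L) × Div^S(L)` in `Rep ℤ G`. -/
def diagRepHom : LRep G L ⟶ JDRep S G L :=
  Rep.ofHom ⟨(diagHom S L).toIntLinearMap,
    fun g => LinearMap.ext fun x => diagHom_equivariant S G L g x⟩

/-- The projection `J_S(L) × Div^S(L) ⟶ C_S(L)` in `Rep ℤ G`. -/
def quotRepHom : JDRep S G L ⟶ CRep S G L :=
  Rep.ofHom ⟨(principal S L).mkQ, fun _ => LinearMap.ext fun _ => rfl⟩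

/-- The inclusion `J_S(L) ⟶ J_S(L) × Div^S(L)` in `Rep ℤ G`. -/
def jInlRepHom : JRep G S L ⟶ JDRep S G L :=
  Rep.ofHom ⟨(AddMonoidHom.inl (Additive (AS S L)ˣ) (PrimeOut S L →₀ ℤ)).toIntLinearMap,
    fun _ => LinearMap.ext fun _ => by
      refine Prod.ext rfl ?_
      simp [jdRepr, Representation.prod]⟩

/-- The inclusion `Div^S(L) ⟶ J_S(L) × Div^S(L)` in `Rep ℤ G`. -/
def divInrRepHom : DivRep S G L ⟶ JDRep S G L :=
  Rep.ofHom ⟨(AddMonoidHom.inr (Additive (AS S L)ˣ) (PrimeOut S L →₀ ℤ)).toIntLinearMap,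
    fun _ => LinearMap.ext fun _ => by
      refine Prod.ext ?_ rfl
      simp [jdRepr, Representation.prod]⟩

/-- The projection `J_S(L) × Div^S(L) ⟶ Div^S(L)` in `Rep ℤ G`. -/
def divSndRepHom : JDRep S G L ⟶ DivRep S G L :=
  Rep.ofHom ⟨(AddMonoidHom.snd (Additive (AS S L)ˣ) (PrimeOut S L →₀ ℤ)).toIntLinearMap,
    fun _ => LinearMap.ext fun _ => rfl⟩

/-- The map `J_S(L) ⟶ C_S(L)` in `Rep ℤ G`. -/
def jToCRepHom : JRep G S L ⟶ CRep S G L := jInlRepHom S G L ≫ quotRepHom S G L

/-- The inclusion of the `S`-units `E_S(L) ⟶ Lˣ` in `Rep ℤ G`. -/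
def eInclRepHom : ERep S G L ⟶ LRep G L :=
  Rep.ofHom ⟨(sUnit S L).subtype, fun _ => LinearMap.ext fun _ => rfl⟩

/-- The divisor map `Lˣ ⟶ Div^S(L)` in `Rep ℤ G`. -/
def ordRepHom : LRep G L ⟶ DivRep S G L :=
  Rep.ofHom ⟨(ordHom S L).toIntLinearMap,
    fun g => LinearMap.ext fun x => ordHom_equivariant S G L g x⟩

/-- The short complex `Lˣ ⟶ J_S(L) × Div^S(L) ⟶ C_S(L)` in `Rep ℤ G`
(short exact as soon as `S ≠ ∅`). -/
def classShortComplex : CategoryTheory.ShortComplex (Rep ℤ G) :=
  CategoryTheory.ShortComplex.mk (diagRepHom S G L) (quotRepHom S G L) (by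
    ext x
    exact (Submodule.Quotient.mk_eq_zero _).2 ⟨x, rfl⟩)

end Morphisms

/-! ## 7. Base change along a field extension `L' → L` -/

section BaseChange

variable (S : Finset Nat.Primes) (L' L : Type) [Field L'] [CharZero L'] [Field L] [CharZero L]
  [Algebra L' L]

/-- The base change map `𝔸_S(L') → 𝔸_S(L)`. -/
def asMap : AS S L' →ₐ[ℚ] AS S L :=
  Algebra.TensorProduct.map ((algebraMap L' L).toRatAlgHom) (AlgHom.id ℚ (QS S))

@[simp] lemma asMap_tmul (x : L') (y : QS S) :
    asMap S L' L (x ⊗ₜ[ℚ] y) = (algebraMap L' L x) ⊗ₜ[ℚ] y := by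
  simp [asMap]

/-- The base change map `J_S(L') → J_S(L)`, additively. -/
def jMap : Additive (AS S L')ˣ →+ Additive (AS S L)ˣ :=
  MonoidHom.toAdditive (Units.map ((asMap S L' L : AS S L' →ₐ[ℚ] AS S L) : AS S L' →* AS S L))

lemma coe_jMap_apply (y : Additive (AS S L')ˣ) :
    (((jMap S L' L y).toMul : (AS S L)ˣ) : AS S L) =
      asMap S L' L ((y.toMul : (AS S L')ˣ) : AS S L') := rfl

/-- The inclusion `L'ˣ → Lˣ`, additively. -/
def lMap : Additive L'ˣ →+ Additive Lˣ :=
  MonoidHom.toAdditive (Units.map ((algebraMap L' L : L' →+* L) : L' →* L))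

lemma jMap_unitsDiag (x : Additive L'ˣ) :
    jMap S L' L (unitsDiag S L' x) = unitsDiag S L (lMap L' L x) := by
  apply Additive.toMul.injective
  apply Units.ext
  change asMap S L' L (asDiag S L' _) = asDiag S L _
  simp [lMap]

end BaseChange

end Fermat.Agent.S55.G
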