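/-
S55 (Poitou–Tate), layer G — DEFINITIONS, part 3: change of the set `S`.
Sub-architect: helper421.   Mathlib + `Defs.lean` only.  No `sorry`.

For `S ⊆ S'`:
* `QS.res h : QS S' →ₐ[ℚ] QS S`                 (projection `ℚ_{S'} → ℚ_S`);
* `asRes h L : AS S' L →ₐ[ℚ] AS S L`,  `jRes h L : J_{S'}(L) → J_S(L)` (additively), equivariant;
* `primeOutIncl h L : PrimeOut S' L → PrimeOut S L`,  `divIncl h L : Div^{S'}(L) → Div^S(L)`, equivariant.
-/
import Fermat.Agent.S55.G.Defs

set_option autoImplicit false
set_option linter.unusedSectionVars false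

open scoped NumberField TensorProduct
open IsDedekindDomain CategoryTheory

noncomputable section

namespace Fermat.Agent.S55.G

section Res

variable {S S' : Finset Nat.Primes} (h : S ⊆ S')

/-- The projection `ℚ_{S'} → ℚ_S` for `S ⊆ S'`. -/
def QS.res : QS S' →ₐ[ℚ] QS S where
  toFun x := fun q : S => QS.toPi S' x ⟨q.1, h q.2⟩
  map_one' := rfl
  map_mul' _ _ := rfl
  map_zero' := rfl
  map_add' _ _ := rfl
  commutes' _ := rfl

@[simp] lemma QS.res_apply (x : QS S') (q : S) :
    QS.toPi S (QS.res h x) q = QS.toPi S' x ⟨q.1, h q.2⟩ := rfl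

variable (L : Type) [Field L] [CharZero L]

/-- The projection `𝔸_{S'}(L) → 𝔸_S(L)` for `S ⊆ S'`. -/
def asRes : AS S' L →ₐ[ℚ] AS S L :=
  Algebra.TensorProduct.map (AlgHom.id ℚ L) (QS.res h)

@[simp] lemma asRes_tmul (x : L) (y : QS S') :
    asRes h L (x ⊗ₜ[ℚ] y) = x ⊗ₜ[ℚ] QS.res h y := by
  simp [asRes]

lemma asRes_asDiag (x : L) : asRes h L (asDiag S' L x) = asDiag S L x := by
  simp [map_one]

/-- The projection `J_{S'}(L) → J_S(L)` for `S ⊆ S'`, additively. -/
def jRes : Additive (AS S' L)ˣ →+ Additive (AS S L)ˣ :=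
  MonoidHom.toAdditive (Units.map ((asRes h L : AS S' L →ₐ[ℚ] AS S L) : AS S' L →* AS S L))

lemma coe_jRes_apply (y : Additive (AS S' L)ˣ) :
    (((jRes h L y).toMul : (AS S L)ˣ) : AS S L) =
      asRes h L ((y.toMul : (AS S' L)ˣ) : AS S' L) := rfl

lemma jRes_unitsDiag (x : Additive Lˣ) : jRes h L (unitsDiag S' L x) = unitsDiag S L x := by
  apply Additive.toMul.injective
  apply Units.ext
  change asRes h L (asDiag S' L _) = asDiag S L _
  rw [asRes_asDiag]

variable (G : Type) [Group G] [MulSemiringAction G L]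

lemma asRes_asAut (g : G) (y : AS S' L) :
    asRes h L (asAut S' G L g y) = asAut S G L g (asRes h L y) := by
  induction y using TensorProduct.induction_on with
  | zero => simp
  | tmul a b => simp
  | add a b ha hb => simp only [map_add, ha, hb]

lemma jRes_equivariant (g : G) (y : Additive (AS S' L)ˣ) :
    jRes h L (jRepr G S' L g y) = jRepr G S L g (jRes h L y) := by
  apply Additive.toMul.injective
  apply Units.ext
  change asRes h L (asAut S' G L g _) = asAut S G L g (asRes h L _)
  rw [asRes_asAut]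

end Res

section DivIncl

variable {S S' : Finset Nat.Primes} (h : S ⊆ S') (G L : Type) [Group G] [Field L]
  [NumberField L] [MulSemiringAction G L]

include h in
lemma not_isAbove_of_subset {w : HeightOneSpectrum (𝓞 L)} (hw : ¬ IsAbove S' L w) :
    ¬ IsAbove S L w := fun ⟨q, hq, hmem⟩ => hw ⟨q, h hq, hmem⟩

/-- A prime not above `S'` is not above `S ⊆ S'`. -/
def primeOutIncl (w : PrimeOut S' L) : PrimeOut S L := ⟨w.1, not_isAbove_of_subset h L w.2⟩

lemma primeOutIncl_injective : Function.Injective (primeOutIncl h L) := fun a b hab =>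
  Subtype.ext (show a.1 = b.1 from congrArg (fun w : PrimeOut S L => w.1) hab)

lemma primeOutIncl_primeOutMap (g : G) (w : PrimeOut S' L) :
    primeOutIncl h L (primeOutMap S' G L g w) = primeOutMap S G L g (primeOutIncl h L w) := rfl

/-- The inclusion `Div^{S'}(L) → Div^S(L)` for `S ⊆ S'`. -/
def divIncl : (PrimeOut S' L →₀ ℤ) →+ (PrimeOut S L →₀ ℤ) :=
  (Finsupp.mapDomain.addMonoidHom (primeOutIncl h L))

@[simp] lemma divIncl_single (w : PrimeOut S' L) (n : ℤ) :
    divIncl h L (Finsupp.single w n) = Finsupp.single (primeOutIncl h L w) n := by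
  simp [divIncl]

lemma divIncl_apply (d : PrimeOut S' L →₀ ℤ) (w : PrimeOut S' L) :
    divIncl h L d (primeOutIncl h L w) = d w :=
  Finsupp.mapDomain_apply (primeOutIncl_injective h L) d w

lemma divIncl_equivariant (g : G) (d : PrimeOut S' L →₀ ℤ) :
    divIncl h L (divRepr S' G L g d) = divRepr S G L g (divIncl h L d) := by
  induction d using Finsupp.induction_linear with
  | zero => simp
  | add a b ha hb => simp only [map_add, ha, hb]
  | single w n =>
    rw [divRepr_single, divIncl_single, divIncl_single, divRepr_single,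
      primeOutIncl_primeOutMap]

end DivIncl

end Fermat.Agent.S55.G
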