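/-
S55 (Poitou–Tate), layer G — DEFINITIONS, part 2: the places above `S` in the tensor model.
Sub-architect: helper421.

`AS S L = L ⊗[ℚ] ℚ_S` is a finite product of local fields.  We use its maximal ideals as the
places of `L` above `S`:

* `SPlace S L        = MaximalSpectrum (AS S L)`            (the places of `L` above `S`);
* `sPlaceSMul S G L g 𝔪`                                    (Galois action on the places);
* `decomp S G L 𝔪 : Subgroup G`                             (decomposition group);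
* `LocField S L 𝔪   = AS S L ⧸ 𝔪`                           (the completion `L_𝔪`, a field);
* `locAut S G L 𝔪 : decomp 𝔪 →* (L_𝔪 ≃+* L_𝔪)`, `LocRep S G L 𝔪 : Rep ℤ (decomp 𝔪)` (`= L_𝔪ˣ`);
* `toLoc S L 𝔪 : L →+* L_𝔪`,  `jToLoc`, `lToLoc` and the morphisms
  `jToLocRepHom : res_{D_𝔪} J_S(L) ⟶ L_𝔪ˣ`, `lToLocRepHom : res_{D_𝔪} Lˣ ⟶ L_𝔪ˣ`;
* `locMapJ S G L 𝔪 n : Hⁿ(G, J_S(L)) ⟶ Hⁿ(D_𝔪, L_𝔪ˣ)`,
  `locMapL S G L 𝔪 n : Hⁿ(G, Lˣ) ⟶ Hⁿ(D_𝔪, L_𝔪ˣ)`           (localisation maps).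

No `sorry`.  Mathlib + `Defs.lean` only.
-/
import Fermat.Agent.S55.G.Defs

set_option autoImplicit false
set_option linter.unusedSectionVars false

open scoped NumberField TensorProduct
open IsDedekindDomain CategoryTheory

noncomputable section

namespace Fermat.Agent.S55.G

variable (S : Finset Nat.Primes) (G L : Type) [Group G] [Field L] [CharZero L]
  [MulSemiringAction G L]

/-- The places of `L` above `S`: the maximal ideals of `L ⊗[ℚ] ℚ_S`. -/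
abbrev SPlace : Type := MaximalSpectrum (AS S L)

variable {L} in
/-- The Galois action on the places above `S`: `g 𝔪 = (g ⊗ 1)(𝔪)`. -/
def sPlaceSMul (g : G) (𝔪 : SPlace S L) : SPlace S L where
  asIdeal := 𝔪.asIdeal.map (asRingAut G S L g)
  isMaximal :=
    haveI := 𝔪.isMaximal
    Ideal.map_isMaximal_of_equiv (asRingAut G S L g)

variable {L} in
lemma mem_sPlaceSMul_iff (g : G) (𝔪 : SPlace S L) (x : AS S L) :
    x ∈ (sPlaceSMul S G g 𝔪).asIdeal ↔ asAut S G L g⁻¹ x ∈ 𝔪.asIdeal := by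
  change x ∈ 𝔪.asIdeal.map (asRingAut G S L g) ↔ _
  rw [← Ideal.comap_symm, Ideal.mem_comap]
  have : (asRingAut G S L g).symm x = asAut S G L g⁻¹ x := by
    rw [← asRingAut_apply, map_inv]
    rfl
  rw [← this]

/-- The action of `G` on the places above `S` (a definition, NOT a global instance). -/
abbrev sPlaceAction : MulAction G (SPlace S L) where
  smul g 𝔪 := sPlaceSMul S G g 𝔪
  one_smul 𝔪 := by
    refine MaximalSpectrum.ext (Ideal.ext fun x => ?_)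
    change x ∈ (sPlaceSMul S G 1 𝔪).asIdeal ↔ _
    rw [mem_sPlaceSMul_iff, inv_one, map_one]
    rfl
  mul_smul g h 𝔪 := by
    refine MaximalSpectrum.ext (Ideal.ext fun x => ?_)
    change x ∈ (sPlaceSMul S G (g * h) 𝔪).asIdeal ↔
      x ∈ (sPlaceSMul S G g (sPlaceSMul S G h 𝔪)).asIdeal
    rw [mem_sPlaceSMul_iff, mem_sPlaceSMul_iff, mem_sPlaceSMul_iff, mul_inv_rev, map_mul]
    rfl

variable {L} in
/-- The decomposition group of the place `𝔪`. -/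
def decomp (𝔪 : SPlace S L) : Subgroup G where
  carrier := {g | sPlaceSMul S G g 𝔪 = 𝔪}
  one_mem' := (sPlaceAction S G L).one_smul 𝔪
  mul_mem' {g h} hg hh := by
    change sPlaceSMul S G (g * h) 𝔪 = 𝔪
    have := (sPlaceAction S G L).mul_smul g h 𝔪
    change sPlaceSMul S G (g * h) 𝔪 = sPlaceSMul S G g (sPlaceSMul S G h 𝔪) at this
    rw [this, show sPlaceSMul S G h 𝔪 = 𝔪 from hh, show sPlaceSMul S G g 𝔪 = 𝔪 from hg]
  inv_mem' {g} hg := by
    change sPlaceSMul S G g⁻¹ 𝔪 = 𝔪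
    have := (sPlaceAction S G L).mul_smul g⁻¹ g 𝔪
    change sPlaceSMul S G (g⁻¹ * g) 𝔪 = sPlaceSMul S G g⁻¹ (sPlaceSMul S G g 𝔪) at this
    rw [show sPlaceSMul S G g 𝔪 = 𝔪 from hg, inv_mul_cancel] at this
    rw [← this]
    exact (sPlaceAction S G L).one_smul 𝔪

variable {L} in
lemma mem_decomp_iff (𝔪 : SPlace S L) (g : G) :
    g ∈ decomp S G 𝔪 ↔ sPlaceSMul S G g 𝔪 = 𝔪 := Iff.rfl

variable {L} in
lemma map_eq_of_mem_decomp (𝔪 : SPlace S L) (g : decomp S G 𝔪) :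
    𝔪.asIdeal = 𝔪.asIdeal.map (asRingAut G S L (g : G)) :=
  (congrArg MaximalSpectrum.asIdeal g.2).symm

variable {L} in
/-- The local field `L_𝔪 = (L ⊗[ℚ] ℚ_S) ⧸ 𝔪` at the place `𝔪`. -/
def LocField (𝔪 : SPlace S L) : Type := AS S L ⧸ 𝔪.asIdeal

variable {L} in
instance LocField.instField (𝔪 : SPlace S L) : Field (LocField S 𝔪) :=
  haveI := 𝔪.isMaximal
  Ideal.Quotient.field 𝔪.asIdeal

variable {L} in
/-- The projection `L ⊗[ℚ] ℚ_S → L_𝔪`. -/
def LocField.mk (𝔪 : SPlace S L) : AS S L →+* LocField S 𝔪 := Ideal.Quotient.mk 𝔪.asIdeal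

variable {L} in
lemma LocField.mk_surjective (𝔪 : SPlace S L) : Function.Surjective (LocField.mk S 𝔪) :=
  Ideal.Quotient.mk_surjective

variable {L} in
lemma LocField.mk_eq_zero_iff (𝔪 : SPlace S L) (x : AS S L) :
    LocField.mk S 𝔪 x = 0 ↔ x ∈ 𝔪.asIdeal :=
  Ideal.Quotient.eq_zero_iff_mem

variable {L} in
/-- The `ℚ_S`-algebra structure of `L_𝔪` (it factors through exactly one `ℚ_q`, `q ∈ S`). -/
def LocField.ofQS (𝔪 : SPlace S L) : QS S →+* LocField S 𝔪 :=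
  (LocField.mk S 𝔪).comp (asIncl S L : QS S →ₐ[ℚ] AS S L)

variable {L} in
/-- The embedding `L → L_𝔪`. -/
def toLoc (𝔪 : SPlace S L) : L →+* LocField S 𝔪 :=
  (LocField.mk S 𝔪).comp (asDiag S L : L →ₐ[ℚ] AS S L)

variable {L} in
/-- The action of the decomposition group on the local field. -/
def locAut (𝔪 : SPlace S L) : decomp S G 𝔪 →* (LocField S 𝔪 ≃+* LocField S 𝔪) where
  toFun g := Ideal.quotientEquiv 𝔪.asIdeal 𝔪.asIdeal (asRingAut G S L (g : G))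
    (map_eq_of_mem_decomp S G 𝔪 g)
  map_one' := by
    refine RingEquiv.ext fun x => ?_
    obtain ⟨x, rfl⟩ := Ideal.Quotient.mk_surjective x
    change Ideal.Quotient.mk _ (asRingAut G S L ((1 : decomp S G 𝔪) : G) x) = _
    rw [Subgroup.coe_one, map_one]
    rfl
  map_mul' g h := by
    refine RingEquiv.ext fun x => ?_
    obtain ⟨x, rfl⟩ := Ideal.Quotient.mk_surjective x
    change Ideal.Quotient.mk _ (asRingAut G S L ((g * h : decomp S G 𝔪) : G) x) = _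
    rw [Subgroup.coe_mul, map_mul]
    rfl

variable {L} in
@[simp] lemma locAut_mk (𝔪 : SPlace S L) (g : decomp S G 𝔪) (x : AS S L) :
    locAut S G 𝔪 g (LocField.mk S 𝔪 x) = LocField.mk S 𝔪 (asAut S G L (g : G) x) := rfl

variable {L} in
lemma locAut_toLoc (𝔪 : SPlace S L) (g : decomp S G 𝔪) (x : L) :
    locAut S G 𝔪 g (toLoc S 𝔪 x) = toLoc S 𝔪 ((g : G) • x) := by
  change locAut S G 𝔪 g (LocField.mk S 𝔪 (asDiag S L x)) = LocField.mk S 𝔪 (asDiag S L _)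
  rw [locAut_mk, asAut_asDiag]

variable {L} in
/-- The representation of the decomposition group on `L_𝔪ˣ`. -/
def locRepr (𝔪 : SPlace S L) : Representation ℤ (decomp S G 𝔪) (Additive (LocField S 𝔪)ˣ) :=
  unitsRepr (decomp S G 𝔪) (locAut S G 𝔪)

variable {L} in
/-- `L_𝔪ˣ` as an object of `Rep ℤ (decomp 𝔪)`. -/
def LocRep (𝔪 : SPlace S L) : Rep ℤ (decomp S G 𝔪) := Rep.of (locRepr S G 𝔪)

variable {L} in
/-- The projection `J_S(L) → L_𝔪ˣ`, additively. -/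
def jToLoc (𝔪 : SPlace S L) : Additive (AS S L)ˣ →+ Additive (LocField S 𝔪)ˣ :=
  MonoidHom.toAdditive (Units.map (LocField.mk S 𝔪 : AS S L →* LocField S 𝔪))

variable {L} in
/-- The localisation `Lˣ → L_𝔪ˣ`, additively. -/
def lToLoc (𝔪 : SPlace S L) : Additive Lˣ →+ Additive (LocField S 𝔪)ˣ :=
  MonoidHom.toAdditive (Units.map (toLoc S 𝔪 : L →* LocField S 𝔪))

variable {L} in
lemma jToLoc_unitsDiag (𝔪 : SPlace S L) (x : Additive Lˣ) :
    jToLoc S 𝔪 (unitsDiag S L x) = lToLoc S 𝔪 x := rfl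

variable {L} in
lemma jToLoc_equivariant (𝔪 : SPlace S L) (g : decomp S G 𝔪) (x : Additive (AS S L)ˣ) :
    jToLoc S 𝔪 (jRepr G S L (g : G) x) = locRepr S G 𝔪 g (jToLoc S 𝔪 x) := rfl

variable {L} in
lemma lToLoc_equivariant (𝔪 : SPlace S L) (g : decomp S G 𝔪) (x : Additive Lˣ) :
    lToLoc S 𝔪 (lRepr G L (g : G) x) = locRepr S G 𝔪 g (lToLoc S 𝔪 x) := by
  rw [← jToLoc_unitsDiag, unitsDiag_equivariant, jToLoc_equivariant, jToLoc_unitsDiag]

variable {L} in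
/-- `res_{D_𝔪} J_S(L) ⟶ L_𝔪ˣ` in `Rep ℤ (decomp 𝔪)`. -/
def jToLocRepHom (𝔪 : SPlace S L) :
    Rep.res (decomp S G 𝔪).subtype (JRep G S L) ⟶ LocRep S G 𝔪 :=
  Rep.ofHom ⟨(jToLoc S 𝔪).toIntLinearMap,
    fun g => LinearMap.ext fun x => jToLoc_equivariant S G 𝔪 g x⟩

variable {L} in
/-- `res_{D_𝔪} Lˣ ⟶ L_𝔪ˣ` in `Rep ℤ (decomp 𝔪)`. -/
def lToLocRepHom (𝔪 : SPlace S L) :
    Rep.res (decomp S G 𝔪).subtype (LRep G L) ⟶ LocRep S G 𝔪 :=
  Rep.ofHom ⟨(lToLoc S 𝔪).toIntLinearMap,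
    fun g => LinearMap.ext fun x => lToLoc_equivariant S G 𝔪 g x⟩

variable {L} in
/-- The localisation map `Hⁿ(G, J_S(L)) ⟶ Hⁿ(D_𝔪, L_𝔪ˣ)`. -/
def locMapJ (𝔪 : SPlace S L) (n : ℕ) :
    groupCohomology (JRep G S L) n ⟶ groupCohomology (LocRep S G 𝔪) n :=
  groupCohomology.map (decomp S G 𝔪).subtype (jToLocRepHom S G 𝔪) n

variable {L} in
/-- The localisation map `Hⁿ(G, Lˣ) ⟶ Hⁿ(D_𝔪, L_𝔪ˣ)`. -/
def locMapL (𝔪 : SPlace S L) (n : ℕ) :
    groupCohomology (LRep G L) n ⟶ groupCohomology (LocRep S G 𝔪) n :=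
  groupCohomology.map (decomp S G 𝔪).subtype (lToLocRepHom S G 𝔪) n

end Fermat.Agent.S55.G
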