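/-
S55 (Poitou–Tate), layer G (global class field theory) — INTERFACE, part 1.
Sub-architect: helper421.   Plan and leaves: `coord/S55-G.md` on `origin/helper421`.

Only definitions and `def XxxSpec : Prop` (no `sorry`).  Producers prove
`theorem xxx : XxxSpec`; consumers take `(h : XxxSpec)` as a hypothesis.

Vocabulary: `Defs.lean`, `DefsLocal.lean` (this layer), `T/Spec.lean` (`resSub`, `CardDvd`, …),
`L/Spec.lean` (`IsLocalFld`).

Standing conventions.
* `S : Finset Nat.Primes` is a VARIABLE finite set of rational primes.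
* `G : Type` is a finite group acting on the number field `L : Type` by field automorphisms;
  "`L/K` is Galois with group `G`" is Mathlib's `[IsGaloisGroup G K L]`
  (instances: `G = L ≃ₐ[K] L`, subgroups with their fixed fields, quotients, …).
* The archimedean places are NOT part of `J_S`; this is harmless exactly because all groups in
  the specs below have ODD order (they are `p`-groups, `p ≠ 2`).
-/
import Fermat.Agent.S55.G.DefsLocal
import Fermat.Agent.S55.T.Spec
import Fermat.Agent.S55.L.Spec

set_option autoImplicit false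

open scoped NumberField TensorProduct
open IsDedekindDomain CategoryTheory groupCohomology

noncomputable section

namespace Fermat.Agent.S55.G

/-! ## 0. Hypotheses -/

/-- `L/L^G` is unramified outside `S`: for every finite prime `w` of `L` not above `S`, the
inertia group `{g | g x ≡ x mod w for all integral x}` acts trivially on `L`. -/
def IsUnramOut (S : Finset Nat.Primes) (G L : Type) [Group G] [Field L] [NumberField L]
    [MulSemiringAction G L] : Prop :=
  ∀ w : HeightOneSpectrum (𝓞 L), ¬ IsAbove S L w →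
    ∀ g : G, (∀ x : 𝓞 L, g • x - x ∈ w.asIdeal) → ∀ x : L, g • x = x

/-- `L` contains a primitive `p`-th root of unity fixed by `G` (i.e. `μ_p ⊂ L^G`). -/
def HasFixedRootOfUnity (p : ℕ) (G L : Type) [Group G] [Field L] [MulSemiringAction G L] : Prop :=
  ∃ ζ : L, IsPrimitiveRoot ζ p ∧ ∀ g : G, g • ζ = ζ

/-! ## 1. Structure of the modules -/

/-- **G-SES.**  For `S ≠ ∅` the sequence `0 → Lˣ → J_S(L) × Div^S(L) → C_S(L) → 0` is short
exact in `Rep ℤ G`. -/
def ClassShortExactSpec : Prop :=
  ∀ (S : Finset Nat.Primes) (G L : Type) [Group G] [Field L] [NumberField L]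
    [MulSemiringAction G L], S.Nonempty → (classShortComplex S G L).ShortExact

/-- **G-CL.**  Finiteness of the `S`-class group: the image `C'_S(L) = J_S(L)/E_S(L)` of `J_S(L)`
has finite index in `C_S(L)`; and for `T ⊇ S` large enough it is everything
(`Cl_T(L) = 1`), where we may moreover require `T` to contain any given finite set. -/
def ClassGroupFiniteSpec : Prop :=
  ∀ (S : Finset Nat.Primes) (L : Type) [Field L] [NumberField L],
    (jImage S L).toAddSubgroup.index ≠ 0 ∧
    ∃ T : Finset Nat.Primes, S ⊆ T ∧ ∀ T' : Finset Nat.Primes, T ⊆ T' → jImage T' L = ⊤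

/-- **G-PL0.**  There are finitely many places above `S`, and each local field `L_𝔪` is a local
field in the sense of layer `L`. -/
def LocFieldSpec : Prop :=
  ∀ (S : Finset Nat.Primes) (L : Type) [Field L] [NumberField L],
    Finite (SPlace S L) ∧ ∀ 𝔪 : SPlace S L, _root_.Fermat.Agent.S55.L.IsLocalFld (LocField S 𝔪)

/-- **G-PL1.**  The places above `S` are the primes above `S`: a `G`-equivariant bijection
`β : SPlace S L ≃ PrimeIn S L` such that an integer `x ∈ 𝒪_L` lies in the prime `β 𝔪` iff its image
in `L_𝔪` is a non-unit of the ring of integers of `L_𝔪`. -/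
def PlacePrimeSpec : Prop :=
  ∀ (S : Finset Nat.Primes) (L : Type) [Field L] [NumberField L],
    ∃ β : SPlace S L ≃ PrimeIn S L,
      (∀ (G : Type) [Group G] [MulSemiringAction G L] (g : G) (𝔪 : SPlace S L),
        (β (sPlaceSMul S G g 𝔪)).1 = primeSMul G g (β 𝔪).1) ∧
      (∀ (𝔪 : SPlace S L) (A : ValuationSubring (LocField S 𝔪)), _root_.Fermat.Agent.S55.L.IsLocalRingOfIntegers A →
        ∀ x : 𝓞 L, x ∈ (β 𝔪).1.asIdeal ↔ toLoc S 𝔪 (x : L) ∈ A.nonunits)

/-- **G-LOC (Shapiro).**  For a finite group `G` acting on `L` and a set `R` of representatives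
of the `G`-orbits of places above `S`, the localisation maps induce
`Hⁿ(G, J_S(L)) ≅ ∏_{𝔪 ∈ R} Hⁿ(D_𝔪, L_𝔪ˣ)`   (all `n`). -/
def ShapiroJSpec : Prop :=
  ∀ (S : Finset Nat.Primes) (G L : Type) [Group G] [Finite G] [Field L] [NumberField L]
    [MulSemiringAction G L] (R : Finset (SPlace S L)),
    (∀ 𝔪 : SPlace S L, ∃! r : SPlace S L, r ∈ R ∧ ∃ g : G, sPlaceSMul S G g r = 𝔪) →
    ∀ n : ℕ, Function.Bijective
      (fun (x : groupCohomology (JRep G S L) n) (r : R) => (locMapJ S G r.1 n).hom x)

/-- **G-H1J.**  `H¹(G, J_S(L)) = 0` (Hilbert 90 for the semi-local algebra `L ⊗ ℚ_S`). -/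
def H1JSpec : Prop :=
  ∀ (S : Finset Nat.Primes) (G L : Type) [Group G] [Finite G] [Field L] [NumberField L]
    [MulSemiringAction G L] [FaithfulSMul G L],
    Limits.IsZero (groupCohomology (JRep G S L) 1)

/-! ## 2. Galois descent -/

/-- **G-DESC.**  Galois descent for the `S`-idèle class group.  Let `G` act faithfully on `L`,
unramified outside `S ≠ ∅`, let `N ⊴ G` and let `L'` be a number field with an embedding
`L' → L` whose image is the fixed field of `N`, with `G ⧸ N` acting on `L'` compatibly.
Then there is an injective additive map `ι : C_S(L') → C_S(L)`, equivariant (`ι ∘ gN = g ∘ ι`),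
with image exactly the `N`-invariants `C_S(L)^N`, and which on the image of `J_S(L')` is the
natural base-change map.  (Proof: Hilbert 90 for `L/L'`, `(L ⊗ ℚ_S)^N = L' ⊗ ℚ_S`,
`Div^S(L)^N = Div^S(L')` because `L/L'` is unramified outside `S`.) -/
def DescentSpec : Prop :=
  ∀ (S : Finset Nat.Primes) (G L L' : Type) [Group G] [Finite G] [Field L] [NumberField L]
    [Field L'] [NumberField L'] [Algebra L' L] [MulSemiringAction G L] [FaithfulSMul G L]
    (N : Subgroup G) [N.Normal] [MulSemiringAction (G ⧸ N) L'],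
    S.Nonempty → IsUnramOut S G L →
    (∀ x : L, (∀ n : N, (n : G) • x = x) ↔ x ∈ (algebraMap L' L).range) →
    (∀ (g : G) (x : L'), algebraMap L' L ((g : G ⧸ N) • x) = g • algebraMap L' L x) →
    ∃ ι : CS S L' →+ CS S L,
      Function.Injective ι ∧
      (∀ (g : G) (c : CS S L'), ι (cRepr S (G ⧸ N) L' (g : G ⧸ N) c) = cRepr S G L g (ι c)) ∧
      (∀ c : CS S L, (∀ n : N, cRepr S G L (n : G) c = c) ↔ c ∈ Set.range ι) ∧
      (∀ y : Additive (AS S L')ˣ,
        ι ((principal S L').mkQ (y, 0)) = (principal S L).mkQ (jMap S L' L y, 0))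

/-! ## 3. The two inequalities (cyclic layers of degree `p`) -/

/-- **G-FI (first inequality).**  Let `p` be an odd prime and `G` a group of order `p` acting
faithfully on the number field `L`, `S ≠ ∅`.  Then `H¹(G, C_S(L))` and `H²(G, C_S(L))` are finite
and `|H²(G, C_S(L))| = p · |H¹(G, C_S(L))|`   (Herbrand quotient `h(C_S(L)) = p`).
NO ramification hypothesis. -/
def FirstInequalitySpec : Prop :=
  ∀ (p : ℕ) [Fact p.Prime], p ≠ 2 →
  ∀ (S : Finset Nat.Primes) (G L : Type) [Group G] [Finite G] [Field L] [NumberField L]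
    [MulSemiringAction G L] [FaithfulSMul G L],
    S.Nonempty → Nat.card G = p →
    Finite (groupCohomology (CRep S G L) 1) ∧ Finite (groupCohomology (CRep S G L) 2) ∧
    Nat.card (groupCohomology (CRep S G L) 2) = p * Nat.card (groupCohomology (CRep S G L) 1)

/-- **G-SI (second inequality).**  Let `p` be an odd prime, `p ∈ S`, and `G` a group of order `p`
acting faithfully on `L`, unramified outside `S`, with `μ_p ⊂ L^G`.  Then
`|H²(G, C_S(L))|` divides `p`   (`[C_S(K) : N C_S(L)] ≤ p`, Kummer theory). -/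
def SecondInequalitySpec : Prop :=
  ∀ (p : ℕ) [hp : Fact p.Prime], p ≠ 2 →
  ∀ (S : Finset Nat.Primes) (G L : Type) [Group G] [Finite G] [Field L] [NumberField L]
    [MulSemiringAction G L] [FaithfulSMul G L],
    (⟨p, hp.out⟩ : Nat.Primes) ∈ S → Nat.card G = p → IsUnramOut S G L →
    HasFixedRootOfUnity p G L →
    T.CardDvd (groupCohomology (CRep S G L) 2) p

/-- **G-CYC.**  Consequence of G-FI and G-SI: for a cyclic layer of degree `p`,
`H¹(G, C_S(L)) = 0` and `|H²(G, C_S(L))| = p`. -/
def CyclicLayerSpec : Prop :=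
  ∀ (p : ℕ) [hp : Fact p.Prime], p ≠ 2 →
  ∀ (S : Finset Nat.Primes) (G L : Type) [Group G] [Finite G] [Field L] [NumberField L]
    [MulSemiringAction G L] [FaithfulSMul G L],
    (⟨p, hp.out⟩ : Nat.Primes) ∈ S → Nat.card G = p → IsUnramOut S G L →
    HasFixedRootOfUnity p G L →
    Limits.IsZero (groupCohomology (CRep S G L) 1) ∧
      Nat.card (groupCohomology (CRep S G L) 2) = p

/-! ## 4. The class module property for `p`-groups (OUTPUT of the layer) -/

/-- **G-UP (upper bound).**  Let `p` be an odd prime, `p ∈ S`, `G` a finite `p`-group acting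
faithfully on `L`, unramified outside `S`, with `μ_p ⊂ L^G`.  Then for every subgroup `H ≤ G`:
`H¹(H, C_S(L)) = 0` and `|H²(H, C_S(L))|` divides `|H|`.
(From G-CYC + G-DESC by inflation–restriction and `T.UglySpec`.) -/
def PClassUpperSpec : Prop :=
  ∀ (p : ℕ) [hp : Fact p.Prime], p ≠ 2 →
  ∀ (S : Finset Nat.Primes) (G L : Type) [Group G] [Finite G] [Field L] [NumberField L]
    [MulSemiringAction G L] [FaithfulSMul G L],
    (⟨p, hp.out⟩ : Nat.Primes) ∈ S → IsPGroup p G → IsUnramOut S G L →
    HasFixedRootOfUnity p G L →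
    ∀ H : Subgroup G,
      Limits.IsZero (groupCohomology (T.resSub (CRep S G L) H) 1) ∧
      T.CardDvd (groupCohomology (T.resSub (CRep S G L) H) 2) (Nat.card H)

/-- **G-CM (class module, numerical form).**  Same hypotheses: for every subgroup `H ≤ G`,
`H¹(H, C_S(L)) = 0` and `H²(H, C_S(L)) ≅ ℤ/|H|`.  This is exactly the hypothesis of
`T.ClassModuleOfCyclicSpec`, which turns it into `T.IsClassModule (CRep S G L) γ`.
(Upper bound: G-UP.  Lower bound: invariant maps + reciprocity, interface part 2.) -/
def PClassModuleSpec : Prop :=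
  ∀ (p : ℕ) [hp : Fact p.Prime], p ≠ 2 →
  ∀ (S : Finset Nat.Primes) (G L : Type) [Group G] [Finite G] [Field L] [NumberField L]
    [MulSemiringAction G L] [FaithfulSMul G L],
    (⟨p, hp.out⟩ : Nat.Primes) ∈ S → IsPGroup p G → IsUnramOut S G L →
    HasFixedRootOfUnity p G L →
    ∀ H : Subgroup G,
      Limits.IsZero (groupCohomology (T.resSub (CRep S G L) H) 1) ∧
      Nonempty (groupCohomology (T.resSub (CRep S G L) H) 2 ≃+ ZMod (Nat.card H))

end Fermat.Agent.S55.G
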