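/-
S55 (Poitou–Tate), layer G — INTERFACE, part 1b (additions to `Spec.lean`, which is frozen).
Sub-architect: helper421.   No `sorry`.

* `FirstInequalityCycSpec` : first inequality for cyclic groups of arbitrary ODD order
  (consumer: REC (R2), helper1; producer: G-FI, helper895).
* `CyclicPowSpec`          : cyclic layers of degree `p^k`: `H¹ = 0`, `|H²| = p^k`.
* `SIndepSpec`             : independence of `S` (REC (O5)): for `S ⊆ S'` and `L/L^G` unramified
  outside `S`, the natural map `C_{S'}(L) → C_S(L)` induces isomorphisms on `Hⁿ(H, -)`, `n ≥ 1`.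
-/
import Fermat.Agent.S55.G.Spec
import Fermat.Agent.S55.G.DefsRes

set_option autoImplicit false

open scoped NumberField TensorProduct
open IsDedekindDomain CategoryTheory groupCohomology

noncomputable section

namespace Fermat.Agent.S55.G

/-- **G-FIc (first inequality, cyclic of odd order).**  Let `G` be a cyclic group of odd order
`n` acting faithfully on the number field `L`, `S ≠ ∅`.  Then `H¹(G, C_S(L))`, `H²(G, C_S(L))`
are finite and `|H²(G, C_S(L))| = n · |H¹(G, C_S(L))|`.   NO ramification hypothesis. -/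
def FirstInequalityCycSpec : Prop :=
  ∀ (n : ℕ), Odd n →
  ∀ (S : Finset Nat.Primes) (G L : Type) [Group G] [Finite G] [IsCyclic G] [Field L]
    [NumberField L] [MulSemiringAction G L] [FaithfulSMul G L],
    S.Nonempty → Nat.card G = n →
    Finite (groupCohomology (CRep S G L) 1) ∧ Finite (groupCohomology (CRep S G L) 2) ∧
    Nat.card (groupCohomology (CRep S G L) 2) = n * Nat.card (groupCohomology (CRep S G L) 1)

/-- `FirstInequalityCycSpec` contains `FirstInequalitySpec`. -/
theorem firstInequality_of_cyc (h : FirstInequalityCycSpec) : FirstInequalitySpec := by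
  intro p hp hp2 S G L _ _ _ _ _ _ hS hcard
  have : IsCyclic G := isCyclic_of_prime_card (p := p) hcard
  exact h p (hp.out.odd_of_ne_two hp2) S G L hS hcard

/-- **G-CYCp.**  Let `p` be an odd prime, `p ∈ S`, `G` a cyclic `p`-group acting faithfully on
`L`, unramified outside `S`, `μ_p ⊂ L^G`.  Then `H¹(G, C_S(L)) = 0` and `|H²(G, C_S(L))| = |G|`.
(From `PClassUpperSpec` and `FirstInequalityCycSpec`.) -/
def CyclicPowSpec : Prop :=
  ∀ (p : ℕ) [hp : Fact p.Prime], p ≠ 2 →
  ∀ (S : Finset Nat.Primes) (G L : Type) [Group G] [Finite G] [IsCyclic G] [Field L]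
    [NumberField L] [MulSemiringAction G L] [FaithfulSMul G L],
    (⟨p, hp.out⟩ : Nat.Primes) ∈ S → IsPGroup p G → IsUnramOut S G L →
    HasFixedRootOfUnity p G L →
    Limits.IsZero (groupCohomology (CRep S G L) 1) ∧
      Nat.card (groupCohomology (CRep S G L) 2) = Nat.card G

/-- **G-SIND (independence of `S`; REC (O5)).**  Let `S ⊆ S'`, `S ≠ ∅`, and let the finite group
`G` act faithfully on `L`, unramified outside `S`.  Then there is an equivariant surjection
`Φ : J_{S'}(L) × Div^{S'}(L) → J_S(L) × Div^S(L)`, compatible with the diagonal embeddings of `Lˣ`,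
equal to the projection `jRes` on the `J_S`-component and to the inclusion `divIncl` on `Div^{S'}`
(so `Φ (j, d) = (jRes j, divIncl d + ∑_{w | S'∖S} ord_w(j_w) [w])`), such that the induced morphism
`π : C_{S'}(L) ⟶ C_S(L)` is an isomorphism on `Hⁿ(H, -)` for all `H ≤ G` and all `n ≥ 1`.
(The kernel of `π` is `∏_{w | S' ∖ S} U_w`, cohomologically trivial because `w` is unramified.) -/
def SIndepSpec : Prop :=
  ∀ (S S' : Finset Nat.Primes) (h : S ⊆ S') (G L : Type) [Group G] [Finite G] [Field L]
    [NumberField L] [MulSemiringAction G L] [FaithfulSMul G L],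
    S.Nonempty → IsUnramOut S G L →
    ∃ (Φ : JD S' L →+ JD S L) (π : CRep S' G L ⟶ CRep S G L),
      (∀ (g : G) (y : JD S' L), Φ (jdRepr S' G L g y) = jdRepr S G L g (Φ y)) ∧
      (∀ x : Additive Lˣ, Φ (diagHom S' L x) = diagHom S L x) ∧
      (∀ y : JD S' L, (Φ y).1 = jRes h L y.1) ∧
      (∀ d : PrimeOut S' L →₀ ℤ, Φ (0, d) = (0, divIncl h L d)) ∧
      (∀ y : JD S' L, π.hom ((principal S' L).mkQ y) = (principal S L).mkQ (Φ y)) ∧
      Function.Surjective Φ ∧
      ∀ (H : Subgroup G) (n : ℕ), 0 < n →
        Function.Bijective (T.coeffMap ((Rep.resFunctor H.subtype).map π) n).hom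

end Fermat.Agent.S55.G
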