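/-
S55, layer G, leaf G-CYCp (helper184): `CyclicPowSpec` from `PClassUpperSpec` (G-UP) and
`FirstInequalityCycSpec` (G-FIc).  Pure glue.
-/
import Fermat.Agent.S55.G.Spec1b

set_option autoImplicit false
set_option linter.style.haveILetI false

open CategoryTheory groupCohomology

noncomputable section

namespace Fermat.Agent.S55.G.CycPowH184

open Fermat.Agent.S55 Fermat.Agent.S55.G

/-- Vanishing of `H¹` can be tested after restriction to the top subgroup. -/
theorem isZero_H1_of_resSub_top {k G : Type} [CommRing k] [Group G] (A : Rep.{0} k G)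
    (h : Limits.IsZero (groupCohomology (T.resSub A (⊤ : Subgroup G)) 1)) :
    Limits.IsZero (groupCohomology A 1) := by
  have hsub : Subsingleton (groupCohomology (T.resSub A (⊤ : Subgroup G)) 1) :=
    ModuleCat.subsingleton_of_isZero h
  have hall : ∀ x : groupCohomology A 1, x = 0 := by
    intro x
    induction x using H1_induction_on with
    | h f =>
      rw [H1π_eq_zero_iff]
      -- restrict `f` to the top subgroup
      have hf := (mem_cocycles₁_iff (f : G → A)).1 f.2
      have hf' : (fun t : (⊤ : Subgroup G) => (f : G → A) t.1) ∈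
          cocycles₁ (T.resSub A (⊤ : Subgroup G)) := by
        rw [mem_cocycles₁_iff]
        intro g t
        exact hf g.1 t.1
      have h0 : H1π (T.resSub A (⊤ : Subgroup G)) ⟨_, hf'⟩ = 0 := Subsingleton.elim _ _
      rw [H1π_eq_zero_iff] at h0
      obtain ⟨a, ha⟩ := h0
      refine ⟨a, ?_⟩
      funext g
      have := congrFun ha ⟨g, Subgroup.mem_top g⟩
      exact this
  haveI : Subsingleton (groupCohomology A 1) := ⟨fun x y => by rw [hall x, hall y]⟩
  exact ModuleCat.isZero_of_subsingleton _

/-- **G-CYCp** from G-UP and G-FIc. -/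
theorem cyclicPow_of (hUP : PClassUpperSpec) (hFI : FirstInequalityCycSpec) : CyclicPowSpec := by
  intro p hp hp2 S G L _ _ _ _ _ _ _ hpS hpG hunr hroot
  have h1 : Limits.IsZero (groupCohomology (CRep S G L) 1) :=
    isZero_H1_of_resSub_top _ (hUP p hp2 S G L hpS hpG hunr hroot ⊤).1
  refine ⟨h1, ?_⟩
  obtain ⟨k, hk⟩ := hpG.exists_card_eq
  have hodd : Odd (Nat.card G) := by
    rw [hk]
    exact (hp.out.odd_of_ne_two hp2).pow
  have h2 := (hFI (Nat.card G) hodd S G L ⟨_, hpS⟩ rfl).2.2
  have hsub : Subsingleton (groupCohomology (CRep S G L) 1) :=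
    ModuleCat.subsingleton_of_isZero h1
  have hc : Nat.card (groupCohomology (CRep S G L) 1) = 1 :=
    Nat.card_eq_one_iff_unique.2 ⟨hsub, ⟨0⟩⟩
  rw [h2, hc, mul_one]

end Fermat.Agent.S55.G.CycPowH184
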