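/-
S55, layer G, block G-U (helper595): relative Herbrand calculus in helper895's vocabulary
(`hIndex`, `hIndexSub`).  Everything here is about an ambient additive commutative group `B`
with two endomorphisms `f g` and stable subgroups.

* `hIndexSub_six`            : six-factor form of `0 → ker φ ∩ U → U → φ(U) → 0`;
* `hIndexSub_of_finite_ker`  : finite kernel part ⇒ same Herbrand quotient;
* `hIndexSub_of_finite_index`: finite-index subgroup ⇒ same Herbrand quotient;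
* `hIndexSub_map_of_injective`: transport along an injective equivariant map.
-/
import Mathlib
import Fermat.Agent.S55.Herbrand.Basic
import Fermat.Agent.S55.H595.Relative

set_option autoImplicit false

namespace Fermat.Agent.S55.G

open Fermat.Agent.S55.Herbrand Fermat.Agent.S55.H595

variable {B C : Type*} [AddCommGroup B] [AddCommGroup C]

lemma hIndexSub_eq_rhIdx (f g : B →+ B) (A : AddSubgroup B) :
    hIndexSub f g A = rhIdx f g A := by
  unfold hIndexSub rhIdx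
  rw [inf_comm]

lemma hIndex_eq_hIdx (f g : B →+ B) : hIndex f g = hIdx f g := rfl

lemma hIndexSub_top (f g : B →+ B) : hIndexSub f g ⊤ = hIndex f g := by
  rw [hIndexSub_eq_rhIdx, rhIdx_top, hIndex_eq_hIdx]

/-- Six-factor form of the exact sequence `0 → ker φ ∩ U → U → φ(U) → 0`. -/
theorem hIndexSub_six (f g : B →+ B) (f' g' : C →+ C) (φ : B →+ C)
    (hφf : ∀ b, φ (f b) = f' (φ b)) (hφg : ∀ b, φ (g b) = g' (φ b))
    (U : AddSubgroup B) (hUf : ∀ x ∈ U, f x ∈ U) (hUg : ∀ x ∈ U, g x ∈ U)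
    (hfg : ∀ b ∈ U, f (g b) = 0) (hgf : ∀ b ∈ U, g (f b) = 0) :
    ∃ Ef Eg w y w' y' : ℕ,
      hIndexSub f g (φ.ker ⊓ U) = Eg * w ∧ hIndexSub f g U = w * y ∧
      hIndexSub f' g' (U.map φ) = Ef * y ∧
      hIndexSub g f (φ.ker ⊓ U) = Ef * w' ∧ hIndexSub g f U = w' * y' ∧
      hIndexSub g' f' (U.map φ) = Eg * y' := by
  simp only [hIndexSub_eq_rhIdx]
  exact rh_exact f g f' g' φ hφf hφg U hUf hUg hfg hgf

/-- Finite kernel part: `U` and `φ(U)` have the same Herbrand quotient. -/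
theorem hIndexSub_of_finite_ker (f g : B →+ B) (f' g' : C →+ C) (φ : B →+ C)
    (hφf : ∀ b, φ (f b) = f' (φ b)) (hφg : ∀ b, φ (g b) = g' (φ b))
    (U : AddSubgroup B) (hUf : ∀ x ∈ U, f x ∈ U) (hUg : ∀ x ∈ U, g x ∈ U)
    (hfg : ∀ b ∈ U, f (g b) = 0) (hgf : ∀ b ∈ U, g (f b) = 0)
    (hfin : Finite ↥(φ.ker ⊓ U)) :
    ((hIndexSub f g U ≠ 0 ∧ hIndexSub g f U ≠ 0) ↔
        (hIndexSub f' g' (U.map φ) ≠ 0 ∧ hIndexSub g' f' (U.map φ) ≠ 0)) ∧
      hIndexSub f g U * hIndexSub g' f' (U.map φ) =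
        hIndexSub g f U * hIndexSub f' g' (U.map φ) := by
  simp only [hIndexSub_eq_rhIdx]
  exact rh_of_finite_ker f g f' g' φ hφf hφg U hUf hUg hfg hgf hfin

/-- Finite index: `U ≤ W` stable with `[W : U]` finite have the same Herbrand quotient. -/
theorem hIndexSub_of_finite_index (f g : B →+ B) (U W : AddSubgroup B) (hUW : U ≤ W)
    (hidx : U.relIndex W ≠ 0)
    (hUf : ∀ x ∈ U, f x ∈ U) (hUg : ∀ x ∈ U, g x ∈ U)
    (hWf : ∀ x ∈ W, f x ∈ W) (hWg : ∀ x ∈ W, g x ∈ W)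
    (hfg : ∀ b ∈ W, f (g b) = 0) (hgf : ∀ b ∈ W, g (f b) = 0) :
    ((hIndexSub f g U ≠ 0 ∧ hIndexSub g f U ≠ 0) ↔
        (hIndexSub f g W ≠ 0 ∧ hIndexSub g f W ≠ 0)) ∧
      hIndexSub f g U * hIndexSub g f W = hIndexSub g f U * hIndexSub f g W := by
  simp only [hIndexSub_eq_rhIdx]
  exact rh_of_finite_index f g U W hUW hidx hUf hUg hWf hWg hfg hgf

/-- Transport of relative Herbrand indices along an injective equivariant map. -/
theorem hIndexSub_map_of_injective (f g : B →+ B) (f' g' : C →+ C) (ι : B →+ C)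
    (hι : Function.Injective ι)
    (hf : ∀ b, ι (f b) = f' (ι b)) (hg : ∀ b, ι (g b) = g' (ι b)) (A : AddSubgroup B) :
    hIndexSub f' g' (A.map ι) = hIndexSub f g A := by
  unfold hIndexSub
  rw [← AddSubgroup.relIndex_map_map_of_injective _ _ hι]
  congr 1
  · ext x
    simp only [AddSubgroup.mem_map]
    constructor
    · rintro ⟨_, ⟨a, ha, rfl⟩, rfl⟩
      exact ⟨g a, ⟨a, ha, rfl⟩, hg a⟩
    · rintro ⟨_, ⟨a, ha, rfl⟩, rfl⟩
      exact ⟨ι a, ⟨a, ha, rfl⟩, (hg a).symm⟩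
  · ext x
    simp only [AddSubgroup.mem_map, AddSubgroup.mem_inf, AddMonoidHom.mem_ker]
    constructor
    · rintro ⟨⟨a, ha, rfl⟩, hx⟩
      refine ⟨a, ⟨ha, hι ?_⟩, rfl⟩
      rw [hf, hx, map_zero]
    · rintro ⟨a, ⟨ha, hx⟩, rfl⟩
      exact ⟨⟨a, ha, rfl⟩, by rw [← hf, hx, map_zero]⟩

end Fermat.Agent.S55.G
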