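/-
S55, layer G (global class field theory), block **G-U : Herbrand quotient of units and S-units**
(arithmetic input of the FIRST INEQUALITY).      Sub-architect: helper595.

This file contains ONLY definitions and `Spec` propositions (no `sorry`).
Producers prove `theorem xxx : XxxSpec`; the assembly files prove the two top specs
`UnitsHerbrandSpec`, `SUnitsHerbrandSpec` from the leaf specs.

Vocabulary: helper895's `Fermat.Agent.S55.Herbrand` (on main):
  `hIndex f g = [ker f : im g]`,  `hIndexSub f g A = [A ∩ ker f : g A]`  (`0` = infinite).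
-/
import Mathlib
import Fermat.Agent.S55.Herbrand.Basic

set_option autoImplicit false

namespace Fermat.Agent.S55.G

open Fermat.Agent.S55.Herbrand NumberField

universe u v

/-! ## 1. Permutation lattices -/

section Perm

variable (G : Type u) [Group G] (X : Type v) [MulAction G X]

/-- Permutation action of `τ` on `ℤ`-valued functions: `(permHom τ a) x = a (τ⁻¹ • x)`. -/
def permHom (τ : G) : (X → ℤ) →+ (X → ℤ) where
  toFun a x := a (τ⁻¹ • x)
  map_zero' := rfl
  map_add' _ _ := rfl

/-- Permutation action of `τ` on `ℝ`-valued functions. -/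
def permHomR (τ : G) : (X → ℝ) →+ (X → ℝ) where
  toFun a x := a (τ⁻¹ • x)
  map_zero' := rfl
  map_add' _ _ := rfl

/-- `σ - 1` on `ℤ^X`. -/
def permAug (σ : G) : (X → ℤ) →+ (X → ℤ) := permHom G X σ - AddMonoidHom.id _

/-- `σ - 1` on `ℝ^X`. -/
def permAugR (σ : G) : (X → ℝ) →+ (X → ℝ) := permHomR G X σ - AddMonoidHom.id _

/-- The norm `∑_τ τ` on `ℤ^X`. -/
noncomputable def permNorm [Fintype G] : (X → ℤ) →+ (X → ℤ) := ∑ τ : G, permHom G X τ

/-- The norm `∑_τ τ` on `ℝ^X`. -/
noncomputable def permNormR [Fintype G] : (X → ℝ) →+ (X → ℝ) := ∑ τ : G, permHomR G X τ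

/-- The sum of all coordinates. -/
def sumHom [Fintype X] : (X → ℤ) →+ ℤ where
  toFun a := ∑ x, a x
  map_zero' := by simp
  map_add' a b := by simp [Finset.sum_add_distrib]

/-- The trace-zero sublattice of `ℤ^X`. -/
def traceZero [Fintype X] : AddSubgroup (X → ℤ) := (sumHom X).ker

/-- The product over the `G`-orbits of `X` of the orders of the stabilisers. -/
noncomputable def stabProd [Fintype X] : ℕ :=
  letI := Classical.decEq (MulAction.orbitRel.Quotient G X)
  haveI : Fintype (MulAction.orbitRel.Quotient G X) := Fintype.ofFinite _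
  ∏ o : MulAction.orbitRel.Quotient G X, Nat.card (MulAction.stabilizer G o.out)

end Perm

/-- **(P1) permutation modules.** `G = ⟨σ⟩` finite cyclic, `X` a finite `G`-set:
`Ĥ⁰(G, ℤ^X)` has order `∏_{orbits} |Stab|` and `Ĥ⁻¹(G, ℤ^X) = 0`. -/
def PermSpec : Prop :=
  ∀ (G : Type u) [Group G] [Fintype G] (X : Type v) [Fintype X] [MulAction G X] (σ : G),
    (∀ τ : G, τ ∈ Subgroup.zpowers σ) →
      hIndex (permAug G X σ) (permNorm G X) = stabProd G X ∧
      hIndex (permNorm G X) (permAug G X σ) = 1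

/-- **(P2) trace-zero sublattice.** For nonempty `X`:
`h(Λ₀) = ∏_{orbits} |Stab| / |G|`, both indices finite. -/
def TraceZeroSpec : Prop :=
  ∀ (G : Type u) [Group G] [Fintype G] (X : Type v) [Fintype X] [Nonempty X] [MulAction G X]
    (σ : G), (∀ τ : G, τ ∈ Subgroup.zpowers σ) →
      hIndexSub (permAug G X σ) (permNorm G X) (traceZero X) ≠ 0 ∧
      hIndexSub (permNorm G X) (permAug G X σ) (traceZero X) ≠ 0 ∧
      hIndexSub (permAug G X σ) (permNorm G X) (traceZero X) * Fintype.card G =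
        hIndexSub (permNorm G X) (permAug G X σ) (traceZero X) * stabProd G X

/-! ## 2. The lattice lemma -/

/-- **(LAT) lattice lemma.** Two `s`-stable `ℤ`-lattices `Λ₁ = ⊕ ℤ b₁ i`, `Λ₂ = ⊕ ℤ b₂ i` spanning
the same real subspace of `V` (where `s` is a linear map of finite order) have finite Herbrand
indices with respect to `(s - 1, 1 + s + ⋯ + s^(n-1))` and the same Herbrand quotient. -/
def LatticeSpec : Prop :=
  ∀ (V : Type u) [AddCommGroup V] [Module ℝ V] (s : V →ₗ[ℝ] V) (n r : ℕ), 0 < n → s ^ n = 1 →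
    ∀ (b₁ b₂ : Fin r → V), LinearIndependent ℝ b₁ → LinearIndependent ℝ b₂ →
      Submodule.span ℝ (Set.range b₁) = Submodule.span ℝ (Set.range b₂) →
      (∀ i, s (b₁ i) ∈ Submodule.span ℤ (Set.range b₁)) →
      (∀ i, s (b₂ i) ∈ Submodule.span ℤ (Set.range b₂)) →
      let F : V →+ V := (s - 1 : V →ₗ[ℝ] V).toAddMonoidHom
      let N : V →+ V := (∑ k ∈ Finset.range n, s ^ k : V →ₗ[ℝ] V).toAddMonoidHom
      let Λ₁ : AddSubgroup V := (Submodule.span ℤ (Set.range b₁)).toAddSubgroup
      let Λ₂ : AddSubgroup V := (Submodule.span ℤ (Set.range b₂)).toAddSubgroup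
      hIndexSub F N Λ₁ ≠ 0 ∧ hIndexSub N F Λ₁ ≠ 0 ∧ hIndexSub F N Λ₂ ≠ 0 ∧ hIndexSub N F Λ₂ ≠ 0 ∧
        hIndexSub F N Λ₁ * hIndexSub N F Λ₂ = hIndexSub F N Λ₂ * hIndexSub N F Λ₁

/-! ## 3. Units of number fields -/

section Units

variable (K : Type u) (L : Type v) [Field K] [Field L] [Algebra K L]

/-- The action of `τ ∈ Gal(L/K)` on `Lˣ`, additively. -/
def unitsHom (τ : L ≃ₐ[K] L) : Additive Lˣ →+ Additive Lˣ :=
  MonoidHom.toAdditive (Units.map ((τ : L →+* L) : L →* L))

/-- `x ↦ σ x / x` on `Lˣ`, additively. -/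
def unitsAug (σ : L ≃ₐ[K] L) : Additive Lˣ →+ Additive Lˣ :=
  unitsHom K L σ - AddMonoidHom.id _

/-- The norm `x ↦ ∏_τ τ x` on `Lˣ`, additively. -/
noncomputable def unitsNorm [FiniteDimensional K L] : Additive Lˣ →+ Additive Lˣ :=
  ∑ τ : (L ≃ₐ[K] L), unitsHom K L τ

variable [NumberField L]

/-- The units of the ring of integers, as a subgroup of `Lˣ` (additively). -/
def intUnits : AddSubgroup (Additive Lˣ) :=
  (Units.map ((algebraMap (𝓞 L) L : 𝓞 L →+* L) : 𝓞 L →* L)).range.toAddSubgroup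

variable [NumberField K]

/-- The primes of `L` lying over a prime of `K` in the finite set `T`. -/
def primesAbove (T : Finset (IsDedekindDomain.HeightOneSpectrum (𝓞 K))) :
    Set (IsDedekindDomain.HeightOneSpectrum (𝓞 L)) :=
  {w | ∃ v ∈ T, w.asIdeal.under (𝓞 K) = v.asIdeal}

/-- The `T`-units of `L` (units outside the primes above `T`), as a subgroup of `Lˣ`
(additively). -/
noncomputable def sUnits (T : Finset (IsDedekindDomain.HeightOneSpectrum (𝓞 K))) :
    AddSubgroup (Additive Lˣ) :=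
  ((primesAbove K L T).unit L).toAddSubgroup

/-- The product of the local degrees at the infinite places of `K`. -/
noncomputable def infDegProd : ℕ :=
  ∏ v : InfinitePlace K, (letI := Classical.propDecidable (v.IsUnramifiedIn L)
    if v.IsUnramifiedIn L then 1 else 2)

/-- The product of the local degrees `e_v f_v` at the primes in `T`. -/
noncomputable def finDegProd (T : Finset (IsDedekindDomain.HeightOneSpectrum (𝓞 K))) : ℕ :=
  ∏ v ∈ T, (v.asIdeal.ramificationIdxIn (𝓞 L) * v.asIdeal.inertiaDegIn (𝓞 L))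

/-- The real hyperplane of trace-zero functions on the infinite places. -/
noncomputable def traceZeroR : Submodule ℝ (InfinitePlace L → ℝ) :=
  LinearMap.ker (∑ w : InfinitePlace L, LinearMap.proj w : (InfinitePlace L → ℝ) →ₗ[ℝ] ℝ)

end Units

/-- **(U-LOG) equivariant logarithmic lattice of the units.** -/
def UnitsLogSpec : Prop :=
  ∀ (K : Type u) (L : Type v) [Field K] [Field L] [NumberField K] [NumberField L] [Algebra K L]
    [IsGalois K L],
    ∃ φ : Additive Lˣ →+ (InfinitePlace L → ℝ),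
      (∀ (τ : L ≃ₐ[K] L) (x : Additive Lˣ),
        φ (unitsHom K L τ x) = permHomR (L ≃ₐ[K] L) (InfinitePlace L) τ (φ x)) ∧
      Finite ↥(φ.ker ⊓ intUnits L) ∧
      ∃ (r : ℕ) (b : Fin r → (InfinitePlace L → ℝ)), LinearIndependent ℝ b ∧
        Submodule.span ℝ (Set.range b) = traceZeroR L ∧
        (intUnits L).map φ = (Submodule.span ℤ (Set.range b)).toAddSubgroup

/-- **(U-ORB) orbits of the infinite places.** -/
def OrbitInfSpec : Prop :=
  ∀ (K : Type u) (L : Type v) [Field K] [Field L] [NumberField K] [NumberField L] [Algebra K L]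
    [IsGalois K L], stabProd (L ≃ₐ[K] L) (InfinitePlace L) = infDegProd K L

/-- **(U) Herbrand quotient of the units**: for `L/K` cyclic of degree `n`,
`h(𝒪_L^×) = (∏_{v | ∞} n_v) / n`. -/
def UnitsHerbrandSpec : Prop :=
  ∀ (K : Type u) (L : Type v) [Field K] [Field L] [NumberField K] [NumberField L] [Algebra K L]
    [IsGalois K L] (σ : L ≃ₐ[K] L), (∀ τ : L ≃ₐ[K] L, τ ∈ Subgroup.zpowers σ) →
      hIndexSub (unitsAug K L σ) (unitsNorm K L) (intUnits L) ≠ 0 ∧
      hIndexSub (unitsNorm K L) (unitsAug K L σ) (intUnits L) ≠ 0 ∧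
      hIndexSub (unitsAug K L σ) (unitsNorm K L) (intUnits L) * Module.finrank K L =
        hIndexSub (unitsNorm K L) (unitsAug K L σ) (intUnits L) * infDegProd K L

/-- **(S-ORD) the valuation map on `T`-units.**  There is an equivariant map from `Lˣ` to the
permutation lattice on the primes above `T` whose kernel on the `T`-units is the group of
units and whose image on the `T`-units has finite index; the stabiliser product of the
`G`-set of primes above `T` is `∏_{v ∈ T} e_v f_v`. -/
def SUnitsOrdSpec : Prop :=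
  ∀ (K : Type u) (L : Type v) [Field K] [Field L] [NumberField K] [NumberField L] [Algebra K L]
    [IsGalois K L] (T : Finset (IsDedekindDomain.HeightOneSpectrum (𝓞 K))),
    ∃ (_ : MulAction (L ≃ₐ[K] L) ↥(primesAbove K L T)) (_ : Fintype ↥(primesAbove K L T))
      (ψ : Additive Lˣ →+ (↥(primesAbove K L T) → ℤ)),
      (∀ (τ : L ≃ₐ[K] L) (x : Additive Lˣ),
        ψ (unitsHom K L τ x) = permHom (L ≃ₐ[K] L) ↥(primesAbove K L T) τ (ψ x)) ∧
      ψ.ker ⊓ sUnits K L T = intUnits L ∧
      ((sUnits K L T).map ψ).index ≠ 0 ∧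
      stabProd (L ≃ₐ[K] L) ↥(primesAbove K L T) = finDegProd K L T

/-- **(S) Herbrand quotient of the `T`-units**: for `L/K` cyclic of degree `n`,
`h(𝒪_{L,T}^×) = (∏_{v | ∞} n_v) (∏_{v ∈ T} e_v f_v) / n`. -/
def SUnitsHerbrandSpec : Prop :=
  ∀ (K : Type u) (L : Type v) [Field K] [Field L] [NumberField K] [NumberField L] [Algebra K L]
    [IsGalois K L] (σ : L ≃ₐ[K] L), (∀ τ : L ≃ₐ[K] L, τ ∈ Subgroup.zpowers σ) →
    ∀ T : Finset (IsDedekindDomain.HeightOneSpectrum (𝓞 K)),
      hIndexSub (unitsAug K L σ) (unitsNorm K L) (sUnits K L T) ≠ 0 ∧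
      hIndexSub (unitsNorm K L) (unitsAug K L σ) (sUnits K L T) ≠ 0 ∧
      hIndexSub (unitsAug K L σ) (unitsNorm K L) (sUnits K L T) * Module.finrank K L =
        hIndexSub (unitsNorm K L) (unitsAug K L σ) (sUnits K L T) *
          (infDegProd K L * finDegProd K L T)

end Fermat.Agent.S55.G
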