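/-
S55, layer G, leaf **G-FI** (first inequality), final glue (helper604):
the first inequality from the places ↔ primes dictionary `PlacePrimeSpec` (G-PL1) alone.

* `jHerbrand_of_placePrime : PlacePrimeSpec → JHerbrandSpec`
* `firstInequalityCycSpec_of_placePrime : PlacePrimeSpec → FirstInequalityCycSpec`
* `firstInequalitySpec_of_placePrime : PlacePrimeSpec → FirstInequalitySpec`

Inputs from main: helper903 `JCount903.jCount_of`, helper604 `JGlueH604.jHerbrand_of_count`,
helper895 `FIH895.firstInequalityCycSpec_of_J`.  No `sorry`.
-/
import Fermat.Agent.S55.G.JGlueClosedH604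
import Fermat.Agent.S55.G.JCount903.Statement

set_option autoImplicit false

open Fermat.Agent.S55.G

namespace Fermat.Agent.S55.G.JGlueH604

/-- **J-GLUE** from G-PL1. -/
theorem jHerbrand_of_placePrime (hPP : PlacePrimeSpec) : FIH895.JHerbrandSpec :=
  jHerbrand_of_count (JCount903.jCount_of hPP)

/-- **G-FIc** (first inequality, cyclic groups of odd order) from G-PL1. -/
theorem firstInequalityCycSpec_of_placePrime (hPP : PlacePrimeSpec) : FirstInequalityCycSpec :=
  firstInequalityCycSpec_of_count (JCount903.jCount_of hPP)

/-- **G-FI** (first inequality, groups of odd prime order) from G-PL1. -/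
theorem firstInequalitySpec_of_placePrime (hPP : PlacePrimeSpec) : FirstInequalitySpec :=
  firstInequalitySpec_of_count (JCount903.jCount_of hPP)

end Fermat.Agent.S55.G.JGlueH604
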