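/-
S55, layer G, leaf **G-FI** (first inequality) — CLOSED, unconditional (helper604 glue).

* `jHerbrand : JHerbrandSpec`                      (`h₀(J_S) = ∏ e_v f_v`, `h₁(J_S) = 1`)
* `firstInequalityCyc : FirstInequalityCycSpec`    (cyclic groups of odd order)
* `firstInequality : FirstInequalitySpec`          (groups of odd prime order)
* `jCount : JCountSpec`, `h1J : H1JSpec`, `shapiroJ`, `placePrime`, `classShortExact`, … restated
  for convenience of consumers.

Inputs, all on main: helper597 `PL1H597.placePrimeSpec` (G-PL1), helper903 `JCount903.jCount_of`,
helper897/303/635 (Shapiro), helper715 `L.Closed.h2CardCyclic` (local cyclic theorem),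
helper895 (`FIH895`, Herbrand assembly), helper595 (`sUnitsHerbrandSpec`), helper604.
No `sorry`.
-/
import Fermat.Agent.S55.G.FIFinalH604
import Fermat.Agent.S55.G.PL1H597.Main

set_option autoImplicit false

open Fermat.Agent.S55.G

namespace Fermat.Agent.S55.G.FIClosedH604

/-- **G-PL1**, unconditional (helper597). -/
theorem placePrime : PlacePrimeSpec := PL1H597.placePrimeSpec

/-- **J-COUNT**, unconditional. -/
theorem jCount : JGlueH604.JCountSpec := JCount903.jCount_of placePrime

/-- **J-GLUE**, unconditional: the Herbrand indices of the `S`-idèles. -/
theorem jHerbrand : FIH895.JHerbrandSpec := JGlueH604.jHerbrand_of_placePrime placePrime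

/-- **G-FIc**, unconditional: the first inequality for cyclic groups of odd order. -/
theorem firstInequalityCyc : FirstInequalityCycSpec :=
  JGlueH604.firstInequalityCycSpec_of_placePrime placePrime

/-- **G-FI**, unconditional: the first inequality for groups of odd prime order. -/
theorem firstInequality : FirstInequalitySpec :=
  JGlueH604.firstInequalitySpec_of_placePrime placePrime

end Fermat.Agent.S55.G.FIClosedH604
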