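/-
S55, layer G, leaf G-SES part (b) (helper604), on top of helper421's `G/Defs.lean`.

The divisor map `ordHom S L : Lˣ → Div^S(L)` has FINITE cokernel (finiteness of the class group),
hence `C_S(L) / C'_S(L)` (`C'_S = jImage = J_S / E_S`) is finite.
-/
import Fermat.Agent.S55.G.Defs
import Fermat.Agent.S55.H901.SelmerFinite

set_option autoImplicit false
set_option linter.unusedSectionVars false

open scoped NumberField nonZeroDivisors
open IsDedekindDomain FractionalIdeal

noncomputable section

namespace Fermat.Agent.S55.G.ClsH604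

open Fermat.Agent.S55.G

variable (S : Finset Nat.Primes) (L : Type) [Field L] [NumberField L]

variable {L} in
/-- `ord_w x` is the multiplicity of `w` in the principal fractional ideal `(x)`. -/
lemma ordAt_eq_count (w : HeightOneSpectrum (𝓞 L)) (x : Additive Lˣ) :
    ordAt w x = count L w (spanSingleton (𝓞 L)⁰ ((x.toMul : Lˣ) : L)) := by
  rw [ordAt_apply, ← HeightOneSpectrum.valuationOfNeZero_eq,
    Fermat.Agent.S55.H901.valuationOfNeZero_eq_count]
  simp
  rfl

/-- The prime `w`, as a unit of the monoid of fractional ideals. -/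
def primeUnit (w : HeightOneSpectrum (𝓞 L)) : (FractionalIdeal (𝓞 L)⁰ L)ˣ :=
  FractionalIdeal.mk0 L ⟨w.asIdeal, mem_nonZeroDivisors_of_ne_zero w.ne_bot⟩

lemma coe_primeUnit (w : HeightOneSpectrum (𝓞 L)) :
    ((primeUnit L w : (FractionalIdeal (𝓞 L)⁰ L)ˣ) : FractionalIdeal (𝓞 L)⁰ L) =
      (w.asIdeal : FractionalIdeal (𝓞 L)⁰ L) := rfl

/-- The fractional ideal `∏ w ^ (d w)` attached to a divisor prime to `S`, as a homomorphism. -/
def divIdeal : (PrimeOut S L →₀ ℤ) →+ Additive (FractionalIdeal (𝓞 L)⁰ L)ˣ :=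
  Finsupp.liftAddHom fun w : PrimeOut S L =>
    (zmultiplesHom (Additive (FractionalIdeal (𝓞 L)⁰ L)ˣ)) (Additive.ofMul (primeUnit L w.1))

lemma divIdeal_single (w : PrimeOut S L) (n : ℤ) :
    divIdeal S L (Finsupp.single w n) = Additive.ofMul (primeUnit L w.1 ^ n) := by
  simp [divIdeal]

/-- the multiplicity of `v` in the fractional ideal attached to `d`. -/
def cnt (v : HeightOneSpectrum (𝓞 L)) : Additive (FractionalIdeal (𝓞 L)⁰ L)ˣ →+ ℤ where
  toFun I := count L v ((I.toMul : (FractionalIdeal (𝓞 L)⁰ L)ˣ) : FractionalIdeal (𝓞 L)⁰ L)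
  map_zero' := by simp [count_one]
  map_add' I J := by
    simp only [toMul_add, Units.val_mul]
    exact count_mul L v (Units.ne_zero _) (Units.ne_zero _)

lemma cnt_apply (v : HeightOneSpectrum (𝓞 L)) (I : Additive (FractionalIdeal (𝓞 L)⁰ L)ˣ) :
    cnt L v I = count L v ((I.toMul : (FractionalIdeal (𝓞 L)⁰ L)ˣ) : FractionalIdeal (𝓞 L)⁰ L) :=
  rfl

lemma cnt_divIdeal (v : PrimeOut S L) (d : PrimeOut S L →₀ ℤ) :
    cnt L v.1 (divIdeal S L d) = d v := by
  classical
  induction d using Finsupp.induction_linear with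
  | zero => simp
  | add f g hf hg => rw [map_add, map_add, hf, hg, Finsupp.add_apply]
  | single w n =>
    rw [divIdeal_single, cnt_apply, toMul_ofMul, Units.val_zpow_eq_zpow_val, coe_primeUnit,
      count_zpow]
    by_cases h : w = v
    · subst h
      rw [count_self, mul_one, Finsupp.single_eq_same]
    · have h' : w.1 ≠ v.1 := fun h' => h (Subtype.ext h')
      rw [count_maximal_coprime L v.1 h', mul_zero, Finsupp.single_eq_of_ne (Ne.symm h)]

/-- The class of a divisor in the class group. -/
def divClass : (PrimeOut S L →₀ ℤ) →+ Additive (ClassGroup (𝓞 L)) :=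
  (MonoidHom.toAdditive (ClassGroup.mk L)).comp (divIdeal S L)

/-- A divisor prime to `S` whose class is trivial is the divisor of an element of `Lˣ`. -/
theorem ker_divClass_le : (divClass S L).ker ≤ (ordHom S L).range := by
  intro d hd
  have h1 : ClassGroup.mk L ((divIdeal S L d).toMul) = 1 := hd
  rw [ClassGroup.mk_eq_one_iff] at h1
  obtain ⟨x, hx⟩ := h1.principal
  have hx' : (((divIdeal S L d).toMul : (FractionalIdeal (𝓞 L)⁰ L)ˣ) :
      FractionalIdeal (𝓞 L)⁰ L) = spanSingleton (𝓞 L)⁰ x := by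
    apply Subtype.coe_injective
    simp only [val_eq_coe, hx, coe_spanSingleton]
  have hx0 : x ≠ 0 := by
    rintro rfl
    have : (((divIdeal S L d).toMul : (FractionalIdeal (𝓞 L)⁰ L)ˣ) :
      FractionalIdeal (𝓞 L)⁰ L) = 0 := by rw [hx']; simp
    exact Units.ne_zero _ this
  refine ⟨Additive.ofMul (Units.mk0 x hx0), ?_⟩
  ext w
  rw [ordHom_apply, ordAt_eq_count, toMul_ofMul, Units.val_mk0, ← hx', ← cnt_apply, cnt_divIdeal]

/-- **G-SES (b).** The image of the divisor map `Lˣ → Div^S(L)` has finite index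
(the quotient is the `S`-class group). -/
instance ordHom_range_finiteIndex : (ordHom S L).range.FiniteIndex :=
  AddSubgroup.finiteIndex_of_le (ker_divClass_le S L)

/-- the index of the image of the divisor map is nonzero. -/
theorem ordHom_range_index_ne_zero : (ordHom S L).range.index ≠ 0 :=
  AddSubgroup.FiniteIndex.index_ne_zero

instance finite_div_quotient : Finite ((PrimeOut S L →₀ ℤ) ⧸ (ordHom S L).range) :=
  AddSubgroup.finite_quotient_of_finiteIndex

end Fermat.Agent.S55.G.ClsH604
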