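/-
S55, layer G, leaf G-SES (helper604), on top of helper421's `G/Defs.lean`.

* `diagHom_injective`   : `Lˣ → J_S(L) × Div^S(L)` is injective for `S ≠ ∅`;
* `primeIn_finite`      : only finitely many primes of `L` lie above `S`;
* `sUnit_eq`            : `sUnit S L` is Mathlib's group of `S`-units (`Set.unit`) for the set of
                          primes above `S`;
* bridge to the Dirichlet `S`-unit theorem of `S55/H604`.
-/
import Fermat.Agent.S55.G.Defs
import Fermat.Agent.S55.H604.SUnitIndex
import Fermat.Agent.S55.H295.Basic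

set_option autoImplicit false
set_option linter.unusedSectionVars false

open scoped NumberField TensorProduct
open IsDedekindDomain

noncomputable section

namespace Fermat.Agent.S55.G.SesH604

open Fermat.Agent.S55.G

/-! ## 1. Injectivity of the diagonal map -/

section Diag

variable (S : Finset Nat.Primes) (L : Type) [Field L] [CharZero L]

lemma nonempty_subtype_of_nonempty (hS : S.Nonempty) : Nonempty S :=
  let ⟨q, hq⟩ := hS
  ⟨⟨q, hq⟩⟩

lemma algebraMap_QS_injective (hS : S.Nonempty) :
    Function.Injective (algebraMap ℚ (QS S)) := by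
  obtain ⟨q, hq⟩ := hS
  intro a b hab
  have h := congrArg (QS.proj S ⟨q, hq⟩) hab
  simpa using h

lemma asDiag_injective (hS : S.Nonempty) : Function.Injective (asDiag S L) :=
  Algebra.TensorProduct.includeLeft_injective (R := ℚ) (S := ℚ) (A := L) (B := QS S)
    (algebraMap_QS_injective S hS)

lemma unitsDiag_injective (hS : S.Nonempty) : Function.Injective (unitsDiag S L) := by
  intro x y hxy
  apply Additive.toMul.injective
  apply Units.ext
  apply asDiag_injective S L hS
  have := congrArg (fun z : Additive (AS S L)ˣ => ((z.toMul : (AS S L)ˣ) : AS S L)) hxy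
  simpa [coe_unitsDiag_apply] using this

end Diag

section Global

variable (S : Finset Nat.Primes) (G L : Type) [Group G] [Field L] [NumberField L]
  [MulSemiringAction G L]

/-- **G-SES (a).** The diagonal map `Lˣ → J_S(L) × Div^S(L)` is injective when `S ≠ ∅`. -/
theorem diagHom_injective (hS : S.Nonempty) : Function.Injective (diagHom S L) := by
  intro x y hxy
  exact unitsDiag_injective S L hS (congrArg Prod.fst hxy)

/-! ## 2. The primes above `S` -/

/-- The set of primes of `L` above `S`. -/
def primeInSet : Set (HeightOneSpectrum (𝓞 L)) := {w | IsAbove S L w}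

lemma mem_primeInSet (w : HeightOneSpectrum (𝓞 L)) : w ∈ primeInSet S L ↔ IsAbove S L w := Iff.rfl

lemma natCast_ne_zero_of_prime (q : Nat.Primes) : ((q : ℕ) : 𝓞 L) ≠ 0 := by
  intro h
  have h2 : ((q : ℕ) : L) = 0 := by
    have := congrArg (algebraMap (𝓞 L) L) h
    simpa using this
  exact q.2.ne_zero (Nat.cast_eq_zero.1 h2)

/-- **G-SES.** Only finitely many primes of `L` lie above `S`. -/
theorem primeInSet_finite : (primeInSet S L).Finite := by
  classical
  have h : primeInSet S L ⊆ ⋃ q ∈ S, {w : HeightOneSpectrum (𝓞 L) |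
      w.asIdeal ∣ Ideal.span {((q : ℕ) : 𝓞 L)}} := by
    rintro w ⟨q, hq, hw⟩
    simp only [Set.mem_iUnion]
    refine ⟨q, hq, ?_⟩
    change w.asIdeal ∣ Ideal.span {((q : ℕ) : 𝓞 L)}
    rw [Ideal.dvd_span_singleton]
    exact hw
  refine Set.Finite.subset ?_ h
  refine Set.Finite.biUnion S.finite_toSet fun q _ => ?_
  exact Ideal.finite_factors (by
    rw [Ne, Ideal.zero_eq_bot, Ideal.span_singleton_eq_bot]
    exact natCast_ne_zero_of_prime L q)

/-- The finite set of primes of `L` above `S`. -/
def primeInFinset : Finset (HeightOneSpectrum (𝓞 L)) := (primeInSet_finite S L).toFinset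

lemma mem_primeInFinset (w : HeightOneSpectrum (𝓞 L)) :
    w ∈ primeInFinset S L ↔ IsAbove S L w := by
  simp [primeInFinset, primeInSet]

lemma coe_primeInFinset :
    (primeInFinset S L : Set (HeightOneSpectrum (𝓞 L))) = primeInSet S L := by
  ext w
  simp [mem_primeInFinset, primeInSet]

instance finite_primeIn : Finite (PrimeIn S L) := (primeInSet_finite S L).to_subtype

lemma natCard_primeIn : Nat.card (PrimeIn S L) = (primeInFinset S L).card := by
  classical
  rw [← Nat.card_eq_finsetCard]
  exact Nat.card_congr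
    { toFun := fun w => ⟨w.1, (mem_primeInFinset S L w.1).2 w.2⟩
      invFun := fun w => ⟨w.1, (mem_primeInFinset S L w.1).1 w.2⟩
      left_inv := fun _ => rfl
      right_inv := fun _ => rfl }

/-! ## 3. The `S`-units -/

lemma mem_sUnit_iff_valuation (x : Additive Lˣ) :
    x ∈ sUnit S L ↔ ∀ w : HeightOneSpectrum (𝓞 L), ¬ IsAbove S L w →
      w.valuation L ((x.toMul : Lˣ) : L) = 1 := by
  rw [mem_sUnit_iff]
  constructor
  · intro h w hw
    exact (ordAt_eq_zero_iff w x).1 (h ⟨w, hw⟩)
  · intro h w
    exact (ordAt_eq_zero_iff w.1 x).2 (h w.1 w.2)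

/-- **G-SES (bridge).** The `S`-units of `Defs.lean` are Mathlib's `S`-units for the set of primes
above `S`. -/
theorem sUnit_toAddSubgroup_eq :
    (sUnit S L).toAddSubgroup =
      ((primeInFinset S L : Set (HeightOneSpectrum (𝓞 L))).unit L).toAddSubgroup := by
  ext x
  rw [Submodule.mem_toAddSubgroup, mem_sUnit_iff_valuation]
  constructor
  · intro h w hw
    exact h w (fun hw' => hw ((Finset.mem_coe).2 ((mem_primeInFinset S L w).2 hw')))
  · intro h w hw
    exact h w (fun hw' => hw ((mem_primeInFinset S L w).1 (Finset.mem_coe.1 hw')))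


open Fermat.Agent.S55.H604 in
/-- The `S`-units of `Defs.lean` as the (additive) group of Mathlib `S`-units. -/
def sUnitEquiv : sUnit S L ≃+ Additive (SUnit L (primeInFinset S L)) where
  toFun x := Additive.ofMul ⟨x.1.toMul, by
    have h : x.1 ∈ (sUnit S L).toAddSubgroup := x.2
    rw [sUnit_toAddSubgroup_eq] at h
    exact h⟩
  invFun y := ⟨Additive.ofMul ((y.toMul : SUnit L (primeInFinset S L)) : Lˣ), by
    have h : Additive.ofMul ((y.toMul : SUnit L (primeInFinset S L)) : Lˣ) ∈
        ((primeInFinset S L : Set (HeightOneSpectrum (𝓞 L))).unit L).toAddSubgroup :=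
      (y.toMul).2
    rw [← sUnit_toAddSubgroup_eq] at h
    exact h⟩
  left_inv x := rfl
  right_inv y := rfl
  map_add' x y := rfl

open Fermat.Agent.S55.H604 in
lemma coe_sUnitEquiv (x : sUnit S L) :
    (((sUnitEquiv S L x).toMul : SUnit L (primeInFinset S L)) : Lˣ) = x.1.toMul := rfl

open Fermat.Agent.S55.H604 in
/-- **Dirichlet's `S`-unit theorem** for `sUnit S L`: finite generation. -/
instance moduleFinite_sUnit : Module.Finite ℤ (sUnit S L) :=
  Module.Finite.equiv (sUnitEquiv S L).toIntLinearEquiv.symm

open Fermat.Agent.S55.H604 in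
/-- **`S`-unit power index** in the vocabulary of `Defs.lean`:
`[E_S : n E_S] = #μ_n(L) · n ^ (#∞ + #{w | S} - 1)`. -/
theorem index_range_nsmul_sUnit' (n : ℕ) (hn : n ≠ 0) :
    (nsmulAddMonoidHom (α := sUnit S L) n).range.index =
      Nat.card (rootsOfUnity n L) *
        n ^ (Fintype.card (NumberField.InfinitePlace L) + Nat.card (PrimeIn S L) - 1) := by
  rw [natCard_primeIn, ← Nat.card_congr (kerNsmulEquiv L (primeInFinset S L) n hn),
    ← index_range_nsmul_sUnit L (primeInFinset S L) n hn,
    ← AddEquiv.map_range_nsmulAddMonoidHom (sUnitEquiv S L) n]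
  exact (AddSubgroup.index_map_equiv _ (sUnitEquiv S L)).symm

open Fermat.Agent.S55.H604 in
/-- If `L` contains a primitive `n`-th root of unity: `[E_S : n E_S] = n ^ (#∞ + #{w | S})`. -/
theorem index_range_nsmul_sUnit_of_primitiveRoot (n : ℕ) (hn : n ≠ 0) {ζ : L}
    (hζ : IsPrimitiveRoot ζ n) :
    (nsmulAddMonoidHom (α := sUnit S L) n).range.index =
      n ^ (Fintype.card (NumberField.InfinitePlace L) + Nat.card (PrimeIn S L)) := by
  have : NeZero n := ⟨hn⟩
  rw [index_range_nsmul_sUnit' S L n hn, hζ.card_rootsOfUnity]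
  have hpos : 0 < Fintype.card (NumberField.InfinitePlace L) := Fintype.card_pos
  have : Fintype.card (NumberField.InfinitePlace L) + Nat.card (PrimeIn S L) =
      (Fintype.card (NumberField.InfinitePlace L) + Nat.card (PrimeIn S L) - 1) + 1 := by omega
  rw [this, pow_succ, Nat.add_sub_cancel, mul_comm]


/-! ## 4. Short exactness of `Lˣ → J_S × Div^S → C_S` -/

open CategoryTheory in
/-- **G-SES (a).** `0 → Lˣ → J_S(L) × Div^S(L) → C_S(L) → 0` is short exact in `Rep ℤ G`
when `S ≠ ∅`. -/
theorem classShortComplex_shortExact (hS : S.Nonempty) :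
    (classShortComplex S G L).ShortExact := by
  refine Fermat.Agent.S55.H295.rep_shortExact_of (k := ℤ) (classShortComplex S G L) ?_ ?_ ?_
  · intro x y hxy
    exact diagHom_injective S L hS hxy
  · intro x hx
    have hx' : x ∈ principal S L := (Submodule.Quotient.mk_eq_zero _).1 hx
    obtain ⟨y, hy⟩ := hx'
    exact ⟨y, hy⟩
  · exact Submodule.mkQ_surjective _

end Global

end Fermat.Agent.S55.G.SesH604
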