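/-
S55, layer G, leaf G-SES part (d) (helper604), on top of helper421's `G/Defs.lean`.

The two short exact sequences of `Rep ℤ G` used for the Herbrand quotient of `C_S(L)`:

* `0 → E_S(L) → J_S(L) → C'_S(L) → 0`      (`ejcShortComplex`,  `C'_S = J_S / E_S`),
* `0 → C'_S(L) → C_S(L) → Cl_S(L) → 0`     (`cclShortComplex`), with `Cl_S(L)` FINITE.
-/
import Fermat.Agent.S55.G.SesH604
import Fermat.Agent.S55.G.ClsH604

set_option autoImplicit false
set_option linter.unusedSectionVars false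

open scoped NumberField TensorProduct
open IsDedekindDomain CategoryTheory

noncomputable section

namespace Fermat.Agent.S55.G.SeqH604

open Fermat.Agent.S55.G Fermat.Agent.S55.G.SesH604 Fermat.Agent.S55.G.ClsH604

variable (S : Finset Nat.Primes) (G L : Type) [Group G] [Field L] [NumberField L]
  [MulSemiringAction G L]

/-! ## 1. `E_S → J_S → C'_S` -/

/-- The map `E_S(L) → J_S(L)`, `e ↦ e ⊗ 1`, as a linear map. -/
def eToJ : sUnit S L →ₗ[ℤ] Additive (AS S L)ˣ :=
  (unitsDiag S L).toIntLinearMap ∘ₗ (sUnit S L).subtype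

@[simp] lemma eToJ_apply (e : sUnit S L) : eToJ S L e = unitsDiag S L e.1 := rfl

lemma eToJ_equivariant (g : G) (e : sUnit S L) :
    eToJ S L (eRepr S G L g e) = jRepr G S L g (eToJ S L e) :=
  unitsDiag_equivariant G S L g e.1

lemma eToJ_injective (hS : S.Nonempty) : Function.Injective (eToJ S L) := by
  intro x y hxy
  exact Subtype.ext (unitsDiag_injective S L hS hxy)

/-- The image of the `S`-units in the `S`-idèles. -/
def eImage : Submodule ℤ (Additive (AS S L)ˣ) := LinearMap.range (eToJ S L)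

lemma eImage_stable (g : G) : eImage S L ≤ (eImage S L).comap (jRepr G S L g) := by
  rintro _ ⟨e, rfl⟩
  exact ⟨eRepr S G L g e, eToJ_equivariant S G L g e⟩

/-- The representation of `G` on `C'_S(L) = J_S(L) / E_S(L)`. -/
def cPrimeRepr : Representation ℤ G (Additive (AS S L)ˣ ⧸ eImage S L) :=
  (jRepr G S L).quotient (eImage S L) (eImage_stable S G L)

/-- `C'_S(L) = J_S(L) / E_S(L)` as an object of `Rep ℤ G`. -/
def CPrimeRep : Rep ℤ G := Rep.of (cPrimeRepr S G L)

/-- `E_S(L) ⟶ J_S(L)` in `Rep ℤ G`. -/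
def eToJRepHom : ERep S G L ⟶ JRep G S L :=
  Rep.ofHom ⟨eToJ S L, fun g => LinearMap.ext fun e => eToJ_equivariant S G L g e⟩

/-- `J_S(L) ⟶ C'_S(L)` in `Rep ℤ G`. -/
def jToCPrimeRepHom : JRep G S L ⟶ CPrimeRep S G L :=
  Rep.ofHom ⟨(eImage S L).mkQ, fun _ => LinearMap.ext fun _ => rfl⟩

/-- The short complex `E_S(L) ⟶ J_S(L) ⟶ C'_S(L)`. -/
def ejcShortComplex : ShortComplex (Rep ℤ G) :=
  ShortComplex.mk (eToJRepHom S G L) (jToCPrimeRepHom S G L) (by
    ext x
    exact (Submodule.Quotient.mk_eq_zero _).2 ⟨x, rfl⟩)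

/-- **G-SES (d1).** `0 → E_S(L) → J_S(L) → C'_S(L) → 0` is short exact when `S ≠ ∅`. -/
theorem ejcShortComplex_shortExact (hS : S.Nonempty) : (ejcShortComplex S G L).ShortExact := by
  refine Fermat.Agent.S55.H295.rep_shortExact_of (k := ℤ) (ejcShortComplex S G L) ?_ ?_ ?_
  · intro x y hxy
    exact eToJ_injective S L hS hxy
  · intro x hx
    have hx' : x ∈ eImage S L := (Submodule.Quotient.mk_eq_zero _).1 hx
    obtain ⟨y, hy⟩ := hx'
    exact ⟨y, hy⟩
  · exact Submodule.mkQ_surjective _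

/-! ## 2. `C'_S → C_S → Cl_S` -/

/-- The linear map `J_S(L) → C_S(L)`. -/
def jToC : Additive (AS S L)ˣ →ₗ[ℤ] CS S L :=
  (principal S L).mkQ ∘ₗ LinearMap.inl ℤ (Additive (AS S L)ˣ) (PrimeOut S L →₀ ℤ)

lemma range_jToC : LinearMap.range (jToC S L) = jImage S L := rfl

lemma jToC_apply (j : Additive (AS S L)ˣ) :
    jToC S L j = Submodule.Quotient.mk ((j, 0) : JD S L) := rfl

/-- `(j, 0)` is principal iff `j` comes from an `S`-unit. -/
lemma jToC_eq_zero_iff (j : Additive (AS S L)ˣ) : jToC S L j = 0 ↔ j ∈ eImage S L := by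
  rw [jToC_apply, Submodule.Quotient.mk_eq_zero]
  constructor
  · rintro ⟨x, hx⟩
    have h1 : unitsDiag S L x = j := congrArg Prod.fst hx
    have h2 : ordHom S L x = 0 := congrArg Prod.snd hx
    exact ⟨⟨x, h2⟩, h1⟩
  · rintro ⟨e, rfl⟩
    refine ⟨e.1, Prod.ext rfl ?_⟩
    exact e.2

lemma ker_jToC : LinearMap.ker (jToC S L) = eImage S L := by
  ext j
  exact jToC_eq_zero_iff S L j

/-- The linear map `C'_S(L) → C_S(L)`. -/
def cPrimeToC : (Additive (AS S L)ˣ ⧸ eImage S L) →ₗ[ℤ] CS S L :=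
  (eImage S L).liftQ (jToC S L) (ker_jToC S L).ge

@[simp] lemma cPrimeToC_mk (j : Additive (AS S L)ˣ) :
    cPrimeToC S L (Submodule.Quotient.mk j) = jToC S L j := rfl

lemma cPrimeToC_injective : Function.Injective (cPrimeToC S L) := by
  rw [← LinearMap.ker_eq_bot, cPrimeToC, Submodule.ker_liftQ_eq_bot _ _ _ (ker_jToC S L).le]

lemma range_cPrimeToC : LinearMap.range (cPrimeToC S L) = jImage S L := by
  rw [cPrimeToC, Submodule.range_liftQ, range_jToC]

lemma jToC_equivariant (g : G) (j : Additive (AS S L)ˣ) :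
    jToC S L (jRepr G S L g j) = cRepr S G L g (jToC S L j) := by
  rw [jToC_apply, jToC_apply]
  change _ = Submodule.Quotient.mk (jdRepr S G L g ((j, 0) : JD S L))
  have h : jdRepr S G L g ((j, 0) : JD S L) = ((jRepr G S L g j, 0) : JD S L) := by
    refine Prod.ext rfl ?_
    simp [jdRepr, Representation.prod]
  rw [h]

lemma cPrimeToC_equivariant (g : G) (c : Additive (AS S L)ˣ ⧸ eImage S L) :
    cPrimeToC S L (cPrimeRepr S G L g c) = cRepr S G L g (cPrimeToC S L c) := by
  induction c using Submodule.Quotient.induction_on with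
  | H j => exact jToC_equivariant S G L g j

lemma jImage_stable (g : G) : jImage S L ≤ (jImage S L).comap (cRepr S G L g) := by
  rintro _ ⟨j, rfl⟩
  exact ⟨jRepr G S L g j, jToC_equivariant S G L g j⟩

/-- The representation of `G` on `Cl_S(L) = C_S(L) / C'_S(L)`. -/
def clRepr : Representation ℤ G (CS S L ⧸ jImage S L) :=
  (cRepr S G L).quotient (jImage S L) (jImage_stable S G L)

/-- The `S`-class group `Cl_S(L) = C_S(L) / C'_S(L)` as an object of `Rep ℤ G`. -/
def ClRep : Rep ℤ G := Rep.of (clRepr S G L)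

/-- `C'_S(L) ⟶ C_S(L)` in `Rep ℤ G`. -/
def cPrimeToCRepHom : CPrimeRep S G L ⟶ CRep S G L :=
  Rep.ofHom ⟨cPrimeToC S L, fun g => LinearMap.ext fun c => cPrimeToC_equivariant S G L g c⟩

/-- `C_S(L) ⟶ Cl_S(L)` in `Rep ℤ G`. -/
def cToClRepHom : CRep S G L ⟶ ClRep S G L :=
  Rep.ofHom ⟨(jImage S L).mkQ, fun _ => LinearMap.ext fun _ => rfl⟩

/-- The short complex `C'_S(L) ⟶ C_S(L) ⟶ Cl_S(L)`. -/
def cclShortComplex : ShortComplex (Rep ℤ G) :=
  ShortComplex.mk (cPrimeToCRepHom S G L) (cToClRepHom S G L) (by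
    ext x
    refine (Submodule.Quotient.mk_eq_zero _).2 ?_
    rw [← range_cPrimeToC]
    exact ⟨x, rfl⟩)

/-- **G-SES (d2).** `0 → C'_S(L) → C_S(L) → Cl_S(L) → 0` is short exact. -/
theorem cclShortComplex_shortExact : (cclShortComplex S G L).ShortExact := by
  refine Fermat.Agent.S55.H295.rep_shortExact_of (k := ℤ) (cclShortComplex S G L) ?_ ?_ ?_
  · intro x y hxy
    exact cPrimeToC_injective S L hxy
  · intro x hx
    have hx' : x ∈ jImage S L := (Submodule.Quotient.mk_eq_zero _).1 hx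
    rw [← range_cPrimeToC] at hx'
    obtain ⟨y, hy⟩ := hx'
    exact ⟨y, hy⟩
  · exact Submodule.mkQ_surjective _

/-! ## 3. Finiteness of `Cl_S` -/

/-- The map `Div^S(L) → Cl_S(L) = C_S(L)/C'_S(L)`. -/
def divToCl : (PrimeOut S L →₀ ℤ) →ₗ[ℤ] (CS S L ⧸ jImage S L) :=
  (jImage S L).mkQ ∘ₗ (principal S L).mkQ ∘ₗ
    LinearMap.inr ℤ (Additive (AS S L)ˣ) (PrimeOut S L →₀ ℤ)

lemma divToCl_surjective : Function.Surjective (divToCl S L) := by
  intro c
  induction c using Submodule.Quotient.induction_on with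
  | H c =>
    induction c using Submodule.Quotient.induction_on with
    | H jd =>
      refine ⟨jd.2, ?_⟩
      change Submodule.Quotient.mk (Submodule.Quotient.mk ((0, jd.2) : JD S L)) = _
      rw [Submodule.Quotient.eq]
      refine ⟨-jd.1, ?_⟩
      change Submodule.Quotient.mk ((-jd.1, 0) : JD S L) = _
      rw [← Submodule.Quotient.mk_sub]
      congr 1
      refine Prod.ext ?_ ?_ <;> simp

lemma ordHom_range_le_ker_divToCl :
    (ordHom S L).range ≤ (divToCl S L).toAddMonoidHom.ker := by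
  rintro _ ⟨x, rfl⟩
  change divToCl S L (ordHom S L x) = 0
  change Submodule.Quotient.mk (Submodule.Quotient.mk ((0, ordHom S L x) : JD S L)) = 0
  rw [Submodule.Quotient.mk_eq_zero]
  refine ⟨-(unitsDiag S L x), ?_⟩
  change Submodule.Quotient.mk ((-(unitsDiag S L x), 0) : JD S L) = _
  rw [eq_comm, ← sub_eq_zero, ← Submodule.Quotient.mk_sub, Submodule.Quotient.mk_eq_zero]
  refine ⟨x, ?_⟩
  refine Prod.ext ?_ ?_ <;> simp

/-- **G-SES (d3).** The `S`-class group `Cl_S(L) = C_S(L) / C'_S(L)` is finite. -/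
instance finite_cl : Finite (CS S L ⧸ jImage S L) := by
  have hfi : (divToCl S L).toAddMonoidHom.ker.FiniteIndex :=
    AddSubgroup.finiteIndex_of_le (ordHom_range_le_ker_divToCl S L)
  have hfin : Finite ((PrimeOut S L →₀ ℤ) ⧸ (divToCl S L).toAddMonoidHom.ker) :=
    AddSubgroup.finite_quotient_of_finiteIndex
  have e := QuotientAddGroup.quotientKerEquivOfSurjective (divToCl S L).toAddMonoidHom
    (divToCl_surjective S L)
  exact Finite.of_equiv _ e.toEquiv

instance finite_ClRep : Finite (ClRep S G L).V := finite_cl S L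

end Fermat.Agent.S55.G.SeqH604
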