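/-
S55, layer G (helper604): proofs of the interface statements `ClassShortExactSpec` (G-SES) and
`ClassGroupFiniteSpec` (G-CL) of helper421's `G/Spec.lean`.
-/
import Fermat.Agent.S55.G.Spec
import Fermat.Agent.S55.G.SeqH604

set_option autoImplicit false
set_option linter.unusedSectionVars false

open scoped NumberField nonZeroDivisors
open IsDedekindDomain FractionalIdeal

noncomputable section

namespace Fermat.Agent.S55.G.SesSpecH604

open Fermat.Agent.S55.G Fermat.Agent.S55.G.SesH604 Fermat.Agent.S55.G.ClsH604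
  Fermat.Agent.S55.G.SeqH604

/-- **G-SES.** -/
theorem classShortExactSpec : ClassShortExactSpec :=
  fun S G L _ _ _ _ hS => classShortComplex_shortExact S G L hS

section

variable (L : Type) [Field L] [NumberField L]

/-- an integral representative of an ideal class. -/
def classRep (C : ClassGroup (𝓞 L)) : (Ideal (𝓞 L))⁰ := (ClassGroup.mk0_surjective C).choose

lemma mk0_classRep (C : ClassGroup (𝓞 L)) : ClassGroup.mk0 (classRep L C) = C :=
  (ClassGroup.mk0_surjective C).choose_spec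

lemma classRep_ne_bot (C : ClassGroup (𝓞 L)) : (classRep L C : Ideal (𝓞 L)) ≠ ⊥ :=
  nonZeroDivisors.coe_ne_zero _

/-- the rational primes dividing the norm of one of the chosen representatives. -/
def badPrimes : Finset Nat.Primes := by
  classical
  exact Finset.subtype Nat.Prime (Finset.univ.biUnion fun C : ClassGroup (𝓞 L) =>
    (Ideal.absNorm (classRep L C : Ideal (𝓞 L))).primeFactors)

lemma mem_badPrimes_of_dvd (C : ClassGroup (𝓞 L)) (q : ℕ) (hq : q.Prime)
    (hdvd : q ∣ Ideal.absNorm (classRep L C : Ideal (𝓞 L))) :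
    (⟨q, hq⟩ : Nat.Primes) ∈ badPrimes L := by
  classical
  have hN : Ideal.absNorm (classRep L C : Ideal (𝓞 L)) ≠ 0 := by
    rw [Ne, Ideal.absNorm_eq_zero_iff]
    exact classRep_ne_bot L C
  have h : q ∈ Finset.univ.biUnion fun C : ClassGroup (𝓞 L) =>
      (Ideal.absNorm (classRep L C : Ideal (𝓞 L))).primeFactors :=
    Finset.mem_biUnion.2 ⟨C, Finset.mem_univ _, Nat.mem_primeFactors.2 ⟨hq, hdvd, hN⟩⟩
  exact Finset.mem_subtype.2 h

variable {L} in
/-- a prime ideal containing a nonzero natural number contains one of its prime factors. -/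
lemma exists_prime_dvd_of_natCast_mem (w : HeightOneSpectrum (𝓞 L)) (n : ℕ) (hn : n ≠ 0)
    (hmem : (n : 𝓞 L) ∈ w.asIdeal) : ∃ q : ℕ, q.Prime ∧ q ∣ n ∧ (q : 𝓞 L) ∈ w.asIdeal := by
  induction n using Nat.recOnMul with
  | zero => exact absurd rfl hn
  | one =>
    exfalso
    apply w.isPrime.ne_top
    rw [Ideal.eq_top_iff_one]
    simpa using hmem
  | prime p hp => exact ⟨p, hp, dvd_rfl, hmem⟩
  | mul a b iha ihb =>
    have ha : a ≠ 0 := fun h => hn (by rw [h, zero_mul])
    have hb : b ≠ 0 := fun h => hn (by rw [h, mul_zero])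
    rw [Nat.cast_mul] at hmem
    rcases w.isPrime.mem_or_mem hmem with h | h
    · obtain ⟨q, hq, hqa, hqw⟩ := iha ha h
      exact ⟨q, hq, hqa.mul_right b, hqw⟩
    · obtain ⟨q, hq, hqb, hqw⟩ := ihb hb h
      exact ⟨q, hq, hqb.mul_left a, hqw⟩

/-- a prime of `L` dividing a chosen representative lies above `badPrimes`. -/
lemma isAbove_of_classRep_le (C : ClassGroup (𝓞 L)) (w : HeightOneSpectrum (𝓞 L))
    (hle : (classRep L C : Ideal (𝓞 L)) ≤ w.asIdeal) : IsAbove (badPrimes L) L w := by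
  have hN : Ideal.absNorm (classRep L C : Ideal (𝓞 L)) ≠ 0 := by
    rw [Ne, Ideal.absNorm_eq_zero_iff]
    exact classRep_ne_bot L C
  obtain ⟨q, hq, hdvd, hqw⟩ := exists_prime_dvd_of_natCast_mem w _ hN
    (hle (Ideal.absNorm_mem _))
  exact ⟨⟨q, hq⟩, mem_badPrimes_of_dvd L C q hq hdvd, hqw⟩

variable {L} in
lemma isAbove_mono {S T : Finset Nat.Primes} (h : S ⊆ T) {w : HeightOneSpectrum (𝓞 L)}
    (hw : IsAbove S L w) : IsAbove T L w := by
  obtain ⟨q, hq, hqw⟩ := hw
  exact ⟨q, h hq, hqw⟩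

variable {L} in
/-- the multiplicity of `w` in an integral ideal not contained in `w` is zero. -/
lemma count_coeIdeal_eq_zero (w : HeightOneSpectrum (𝓞 L)) {I : Ideal (𝓞 L)} (hI : I ≠ ⊥)
    (hle : ¬ I ≤ w.asIdeal) : count L w (I : FractionalIdeal (𝓞 L)⁰ L) = 0 := by
  rw [count_coe L w hI]
  by_contra h
  have h' : (Associates.mk w.asIdeal).count (Associates.mk I).factors ≠ 0 := by
    intro h0
    exact h (by rw [h0]; rfl)
  rw [Associates.count_ne_zero_iff_dvd hI w.irreducible] at h'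
  exact hle (Ideal.dvd_iff_le.1 h')

/-- For `T ⊇ badPrimes`, the divisor map `Lˣ → Div^T(L)` is surjective (`Cl_T(L) = 1`). -/
theorem ordHom_surjective_of_badPrimes_subset (T : Finset Nat.Primes) (hT : badPrimes L ⊆ T) :
    Function.Surjective (ordHom T L) := by
  intro d
  set 𝔞 : (FractionalIdeal (𝓞 L)⁰ L)ˣ := (divIdeal T L d).toMul with h𝔞
  set C : ClassGroup (𝓞 L) := ClassGroup.mk L 𝔞 with hC
  set I : (Ideal (𝓞 L))⁰ := classRep L C⁻¹ with hI
  have hI0 : (I : Ideal (𝓞 L)) ≠ ⊥ := classRep_ne_bot L _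
  have hmk : ClassGroup.mk L (𝔞 * FractionalIdeal.mk0 L I) = 1 := by
    rw [map_mul, ClassGroup.mk_mk0, hI, mk0_classRep, ← hC, mul_inv_cancel]
  rw [ClassGroup.mk_eq_one_iff] at hmk
  obtain ⟨x, hx⟩ := hmk.principal
  have hx' : ((𝔞 * FractionalIdeal.mk0 L I : (FractionalIdeal (𝓞 L)⁰ L)ˣ) :
      FractionalIdeal (𝓞 L)⁰ L) = spanSingleton (𝓞 L)⁰ x := by
    apply Subtype.coe_injective
    simp only [val_eq_coe, hx, coe_spanSingleton]
  have hx0 : x ≠ 0 := by
    rintro rfl
    have : ((𝔞 * FractionalIdeal.mk0 L I : (FractionalIdeal (𝓞 L)⁰ L)ˣ) :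
      FractionalIdeal (𝓞 L)⁰ L) = 0 := by rw [hx']; simp
    exact Units.ne_zero _ this
  refine ⟨Additive.ofMul (Units.mk0 x hx0), ?_⟩
  ext w
  have hw : ¬ (I : Ideal (𝓞 L)) ≤ w.1.asIdeal := fun hle =>
    w.2 (isAbove_mono hT (isAbove_of_classRep_le L _ w.1 hle))
  rw [ordHom_apply, ordAt_eq_count, toMul_ofMul, Units.val_mk0, ← hx', Units.val_mul,
    count_mul L w.1 (Units.ne_zero _) (Units.ne_zero _), FractionalIdeal.coe_mk0,
    count_coeIdeal_eq_zero w.1 hI0 hw, add_zero, h𝔞, ← cnt_apply, cnt_divIdeal]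

/-- If the divisor map is surjective then `J_T(L)` maps onto `C_T(L)`. -/
theorem jImage_eq_top_of_surjective (T : Finset Nat.Primes)
    (h : Function.Surjective (ordHom T L)) : jImage T L = ⊤ := by
  rw [eq_top_iff]
  intro c _
  induction c using Submodule.Quotient.induction_on with
  | H jd =>
    obtain ⟨x, hx⟩ := h jd.2
    refine ⟨jd.1 - unitsDiag T L x, ?_⟩
    change Submodule.Quotient.mk ((jd.1 - unitsDiag T L x, 0) : JD T L) = _
    rw [eq_comm, ← sub_eq_zero, ← Submodule.Quotient.mk_sub, Submodule.Quotient.mk_eq_zero]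
    refine ⟨x, ?_⟩
    refine Prod.ext ?_ ?_
    · simp
    · simp [hx]

end

/-- **G-CL.** -/
theorem classGroupFiniteSpec : ClassGroupFiniteSpec := by
  intro S L _ _
  classical
  refine ⟨?_, S ∪ badPrimes L, Finset.subset_union_left, fun T' hT' => ?_⟩
  · have : Finite (CS S L ⧸ (jImage S L).toAddSubgroup) := finite_cl S L
    exact AddSubgroup.index_ne_zero_of_finite
  · exact jImage_eq_top_of_surjective L T'
      (ordHom_surjective_of_badPrimes_subset L T' (Finset.union_subset_right hT'))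

end Fermat.Agent.S55.G.SesSpecH604
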