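/-
S55, layer G — CLOSED FORMS (helper604 glue): every Spec of `G/Spec.lean`, `G/Spec1b.lean` that
is provable from what is on main, unconditionally, under ONE import.

* structure: `classShortExact`, `classGroupFinite`, `locField`, `placePrime`, `shapiroJ`, `h1J`,
  `descent`;
* inequalities: `firstInequality`, `firstInequalityCyc`, `secondInequality`, `cyclicLayer`;
* output: `pClassUpper : PClassUpperSpec` (G-UP), `cyclicPow : CyclicPowSpec` (G-CYCp).

Open in the layer after this file: `PClassModuleSpec` (lower bound = reciprocity, block REC),
`SIndepSpec`.  No `sorry`.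
-/
import Fermat.Agent.S55.G.FIClosedH604
import Fermat.Agent.S55.G.SesSpecH604
import Fermat.Agent.S55.G.DescH773.Main
import Fermat.Agent.S55.G.UpH119.Main
import Fermat.Agent.S55.G.CycPowH184
import Fermat.Agent.S55.H963.BrIndexBound

set_option autoImplicit false

open Fermat.Agent.S55.G

namespace Fermat.Agent.S55.G.AllH604

/-- **G-SES** (helper604). -/
theorem classShortExact : ClassShortExactSpec := SesSpecH604.classShortExactSpec

/-- **G-CL** (helper604). -/
theorem classGroupFinite : ClassGroupFiniteSpec := SesSpecH604.classGroupFiniteSpec

/-- **G-PL0** (helper713). -/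
theorem locField : LocFieldSpec := PL0H713.locField

/-- **G-PL1** (helper597). -/
theorem placePrime : PlacePrimeSpec := PL1H597.placePrimeSpec

/-- **G-LOC** (helper897, helper303, helper635). -/
theorem shapiroJ : ShapiroJSpec := JGlueH604.shapiroJ

/-- **G-H1J** (helper604). -/
theorem h1J : H1JSpec := H1JH604.h1JSpec

/-- **G-DESC** (helper773). -/
theorem descent : DescentSpec := DescH773.descentSpec

/-- **G-FI** (helper895, helper595, helper903, helper604). -/
theorem firstInequality : FirstInequalitySpec := FIClosedH604.firstInequality

/-- **G-FIc** (helper895, helper595, helper903, helper604). -/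
theorem firstInequalityCyc : FirstInequalityCycSpec := FIClosedH604.firstInequalityCyc

/-- **G-SI** (helper963, helper777, helper357). -/
theorem secondInequality : SecondInequalitySpec := Fermat.Agent.S55.H963.Br.secondInequality

/-- **G-CYC** (helper119). -/
theorem cyclicLayer : CyclicLayerSpec := UpH119.cyclicLayer_of firstInequality secondInequality

/-- **G-UP** (helper119): for a `p`-group `G` (`p` odd, `p ∈ S`, unramified outside `S`,
`μ_p ⊂ L^G`): `H¹(H, C_S(L)) = 0` and `|H²(H, C_S(L))|` divides `|H|` for all `H ≤ G`. -/
theorem pClassUpper : PClassUpperSpec :=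
  UpH119.pClassUpper_of_inequalities firstInequality secondInequality descent

/-- **G-CYCp** (helper184): cyclic `p`-power layers: `H¹ = 0`, `|H²| = |G|`. -/
theorem cyclicPow : CyclicPowSpec := CycPowH184.cyclicPow_of pClassUpper firstInequalityCyc

end Fermat.Agent.S55.G.AllH604
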