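import Fermat.Agent.S55.G.Spec
import Fermat.Agent.S55.Local.H713.T3

/-!
# S55 layer G, leaf G-PL0 : the local fields `L_𝔪` (helper713)

`locField : LocFieldSpec` (unconditional): for a number field `L` and a finite set `S` of rational
primes, `L ⊗[ℚ] ℚ_S` has finitely many maximal ideals and each residue field
`LocField S 𝔪 = (L ⊗ ℚ_S) ⧸ 𝔪` is a local field in the sense of layer `L`.

Reusable API (all for `𝔪 : SPlace S L`):
* `primeOf S L 𝔪 : S` : the rational prime below `𝔪`;
* `ofQq S L 𝔪 : Qq (primeOf S L 𝔪).1 →+* LocField S 𝔪`, with `ofQS_eq`: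
  `LocField.ofQS S 𝔪 y = ofQq S L 𝔪 (QS.toPi S y (primeOf S L 𝔪))`;
* `algQq S L 𝔪 : Algebra (Qq q) (LocField S 𝔪)` (a `def`, NOT an instance), `finite_locField`;
* `intRing S L 𝔪 : ValuationSubring (LocField S 𝔪)` : the ring of integers,
  `isLocalRingOfIntegers_intRing`.
-/

set_option autoImplicit false
set_option linter.unusedSectionVars false
set_option linter.style.haveILetI false

open scoped NumberField TensorProduct
open IsLocalRing

namespace Fermat.Agent.S55.G.PL0H713

open Fermat.Agent.S55.G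

variable (S : Finset Nat.Primes) (L : Type) [Field L] [NumberField L]

/-! ## Finiteness of the set of places -/

lemma isArtinianRing_QS : IsArtinianRing (QS S) :=
  inferInstanceAs (IsArtinianRing (∀ q : S, Qq q.1))

lemma isArtinianRing_AS : IsArtinianRing (AS S L) := by
  haveI := isArtinianRing_QS S
  haveI : Module.Finite (QS S) (QS S ⊗[ℚ] L) := inferInstance
  haveI : IsArtinianRing (QS S ⊗[ℚ] L) := IsArtinianRing.of_finite (QS S) _
  exact (Algebra.TensorProduct.comm ℚ L (QS S)).symm.toRingEquiv.isArtinianRing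

lemma finite_sPlace : Finite (SPlace S L) := by
  haveI := isArtinianRing_AS S L
  infer_instance

/-! ## The rational prime below a place -/

/-- The element of `ℚ_S` with `q`-component `x` and all other components `0`. -/
noncomputable def single (q : S) (x : Qq q.1) : QS S :=
  (QS.toPi S).symm (by classical exact Pi.single (M := fun q : S => Qq q.1) q x)

lemma single_apply_same (q : S) (x : Qq q.1) : QS.toPi S (single S q x) q = x := by
  classical
  exact Pi.single_eq_same (M := fun q : S => Qq q.1) q x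

lemma single_apply_ne (q q' : S) (h : q' ≠ q) (x : Qq q.1) : QS.toPi S (single S q x) q' = 0 := by
  classical
  exact Pi.single_eq_of_ne (M := fun q : S => Qq q.1) h x

lemma QS_ext {y z : QS S} (h : ∀ q : S, QS.toPi S y q = QS.toPi S z q) : y = z :=
  funext h

lemma single_zero (q : S) : single S q 0 = 0 := by
  refine QS_ext S fun q' => ?_
  by_cases h : q' = q
  · subst h; rw [single_apply_same]; rfl
  · rw [single_apply_ne S q q' h]; rfl

lemma single_add (q : S) (x y : Qq q.1) : single S q (x + y) = single S q x + single S q y := by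
  refine QS_ext S fun q' => ?_
  rw [map_add, Pi.add_apply]
  by_cases h : q' = q
  · subst h; rw [single_apply_same, single_apply_same, single_apply_same]
  · rw [single_apply_ne S q q' h, single_apply_ne S q q' h, single_apply_ne S q q' h, add_zero]

lemma single_mul (q : S) (x y : Qq q.1) : single S q (x * y) = single S q x * single S q y := by
  refine QS_ext S fun q' => ?_
  rw [map_mul, Pi.mul_apply]
  by_cases h : q' = q
  · subst h; rw [single_apply_same, single_apply_same, single_apply_same]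
  · rw [single_apply_ne S q q' h, single_apply_ne S q q' h, zero_mul]

lemma mul_single_one (q : S) (y : QS S) :
    y * single S q 1 = single S q (QS.toPi S y q) := by
  refine QS_ext S fun q' => ?_
  rw [map_mul, Pi.mul_apply]
  by_cases h : q' = q
  · subst h; rw [single_apply_same, single_apply_same, mul_one]
  · rw [single_apply_ne S q q' h, single_apply_ne S q q' h, mul_zero]

lemma sum_single_one : ∑ q : S, single S q 1 = 1 := by
  classical
  refine QS_ext S fun q' => ?_
  rw [map_sum, Finset.sum_apply, Finset.sum_eq_single q']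
  · rw [single_apply_same]; rfl
  · intro q _ h
    exact single_apply_ne S q q' h.symm 1
  · intro h
    exact absurd (Finset.mem_univ q') h

variable {L}

lemma ofQS_single_one (𝔪 : SPlace S L) (q : S) :
    LocField.ofQS S 𝔪 (single S q 1) = 0 ∨ LocField.ofQS S 𝔪 (single S q 1) = 1 := by
  have h : LocField.ofQS S 𝔪 (single S q 1) * LocField.ofQS S 𝔪 (single S q 1) =
      LocField.ofQS S 𝔪 (single S q 1) := by
    rw [← map_mul, ← single_mul, mul_one]
  rcases eq_or_ne (LocField.ofQS S 𝔪 (single S q 1)) 0 with h0 | h0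
  · exact Or.inl h0
  · exact Or.inr (mul_left_cancel₀ h0 (by rw [h, mul_one]))

lemma exists_prime (𝔪 : SPlace S L) : ∃ q : S, LocField.ofQS S 𝔪 (single S q 1) = 1 := by
  by_contra hne
  have h0 : ∀ q : S, LocField.ofQS S 𝔪 (single S q 1) = 0 := fun q =>
    (ofQS_single_one S 𝔪 q).resolve_right (fun h => hne ⟨q, h⟩)
  have h1 : LocField.ofQS S 𝔪 1 = 0 := by
    rw [← sum_single_one S, map_sum]
    exact Finset.sum_eq_zero fun q _ => h0 q
  rw [map_one] at h1
  exact one_ne_zero h1

variable (L)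

/-- The rational prime `q ∈ S` below the place `𝔪`. -/
noncomputable def primeOf (𝔪 : SPlace S L) : S := (exists_prime S 𝔪).choose

lemma ofQS_single_primeOf (𝔪 : SPlace S L) :
    LocField.ofQS S 𝔪 (single S (primeOf S L 𝔪) 1) = 1 := (exists_prime S 𝔪).choose_spec

/-- The embedding `ℚ_q → L_𝔪`, `q` the prime below `𝔪`. -/
noncomputable def ofQq (𝔪 : SPlace S L) : Qq (primeOf S L 𝔪).1 →+* LocField S 𝔪 where
  toFun x := LocField.ofQS S 𝔪 (single S (primeOf S L 𝔪) x)
  map_one' := ofQS_single_primeOf S L 𝔪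
  map_mul' x y := by rw [single_mul, map_mul]
  map_zero' := by rw [single_zero, map_zero]
  map_add' x y := by rw [single_add, map_add]

lemma ofQq_apply (𝔪 : SPlace S L) (x : Qq (primeOf S L 𝔪).1) :
    ofQq S L 𝔪 x = LocField.ofQS S 𝔪 (single S (primeOf S L 𝔪) x) := rfl

/-- The `ℚ_S`-algebra structure of `L_𝔪` factors through `ℚ_q`. -/
lemma ofQS_eq (𝔪 : SPlace S L) (y : QS S) :
    LocField.ofQS S 𝔪 y = ofQq S L 𝔪 (QS.toPi S y (primeOf S L 𝔪)) := by
  rw [ofQq_apply, ← mul_single_one, map_mul, ofQS_single_primeOf, mul_one]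

/-- The `ℚ_q`-algebra structure on `L_𝔪` (NOT a global instance). -/
@[reducible] noncomputable def algQq (𝔪 : SPlace S L) :
    Algebra (Qq (primeOf S L 𝔪).1) (LocField S 𝔪) :=
  (ofQq S L 𝔪).toAlgebra

lemma mk_tmul (𝔪 : SPlace S L) (l : L) (y : QS S) :
    LocField.mk S 𝔪 (l ⊗ₜ[ℚ] y) = toLoc S 𝔪 l * LocField.ofQS S 𝔪 y := by
  have : (l ⊗ₜ[ℚ] y : AS S L) = asDiag S L l * asIncl S L y := by
    rw [asDiag_apply]
    change _ = (l ⊗ₜ[ℚ] (1 : QS S)) * ((1 : L) ⊗ₜ[ℚ] y)
    rw [Algebra.TensorProduct.tmul_mul_tmul, mul_one, one_mul]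
  rw [this, map_mul]
  rfl

lemma toLoc_algebraMap (𝔪 : SPlace S L) (c : ℚ) :
    toLoc S 𝔪 (algebraMap ℚ L c) = ofQq S L 𝔪 (algebraMap ℚ _ c) := by
  have h : (toLoc S 𝔪).comp (algebraMap ℚ L) = (ofQq S L 𝔪).comp (algebraMap ℚ _) :=
    Subsingleton.elim _ _
  exact congrArg (fun f => f c) h

lemma finite_locField (𝔪 : SPlace S L) :
    letI := algQq S L 𝔪
    Module.Finite (Qq (primeOf S L 𝔪).1) (LocField S 𝔪) := by
  letI := algQq S L 𝔪
  classical
  let b := Module.finBasis ℚ L
  refine ⟨⟨Finset.univ.image (fun i => toLoc S 𝔪 (b i)), ?_⟩⟩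
  rw [eq_top_iff]
  rintro x -
  have hb : ∀ i, toLoc S 𝔪 (b i) ∈ Submodule.span (Qq (primeOf S L 𝔪).1)
      ((Finset.univ.image (fun i => toLoc S 𝔪 (b i)) : Finset (LocField S 𝔪)) :
        Set (LocField S 𝔪)) := fun i =>
    Submodule.subset_span (Finset.mem_coe.2 (Finset.mem_image_of_mem _ (Finset.mem_univ i)))
  have hL : ∀ l : L, toLoc S 𝔪 l ∈ Submodule.span (Qq (primeOf S L 𝔪).1)
      ((Finset.univ.image (fun i => toLoc S 𝔪 (b i)) : Finset (LocField S 𝔪)) :
        Set (LocField S 𝔪)) := by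
    intro l
    rw [← b.sum_repr l, map_sum]
    refine Submodule.sum_mem _ fun i _ => ?_
    rw [Algebra.smul_def, map_mul, toLoc_algebraMap]
    exact Submodule.smul_mem _ _ (hb i)
  obtain ⟨a, rfl⟩ := LocField.mk_surjective S 𝔪 x
  induction a using TensorProduct.induction_on with
  | zero => rw [map_zero]; exact Submodule.zero_mem _
  | tmul l y =>
    rw [mk_tmul, ofQS_eq, mul_comm]
    exact Submodule.smul_mem _ _ (hL l)
  | add a b ha hb => rw [map_add]; exact Submodule.add_mem _ ha hb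

lemma charZero_locField (𝔪 : SPlace S L) : CharZero (LocField S 𝔪) :=
  charZero_of_injective_ringHom (ofQq S L 𝔪).injective

/-! ## The ring of integers -/

/-- A finite extension of `ℚ_q` is a local field in the sense of layer `L`; its ring of integers
is `Local.H713.intVS ℤ_[q] ℚ_[q] E`. -/
lemma isLocalRingOfIntegers_intVS (q : ℕ) [Fact q.Prime] (E : Type) [Field E] [Algebra ℚ_[q] E]
    [FiniteDimensional ℚ_[q] E] :
    Fermat.Agent.S55.L.IsLocalRingOfIntegers
      (Fermat.Agent.S55.Local.H713.intVS ℤ_[q] ℚ_[q] E) :=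
  ⟨Fermat.Agent.S55.Local.H713.isDVR_intVS ℤ_[q] ℚ_[q] E,
    Fermat.Agent.S55.Local.H713.isAdicComplete_intVS ℤ_[q] ℚ_[q] E,
    Fermat.Agent.S55.Local.H713.finite_residueField_intVS ℤ_[q] ℚ_[q] E⟩

lemma isLocalFld_of_finite_padic (q : ℕ) [Fact q.Prime] (E : Type) [Field E] [Algebra ℚ_[q] E]
    [FiniteDimensional ℚ_[q] E] : Fermat.Agent.S55.L.IsLocalFld E :=
  ⟨charZero_of_injective_algebraMap (algebraMap ℚ_[q] E).injective,
    ⟨_, isLocalRingOfIntegers_intVS q E⟩⟩

/-- The ring of integers of `L_𝔪`. -/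
noncomputable def intRing (𝔪 : SPlace S L) : ValuationSubring (LocField S 𝔪) :=
  haveI : Fact (Nat.Prime ((primeOf S L 𝔪).1 : ℕ)) := ⟨(primeOf S L 𝔪).1.2⟩
  @Fermat.Agent.S55.Local.H713.intVS ℤ_[((primeOf S L 𝔪).1 : ℕ)] ℚ_[((primeOf S L 𝔪).1 : ℕ)]
    _ _ _ _ _ _ _ _ _ (LocField S 𝔪) _ (algQq S L 𝔪) (finite_locField S L 𝔪)

lemma isLocalRingOfIntegers_intRing (𝔪 : SPlace S L) :
    Fermat.Agent.S55.L.IsLocalRingOfIntegers (intRing S L 𝔪) := by
  unfold intRing
  exact @isLocalRingOfIntegers_intVS ((primeOf S L 𝔪).1 : ℕ) ⟨(primeOf S L 𝔪).1.2⟩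
    (LocField S 𝔪) _ (algQq S L 𝔪) (finite_locField S L 𝔪)

lemma isLocalFld_locField (𝔪 : SPlace S L) : Fermat.Agent.S55.L.IsLocalFld (LocField S 𝔪) :=
  ⟨charZero_locField S L 𝔪, ⟨intRing S L 𝔪, isLocalRingOfIntegers_intRing S L 𝔪⟩⟩

/-- **G-PL0.** -/
theorem locField : LocFieldSpec := fun S L _ _ =>
  ⟨finite_sPlace S L, fun 𝔪 => isLocalFld_locField S L 𝔪⟩

end Fermat.Agent.S55.G.PL0H713
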