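/-
S55, layer G, block G-U, leaf **GU-LAT** (subtask 178): the lattice lemma `LatticeSpec`.

Two `s`-stable `ℤ`-lattices `Λ₁ = ⊕ ℤ b₁ i`, `Λ₂ = ⊕ ℤ b₂ i` with the same real span
(`s` a real-linear map with `s ^ n = 1`) have finite Herbrand indices and the same Herbrand
quotient.

Proof.  Choose integer matrices `S₁, S₂` of `s` in the two bases and a real change-of-basis
matrix `P` (`P S₁ = S₂ P`, `det P ≠ 0`).  The averaging operator
`X ↦ ∑_{i<n} S₂^i X S₁^{-i}` produces intertwiners and maps `P` to `n • P`; its determinant is a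
polynomial in the entries of `X` which does not vanish at `P`, hence does not vanish at some
integer point (`MvPolynomial.funext` over `ℤ`).  The resulting integer intertwiner `Y`
(`det Y ≠ 0`) is an equivariant injection `ℤ^r → ℤ^r` with finite cokernel, so the Herbrand
quotients agree (`herbrand_eq_of_finite_coker`).  Finiteness: `Ĥ⁰`, `Ĥ⁻¹` of a finitely
generated group are finitely generated and killed by `n`.

Main result: `Fermat.Agent.S55.G.Lat793.latticeSpec : LatticeSpec`.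
Author: helper793.
-/
import Mathlib
import Fermat.Agent.S55.G.SpecUnits
import Fermat.Agent.S55.Herbrand.Cyclic

set_option autoImplicit false

namespace Fermat.Agent.S55.G.Lat793

open Fermat.Agent.S55.Herbrand

universe u

section Index

variable {M : Type*} [AddCommGroup M]

/-- A subgroup of a finitely generated abelian group containing all `d`-th multiples (`d ≠ 0`)
has finite index. -/
lemma index_ne_zero_of_zsmul_mem [Module.Finite ℤ M] (H : AddSubgroup M) (d : ℤ) (hd : d ≠ 0)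
    (h : ∀ x, d • x ∈ H) : H.index ≠ 0 := by
  have : AddGroup.FG M := Module.Finite.iff_addGroup_fg.mp inferInstance
  have : Module.Finite ℤ (M ⧸ H) := Module.Finite.iff_addGroup_fg.mpr inferInstance
  have : Finite (M ⧸ H) := Module.finite_of_fg_torsion _ (by
    intro x
    refine ⟨⟨d, mem_nonZeroDivisors_of_ne_zero hd⟩, ?_⟩
    obtain ⟨y, rfl⟩ := QuotientAddGroup.mk_surjective x
    show d • (y : M ⧸ H) = 0
    rw [← QuotientAddGroup.mk_zsmul, QuotientAddGroup.eq_zero_iff]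
    exact h y)
  exact AddSubgroup.index_ne_zero_of_finite

lemma relIndex_ne_zero_of_nsmul_mem [Module.Finite ℤ M] (H K : AddSubgroup M) (n : ℕ)
    (hn : n ≠ 0) (h : ∀ x ∈ K, n • x ∈ H) : H.relIndex K ≠ 0 := by
  have : IsNoetherian ℤ M := inferInstance
  have : Module.Finite ℤ ↥(AddSubgroup.toIntSubmodule K) := inferInstance
  have : Module.Finite ℤ ↥K := ‹Module.Finite ℤ ↥(AddSubgroup.toIntSubmodule K)›
  unfold AddSubgroup.relIndex
  refine index_ne_zero_of_zsmul_mem _ (n : ℤ) (by exact_mod_cast hn) ?_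
  rintro ⟨x, hx⟩
  rw [AddSubgroup.mem_addSubgroupOf, natCast_zsmul]
  exact h x hx

end Index

section Defined

variable {M : Type*} [AddCommGroup M]

lemma normN_eq_nsmul_of_fixed (σ : AddMonoid.End M) (n : ℕ) (x : M) (hx : σ x = x) :
    normN σ n x = n • x := by
  rw [normN_apply]
  have : ∀ i : ℕ, (σ ^ i) x = x := by
    intro i
    induction i with
    | zero => simp
    | succ k ih =>
      rw [pow_succ]
      change (σ ^ k) (σ x) = x
      rw [hx, ih]
  simp [this]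

lemma pow_sub_one_mem_range_delta (σ : AddMonoid.End M) (i : ℕ) (x : M) :
    (σ ^ i) x - x ∈ (delta σ).range := by
  have h : (σ - 1) * ∑ j ∈ Finset.range i, σ ^ j = σ ^ i - 1 := mul_geom_sum σ i
  refine ⟨(∑ j ∈ Finset.range i, σ ^ j : AddMonoid.End M) x, ?_⟩
  have := DFunLike.congr_fun h x
  exact this

lemma nsmul_mem_range_delta_of_normN_eq_zero (σ : AddMonoid.End M) (n : ℕ) (x : M)
    (hx : normN σ n x = 0) : n • x ∈ (delta σ).range := by
  have h1 : n • x = - ∑ i ∈ Finset.range n, ((σ ^ i) x - x) := by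
    rw [Finset.sum_sub_distrib, ← normN_apply, hx]
    simp
  rw [h1]
  exact (delta σ).range.neg_mem
    ((delta σ).range.sum_mem fun i _ => pow_sub_one_mem_range_delta σ i x)

/-- Both Herbrand indices of a finitely generated abelian group with an automorphism of finite
order are finite. -/
theorem herbrandDefined_of_fg [Module.Finite ℤ M] (σ : AddMonoid.End M) (n : ℕ) (hn : 0 < n) :
    HerbrandDefined σ n := by
  refine ⟨?_, ?_⟩
  · unfold hIndex
    refine relIndex_ne_zero_of_nsmul_mem _ _ n hn.ne' ?_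
    intro x hx
    rw [AddMonoidHom.mem_ker, delta_apply, sub_eq_zero] at hx
    exact ⟨x, normN_eq_nsmul_of_fixed σ n x hx⟩
  · unfold hIndex
    refine relIndex_ne_zero_of_nsmul_mem _ _ n hn.ne' ?_
    intro x hx
    exact nsmul_mem_range_delta_of_normN_eq_zero σ n x (AddMonoidHom.mem_ker.1 hx)

end Defined

section Avg

variable {𝔐 : Type*} [Ring 𝔐]

/-- The averaging operator `x ↦ ∑_{i<n} a^i x t^i`. -/
def avgOp (a t : 𝔐) (n : ℕ) (x : 𝔐) : 𝔐 := ∑ i ∈ Finset.range n, a ^ i * x * t ^ i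

lemma map_avgOp {𝔐' : Type*} [Ring 𝔐'] (f : 𝔐 →+* 𝔐') (a t : 𝔐) (n : ℕ) (x : 𝔐) :
    f (avgOp a t n x) = avgOp (f a) (f t) n (f x) := by
  simp [avgOp, map_sum]

lemma avgOp_intertwine (a b t : 𝔐) (n : ℕ) (htb : t * b = 1) (ha : a ^ n = 1)
    (ht : t ^ n = 1) (x : 𝔐) : avgOp a t n x * b = a * avgOp a t n x := by
  have h1 : a * avgOp a t n x * t = avgOp a t n x := by
    unfold avgOp
    rw [Finset.mul_sum, Finset.sum_mul]
    have h : ∀ i, a * (a ^ i * x * t ^ i) * t = a ^ (i + 1) * x * t ^ (i + 1) := by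
      intro i
      rw [pow_succ', pow_succ]
      simp only [mul_assoc]
    simp_rw [h]
    have h2 := Finset.sum_range_succ (fun i => a ^ i * x * t ^ i) n
    have h3 := Finset.sum_range_succ' (fun i => a ^ i * x * t ^ i) n
    simp only [pow_zero, one_mul, mul_one, ha, ht] at h2 h3
    exact add_right_cancel (h3.symm.trans h2)
  calc avgOp a t n x * b = a * avgOp a t n x * t * b := by rw [h1]
    _ = a * avgOp a t n x * (t * b) := by simp only [mul_assoc]
    _ = a * avgOp a t n x := by rw [htb, mul_one]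

lemma avgOp_of_intertwine (a b t p : 𝔐) (n : ℕ) (hbt : b * t = 1)
    (hp : p * b = a * p) : avgOp a t n p = n • p := by
  have h1 : ∀ i : ℕ, a ^ i * p = p * b ^ i := by
    intro i
    induction i with
    | zero => simp
    | succ k ih => rw [pow_succ, mul_assoc, ← hp, ← mul_assoc, ih, mul_assoc, ← pow_succ]
  have h2 : ∀ i : ℕ, b ^ i * t ^ i = 1 := by
    intro i
    induction i with
    | zero => simp
    | succ k ih =>
      rw [pow_succ, pow_succ', mul_assoc, ← mul_assoc b, hbt, one_mul, ih]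
  unfold avgOp
  have : ∀ i ∈ Finset.range n, a ^ i * p * t ^ i = p := by
    intro i _
    rw [h1, mul_assoc, h2, mul_one]
  rw [Finset.sum_congr rfl this]
  simp

end Avg

section MatrixLemma

variable {r : ℕ}

lemma mapMatrix_castInt {R R' : Type*} [CommRing R] [CommRing R'] (f : R →+* R')
    (S : Matrix (Fin r) (Fin r) ℤ) :
    f.mapMatrix ((Int.castRingHom R).mapMatrix S) = (Int.castRingHom R').mapMatrix S := by
  ext i j
  simp

/-- **Rational structure of intertwiners.**  If two integer matrices of finite order are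
conjugate over `ℝ`, there is an integer intertwiner with nonzero determinant. -/
theorem exists_int_intertwiner {n : ℕ} (hn : 0 < n) (S₁ S₂ : Matrix (Fin r) (Fin r) ℤ)
    (h₁ : S₁ ^ n = 1) (h₂ : S₂ ^ n = 1) (P : Matrix (Fin r) (Fin r) ℝ) (hP : P.det ≠ 0)
    (hPS : P * (Int.castRingHom ℝ).mapMatrix S₁ = (Int.castRingHom ℝ).mapMatrix S₂ * P) :
    ∃ Y : Matrix (Fin r) (Fin r) ℤ, Y.det ≠ 0 ∧ Y * S₁ = S₂ * Y := by
  classical
  -- the inverse of `S₁`
  set T₁ : Matrix (Fin r) (Fin r) ℤ := S₁ ^ (n - 1) with hT₁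
  have hST : S₁ * T₁ = 1 := by
    rw [hT₁, ← pow_succ', Nat.sub_add_cancel hn, h₁]
  have hTS : T₁ * S₁ = 1 := by
    rw [hT₁, ← pow_succ, Nat.sub_add_cancel hn, h₁]
  have hTn : T₁ ^ n = 1 := by
    rw [hT₁, ← pow_mul, mul_comm, pow_mul, h₁, one_pow]
  -- the generic matrix
  let 𝔓 := MvPolynomial (Fin r × Fin r) ℤ
  let Xg : Matrix (Fin r) (Fin r) 𝔓 := Matrix.of fun i j => MvPolynomial.X (i, j)
  let c𝔓 : Matrix (Fin r) (Fin r) ℤ →+* Matrix (Fin r) (Fin r) 𝔓 := (Int.castRingHom 𝔓).mapMatrix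
  let D : 𝔓 := (avgOp (c𝔓 S₂) (c𝔓 T₁) n Xg).det
  -- evaluation at `P`
  have hD : D ≠ 0 := by
    intro hD0
    let φ : 𝔓 →+* ℝ := MvPolynomial.eval₂Hom (Int.castRingHom ℝ) (fun p => P p.1 p.2)
    have hφX : φ.mapMatrix Xg = P := by
      ext i j
      show MvPolynomial.eval₂ _ _ (MvPolynomial.X (i, j)) = _
      rw [MvPolynomial.eval₂_X]
    have h1 : φ D = (avgOp ((Int.castRingHom ℝ).mapMatrix S₂)
        ((Int.castRingHom ℝ).mapMatrix T₁) n P).det := by
      show φ (avgOp (c𝔓 S₂) (c𝔓 T₁) n Xg).det = _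
      rw [RingHom.map_det, map_avgOp, mapMatrix_castInt, mapMatrix_castInt, hφX]
    rw [avgOp_of_intertwine _ ((Int.castRingHom ℝ).mapMatrix S₁) _ P n
      (by rw [← map_mul, hST, map_one]) hPS, hD0, map_zero] at h1
    rw [← Nat.cast_smul_eq_nsmul ℝ, Matrix.det_smul] at h1
    have : ((n : ℕ) : ℝ) ^ Fintype.card (Fin r) * P.det ≠ 0 :=
      mul_ne_zero (pow_ne_zero _ (by exact_mod_cast hn.ne')) hP
    exact this h1.symm
  -- an integer point where `D` does not vanish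
  obtain ⟨y, hy⟩ : ∃ y : Fin r × Fin r → ℤ, MvPolynomial.eval y D ≠ 0 := by
    by_contra hcon
    push Not at hcon
    exact hD (MvPolynomial.funext fun y => by rw [hcon y, map_zero])
  let Y₀ : Matrix (Fin r) (Fin r) ℤ := Matrix.of fun i j => y (i, j)
  have hψX : (MvPolynomial.eval y).mapMatrix Xg = Y₀ := by
    ext i j
    show MvPolynomial.eval y (MvPolynomial.X (i, j)) = _
    rw [MvPolynomial.eval_X]
    rfl
  have hcast : ∀ S : Matrix (Fin r) (Fin r) ℤ, (Int.castRingHom ℤ).mapMatrix S = S := by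
    intro S
    ext i j
    simp
  have h2 : MvPolynomial.eval y D = (avgOp S₂ T₁ n Y₀).det := by
    show MvPolynomial.eval y (avgOp (c𝔓 S₂) (c𝔓 T₁) n Xg).det = _
    rw [RingHom.map_det, map_avgOp, mapMatrix_castInt, mapMatrix_castInt, hψX, hcast, hcast]
  refine ⟨avgOp S₂ T₁ n Y₀, ?_, ?_⟩
  · rw [← h2]
    exact hy
  · exact avgOp_intertwine S₂ S₁ T₁ n hTS h₂ hTn Y₀

end MatrixLemma

section Model

variable {V : Type*} [AddCommGroup V] {r : ℕ}

/-- `∑ x_j c_j` in terms of `b`, when `c_j = ∑ A_ij b_i`. -/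
lemma sum_mulVec_smul {R : Type*} [CommRing R] [Module R V] (b c : Fin r → V)
    (A : Matrix (Fin r) (Fin r) R) (h : ∀ j, c j = ∑ i, A i j • b i) (x : Fin r → R) :
    ∑ i, (A.mulVec x) i • b i = ∑ j, x j • c j := by
  simp only [Matrix.mulVec, dotProduct, Finset.sum_smul, h, Finset.smul_sum, smul_smul]
  rw [Finset.sum_comm]
  refine Finset.sum_congr rfl fun j _ => Finset.sum_congr rfl fun i _ => ?_
  rw [mul_comm]

/-- integer coordinates -/
noncomputable def iZ (b : Fin r → V) : (Fin r → ℤ) →+ V :=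
  (Fintype.linearCombination ℤ b).toAddMonoidHom

lemma iZ_apply (b : Fin r → V) (c : Fin r → ℤ) : iZ b c = ∑ i, c i • b i :=
  Fintype.linearCombination_apply ℤ b c

lemma iZ_range (b : Fin r → V) :
    (iZ b).range = (Submodule.span ℤ (Set.range b)).toAddSubgroup := by
  ext x
  rw [AddMonoidHom.mem_range, Submodule.mem_toAddSubgroup,
    Submodule.mem_span_range_iff_exists_fun]
  simp only [iZ_apply]

/-- the endomorphism of `ℤ^r` attached to an integer matrix -/
def mvEnd (S : Matrix (Fin r) (Fin r) ℤ) : AddMonoid.End (Fin r → ℤ) :=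
  (Matrix.mulVecLin S).toAddMonoidHom

@[simp] lemma mvEnd_apply (S : Matrix (Fin r) (Fin r) ℤ) (v : Fin r → ℤ) :
    mvEnd S v = S.mulVec v := rfl

/-- the additive endomorphism of `ℤ^r` attached to an integer matrix, as a plain hom -/
def mvHom (Y : Matrix (Fin r) (Fin r) ℤ) : (Fin r → ℤ) →+ (Fin r → ℤ) :=
  (Matrix.mulVecLin Y).toAddMonoidHom

@[simp] lemma mvHom_apply (Y : Matrix (Fin r) (Fin r) ℤ) (v : Fin r → ℤ) :
    mvHom Y v = Y.mulVec v := rfl

lemma mvEnd_pow_apply (S : Matrix (Fin r) (Fin r) ℤ) (k : ℕ) (v : Fin r → ℤ) :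
    (mvEnd S ^ k) v = (S ^ k).mulVec v := by
  induction k generalizing v with
  | zero => simp
  | succ k ih =>
    rw [pow_succ, pow_succ]
    change (mvEnd S ^ k) (mvEnd S v) = _
    rw [ih, mvEnd_apply, Matrix.mulVec_mulVec]

lemma mvEnd_pow_eq_one (S : Matrix (Fin r) (Fin r) ℤ) (n : ℕ) (h : S ^ n = 1) :
    mvEnd S ^ n = 1 := by
  ext v : 1
  rw [mvEnd_pow_apply, h, Matrix.one_mulVec]
  rfl

variable [Module ℝ V]

lemma iZ_eq_real (b : Fin r → V) (c : Fin r → ℤ) : iZ b c = ∑ i, (c i : ℝ) • b i := by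
  rw [iZ_apply]
  refine Finset.sum_congr rfl fun i _ => ?_
  rw [Int.cast_smul_eq_zsmul]

lemma iZ_injective {b : Fin r → V} (hb : LinearIndependent ℝ b) : Function.Injective (iZ b) := by
  rw [injective_iff_map_eq_zero]
  intro c hc
  rw [iZ_eq_real] at hc
  funext i
  have := Fintype.linearIndependent_iff.1 hb (fun i => (c i : ℝ)) hc i
  exact_mod_cast this

lemma real_sum_injective {b : Fin r → V} (hb : LinearIndependent ℝ b) {x y : Fin r → ℝ}
    (h : ∑ i, x i • b i = ∑ i, y i • b i) : x = y := by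
  have := linearIndependent_iff_injective_fintypeLinearCombination.1 hb
  apply this
  rw [Fintype.linearCombination_apply, Fintype.linearCombination_apply]
  exact h

variable (s : V →ₗ[ℝ] V)

lemma exists_int_matrix (b : Fin r → V)
    (hs : ∀ i, s (b i) ∈ Submodule.span ℤ (Set.range b)) :
    ∃ S : Matrix (Fin r) (Fin r) ℤ, ∀ j, s (b j) = ∑ i, S i j • b i := by
  have : ∀ j, ∃ c : Fin r → ℤ, ∑ i, c i • b i = s (b j) := fun j =>
    (Submodule.mem_span_range_iff_exists_fun ℤ).1 (hs j)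
  choose c hc using this
  exact ⟨Matrix.of fun i j => c j i, fun j => (hc j).symm⟩

lemma exists_real_matrix (b₁ b₂ : Fin r → V)
    (h : Submodule.span ℝ (Set.range b₁) ≤ Submodule.span ℝ (Set.range b₂)) :
    ∃ P : Matrix (Fin r) (Fin r) ℝ, ∀ j, b₁ j = ∑ i, P i j • b₂ i := by
  have : ∀ j, ∃ c : Fin r → ℝ, ∑ i, c i • b₂ i = b₁ j := fun j =>
    (Submodule.mem_span_range_iff_exists_fun ℝ).1 (h (Submodule.subset_span ⟨j, rfl⟩))
  choose c hc using this
  exact ⟨Matrix.of fun i j => c j i, fun j => (hc j).symm⟩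

variable {s}

/-- `s` acts on integer coordinates through `S`. -/
lemma iZ_mvEnd {b : Fin r → V} {S : Matrix (Fin r) (Fin r) ℤ}
    (hS : ∀ j, s (b j) = ∑ i, S i j • b i) (v : Fin r → ℤ) :
    iZ b (mvEnd S v) = s (iZ b v) := by
  rw [mvEnd_apply, iZ_apply, iZ_apply, sum_mulVec_smul b (fun j => s (b j)) S hS v, map_sum]
  refine Finset.sum_congr rfl fun j _ => ?_
  rw [map_zsmul]

lemma iZ_mvEnd_pow {b : Fin r → V} {S : Matrix (Fin r) (Fin r) ℤ}
    (hS : ∀ j, s (b j) = ∑ i, S i j • b i) (k : ℕ) (v : Fin r → ℤ) :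
    iZ b ((mvEnd S ^ k) v) = (s ^ k) (iZ b v) := by
  induction k generalizing v with
  | zero => simp
  | succ k ih =>
    rw [pow_succ, pow_succ]
    change iZ b ((mvEnd S ^ k) (mvEnd S v)) = (s ^ k) (s (iZ b v))
    rw [ih, iZ_mvEnd hS]

lemma int_matrix_pow_eq_one {b : Fin r → V} (hb : LinearIndependent ℝ b)
    {S : Matrix (Fin r) (Fin r) ℤ} (hS : ∀ j, s (b j) = ∑ i, S i j • b i) {n : ℕ}
    (hn : s ^ n = 1) : S ^ n = 1 := by
  apply Matrix.mulVec_injective
  funext v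
  apply iZ_injective hb
  rw [← mvEnd_pow_apply, iZ_mvEnd_pow hS, hn, Matrix.one_mulVec]
  rfl

/-- `s` acts on real coordinates through `S`. -/
lemma real_sum_mulVec {b : Fin r → V} {S : Matrix (Fin r) (Fin r) ℤ}
    (hS : ∀ j, s (b j) = ∑ i, S i j • b i) (x : Fin r → ℝ) :
    ∑ i, (((Int.castRingHom ℝ).mapMatrix S).mulVec x) i • b i = s (∑ j, x j • b j) := by
  rw [sum_mulVec_smul b (fun j => s (b j)) _ _ x, map_sum]
  · refine Finset.sum_congr rfl fun j _ => ?_
    rw [map_smul]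
  · intro j
    rw [hS j]
    refine Finset.sum_congr rfl fun i _ => ?_
    rw [RingHom.mapMatrix_apply, Matrix.map_apply, Int.coe_castRingHom, Int.cast_smul_eq_zsmul]

/-- The real change-of-basis matrix between two lattices with the same real span intertwines
the two integer matrices of `s`, and is invertible. -/
lemma exists_real_intertwiner {b₁ b₂ : Fin r → V} (hb₁ : LinearIndependent ℝ b₁)
    (hb₂ : LinearIndependent ℝ b₂)
    (hspan : Submodule.span ℝ (Set.range b₁) = Submodule.span ℝ (Set.range b₂))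
    {S₁ S₂ : Matrix (Fin r) (Fin r) ℤ} (hS₁ : ∀ j, s (b₁ j) = ∑ i, S₁ i j • b₁ i)
    (hS₂ : ∀ j, s (b₂ j) = ∑ i, S₂ i j • b₂ i) :
    ∃ P : Matrix (Fin r) (Fin r) ℝ, P.det ≠ 0 ∧
      P * (Int.castRingHom ℝ).mapMatrix S₁ = (Int.castRingHom ℝ).mapMatrix S₂ * P := by
  obtain ⟨P, hP⟩ := exists_real_matrix b₁ b₂ hspan.le
  obtain ⟨Q, hQ⟩ := exists_real_matrix b₂ b₁ hspan.ge
  have hPx : ∀ x : Fin r → ℝ, ∑ i, (P.mulVec x) i • b₂ i = ∑ j, x j • b₁ j :=
    sum_mulVec_smul b₂ b₁ P hP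
  have hQx : ∀ x : Fin r → ℝ, ∑ i, (Q.mulVec x) i • b₁ i = ∑ j, x j • b₂ j :=
    sum_mulVec_smul b₁ b₂ Q hQ
  have hQP : Q * P = 1 := by
    apply Matrix.mulVec_injective
    funext x
    apply real_sum_injective hb₁
    rw [← Matrix.mulVec_mulVec, hQx, hPx, Matrix.one_mulVec]
  refine ⟨P, ?_, ?_⟩
  · intro h0
    have := congrArg Matrix.det hQP
    rw [Matrix.det_mul, h0, mul_zero, Matrix.det_one] at this
    exact zero_ne_one this
  · apply Matrix.mulVec_injective
    funext x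
    apply real_sum_injective hb₂
    rw [← Matrix.mulVec_mulVec, hPx, real_sum_mulVec hS₁, ← Matrix.mulVec_mulVec,
      real_sum_mulVec hS₂, hPx]

end Model

section Final

variable {V : Type*} [AddCommGroup V] [Module ℝ V] {r : ℕ} (s : V →ₗ[ℝ] V)

/-- The Herbrand indices of the lattice `⊕ ℤ b i ⊆ V` are those of the model `(ℤ^r, S)`. -/
lemma hIndexSub_eq_model {b : Fin r → V} (hb : LinearIndependent ℝ b)
    {S : Matrix (Fin r) (Fin r) ℤ} (hS : ∀ j, s (b j) = ∑ i, S i j • b i) (n : ℕ) :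
    hIndexSub (s - 1 : V →ₗ[ℝ] V).toAddMonoidHom
        (∑ k ∈ Finset.range n, s ^ k : V →ₗ[ℝ] V).toAddMonoidHom
        (Submodule.span ℤ (Set.range b)).toAddSubgroup = h0 (mvEnd S) n ∧
    hIndexSub (∑ k ∈ Finset.range n, s ^ k : V →ₗ[ℝ] V).toAddMonoidHom
        (s - 1 : V →ₗ[ℝ] V).toAddMonoidHom
        (Submodule.span ℤ (Set.range b)).toAddSubgroup = h1 (mvEnd S) n := by
  have hif : ∀ a, iZ b (delta (mvEnd S) a) = (s - 1 : V →ₗ[ℝ] V).toAddMonoidHom (iZ b a) := by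
    intro a
    rw [delta_apply, map_sub, iZ_mvEnd hS]
    rfl
  have hig : ∀ a, iZ b (normN (mvEnd S) n a) =
      (∑ k ∈ Finset.range n, s ^ k : V →ₗ[ℝ] V).toAddMonoidHom (iZ b a) := by
    intro a
    rw [normN_apply, map_sum]
    show _ = (∑ k ∈ Finset.range n, s ^ k : V →ₗ[ℝ] V) (iZ b a)
    rw [LinearMap.sum_apply]
    exact Finset.sum_congr rfl fun k _ => iZ_mvEnd_pow hS k a
  rw [← iZ_range]
  exact ⟨(hIndex_eq_hIndexSub (iZ_injective hb) hif hig).symm,
    (hIndex_eq_hIndexSub (iZ_injective hb) hig hif).symm⟩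

/-- An integer matrix with nonzero determinant has finite-index image. -/
lemma mvEnd_range_finiteIndex {Y : Matrix (Fin r) (Fin r) ℤ} (hY : Y.det ≠ 0) :
    (mvHom Y).range.FiniteIndex := by
  refine ⟨index_ne_zero_of_zsmul_mem _ Y.det hY ?_⟩
  intro x
  refine ⟨Y.adjugate.mulVec x, ?_⟩
  rw [mvHom_apply, Matrix.mulVec_mulVec, Matrix.mul_adjugate, Matrix.smul_mulVec,
    Matrix.one_mulVec]

/-- **The lattice lemma** (GU-LAT). -/
theorem latticeSpec : LatticeSpec.{u} := by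
  intro V _ _ s n r hn hsn b₁ b₂ hb₁ hb₂ hspan hs₁ hs₂ F N Λ₁ Λ₂
  obtain ⟨S₁, hS₁⟩ := exists_int_matrix s b₁ hs₁
  obtain ⟨S₂, hS₂⟩ := exists_int_matrix s b₂ hs₂
  have hS₁n : S₁ ^ n = 1 := int_matrix_pow_eq_one hb₁ hS₁ hsn
  have hS₂n : S₂ ^ n = 1 := int_matrix_pow_eq_one hb₂ hS₂ hsn
  obtain ⟨P, hPdet, hPS⟩ := exists_real_intertwiner hb₁ hb₂ hspan hS₁ hS₂
  obtain ⟨Y, hYdet, hYS⟩ := exists_int_intertwiner hn S₁ S₂ hS₁n hS₂n P hPdet hPS
  -- comparison of the two models through `Y`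
  have hσ₂ : mvEnd S₂ ^ n = 1 := mvEnd_pow_eq_one S₂ n hS₂n
  have hinj : Function.Injective (mvHom Y) :=
    Matrix.mulVec_injective_of_det_ne_zero hYdet
  have hcomm : ∀ a, mvHom Y (mvEnd S₁ a) = mvEnd S₂ (mvHom Y a) := by
    intro a
    simp only [mvEnd_apply, mvHom_apply, Matrix.mulVec_mulVec, hYS]
  have hq : herbrand (mvEnd S₁) n = herbrand (mvEnd S₂) n :=
    herbrand_eq_of_finite_coker hσ₂ hinj (mvEnd_range_finiteIndex hYdet) hcomm
  obtain ⟨d₁, d₁'⟩ := (herbrandDefined_iff _ _).1 (herbrandDefined_of_fg (mvEnd S₁) n hn)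
  obtain ⟨d₂, d₂'⟩ := (herbrandDefined_iff _ _).1 (herbrandDefined_of_fg (mvEnd S₂) n hn)
  obtain ⟨e₁, e₁'⟩ := hIndexSub_eq_model s hb₁ hS₁ n
  obtain ⟨e₂, e₂'⟩ := hIndexSub_eq_model s hb₂ hS₂ n
  have E₁ : hIndexSub F N Λ₁ = h0 (mvEnd S₁) n := e₁
  have E₁' : hIndexSub N F Λ₁ = h1 (mvEnd S₁) n := e₁'
  have E₂ : hIndexSub F N Λ₂ = h0 (mvEnd S₂) n := e₂
  have E₂' : hIndexSub N F Λ₂ = h1 (mvEnd S₂) n := e₂'
  rw [E₁, E₁', E₂, E₂']
  refine ⟨d₁, d₁', d₂, d₂', ?_⟩
  rw [herbrand_eq_div, herbrand_eq_div,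
    div_eq_div_iff (Nat.cast_ne_zero.2 d₁') (Nat.cast_ne_zero.2 d₂')] at hq
  exact_mod_cast hq

end Final

end Fermat.Agent.S55.G.Lat793
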