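/-
S55 / G-U / leaf GU-LOG (`UnitsLogSpec`): the equivariant logarithmic lattice of the units.
Producer: helper101.
-/
import Mathlib
import Fermat.Agent.S55.G.SpecUnits

set_option autoImplicit false
set_option linter.unusedSectionVars false

namespace Fermat.Agent.S55.G.Log101

open NumberField NumberField.InfinitePlace NumberField.Units
  NumberField.Units.dirichletUnitTheorem

universe u v

section Phi

variable (L : Type v) [Field L]

/-- The full logarithmic map `x ↦ (mult w * log (w x))_w` on `Lˣ`. -/
noncomputable def phi : Additive Lˣ →+ (InfinitePlace L → ℝ) where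
  toFun x w := (mult w : ℝ) * Real.log (w ((Additive.toMul x : Lˣ) : L))
  map_zero' := by
    funext w
    simp
  map_add' x y := by
    funext w
    have hx : w ((Additive.toMul x : Lˣ) : L) ≠ 0 :=
      (map_ne_zero w).mpr (Additive.toMul x).ne_zero
    have hy : w ((Additive.toMul y : Lˣ) : L) ≠ 0 :=
      (map_ne_zero w).mpr (Additive.toMul y).ne_zero
    simp only [toMul_add, Units.val_mul, map_mul, Pi.add_apply]
    rw [Real.log_mul hx hy, mul_add]

theorem phi_apply (x : Additive Lˣ) (w : InfinitePlace L) :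
    phi L x w = (mult w : ℝ) * Real.log (w ((Additive.toMul x : Lˣ) : L)) := rfl

end Phi

section Equivariant

variable (K : Type u) (L : Type v) [Field K] [Field L] [Algebra K L]

theorem mult_smul_eq (τ : L ≃ₐ[K] L) (w : InfinitePlace L) : mult (τ • w) = mult w := by
  have h : IsReal (τ • w) ↔ IsReal w := isReal_smul_iff
  by_cases hw : IsReal w
  · rw [IsReal.mult_eq_one hw, IsReal.mult_eq_one (h.mpr hw)]
  · have hw' : ¬ IsReal (τ • w) := fun h' => hw (h.mp h')
    rw [IsComplex.mult_eq_two (not_isReal_iff_isComplex.mp hw),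
      IsComplex.mult_eq_two (not_isReal_iff_isComplex.mp hw')]

theorem phi_equivariant (τ : L ≃ₐ[K] L) (x : Additive Lˣ) :
    phi L (unitsHom K L τ x) = permHomR (L ≃ₐ[K] L) (InfinitePlace L) τ (phi L x) := by
  funext w
  show phi L (unitsHom K L τ x) w = phi L x (τ⁻¹ • w)
  rw [phi_apply, phi_apply, mult_smul_eq, InfinitePlace.smul_apply]
  rfl

end Equivariant

section IntUnits

variable (L : Type v) [Field L] [NumberField L]

/-- The image in `Additive Lˣ` of a unit of the ring of integers. -/
noncomputable def uL (u : (𝓞 L)ˣ) : Additive Lˣ :=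
  Additive.ofMul (Units.map ((algebraMap (𝓞 L) L : 𝓞 L →+* L) : 𝓞 L →* L) u)

theorem mem_intUnits_iff (x : Additive Lˣ) : x ∈ intUnits L ↔ ∃ u : (𝓞 L)ˣ, uL L u = x := by
  constructor
  · rintro ⟨u, hu⟩
    exact ⟨u, hu⟩
  · rintro ⟨u, hu⟩
    exact ⟨u, hu⟩

theorem phi_uL (u : (𝓞 L)ˣ) (w : InfinitePlace L) :
    phi L (uL L u) w = (mult w : ℝ) * Real.log (w (u : L)) := rfl

theorem uL_mem_ker_iff (u : (𝓞 L)ˣ) : phi L (uL L u) = 0 ↔ u ∈ torsion L := by
  rw [mem_torsion]
  constructor
  · intro h w
    have := congrFun h w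
    rw [phi_uL] at this
    exact mult_log_place_eq_zero.mp this
  · intro h
    funext w
    rw [phi_uL, h w, Real.log_one, mul_zero]
    rfl

theorem finite_ker_inf : Finite ↥((phi L).ker ⊓ intUnits L) := by
  have hfin : (Set.range (fun t : torsion L => uL L (t : (𝓞 L)ˣ))).Finite := Set.finite_range _
  have hsub : (((phi L).ker ⊓ intUnits L : AddSubgroup (Additive Lˣ)) : Set (Additive Lˣ)) ⊆
      Set.range (fun t : torsion L => uL L (t : (𝓞 L)ˣ)) := by
    rintro x ⟨hx1, hx2⟩
    obtain ⟨u, rfl⟩ := (mem_intUnits_iff L x).mp hx2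
    have hu : u ∈ torsion L := (uL_mem_ker_iff L u).mp hx1
    exact ⟨⟨u, hu⟩, rfl⟩
  exact (hfin.subset hsub).to_subtype

end IntUnits

section Iota

open scoped Classical

variable (L : Type v) [Field L] [NumberField L]

/-- The extension of a function on the places `≠ w₀` to a trace-zero function on all places. -/
noncomputable def iota : logSpace L →ₗ[ℝ] (InfinitePlace L → ℝ) :=
  LinearMap.pi fun w =>
    if h : w = w₀ then -(∑ w' : {w : InfinitePlace L // w ≠ w₀}, LinearMap.proj w')
    else LinearMap.proj ⟨w, h⟩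

theorem iota_apply_of_ne (f : logSpace L) (w : InfinitePlace L) (h : w ≠ w₀) :
    iota L f w = f ⟨w, h⟩ := by
  simp [iota, h]

theorem iota_apply_w₀ (f : logSpace L) :
    iota L f w₀ = -∑ w' : {w : InfinitePlace L // w ≠ w₀}, f w' := by
  simp [iota]

theorem iota_injective : Function.Injective (iota L) := by
  intro f g hfg
  funext w'
  have := congrFun hfg w'.1
  rwa [iota_apply_of_ne L f w'.1 w'.2, iota_apply_of_ne L g w'.1 w'.2] at this

theorem sum_iota (f : logSpace L) : ∑ w : InfinitePlace L, iota L f w = 0 := by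
  rw [Fintype.sum_eq_add_sum_subtype_ne _ (w₀ : InfinitePlace L), iota_apply_w₀]
  have : ∀ w' : {w : InfinitePlace L // w ≠ w₀}, iota L f w'.1 = f w' :=
    fun w' => iota_apply_of_ne L f w'.1 w'.2
  simp only [this]
  exact neg_add_cancel _

theorem mem_traceZeroR_iff (g : InfinitePlace L → ℝ) :
    g ∈ traceZeroR L ↔ ∑ w : InfinitePlace L, g w = 0 := by
  unfold traceZeroR
  rw [LinearMap.mem_ker]
  simp

theorem range_iota : LinearMap.range (iota L) = traceZeroR L := by
  ext g
  rw [mem_traceZeroR_iff]
  constructor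
  · rintro ⟨f, rfl⟩
    exact sum_iota L f
  · intro hg
    refine ⟨fun w' => g w'.1, ?_⟩
    funext w
    by_cases h : w = w₀
    · subst h
      rw [iota_apply_w₀]
      rw [Fintype.sum_eq_add_sum_subtype_ne _ (w₀ : InfinitePlace L)] at hg
      linarith
    · rw [iota_apply_of_ne L _ w h]

theorem phi_uL_eq_iota (u : (𝓞 L)ˣ) :
    phi L (uL L u) = iota L (logEmbedding L (Additive.ofMul u)) := by
  funext w
  by_cases h : w = w₀
  · subst h
    rw [iota_apply_w₀, sum_logEmbedding_component, phi_uL]
    ring
  · rw [iota_apply_of_ne L _ w h, phi_uL]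
    rfl

end Iota

section Basis

open scoped Classical

variable (L : Type v) [Field L] [NumberField L]

/-- The real basis of `logSpace L` given by the `ℤ`-basis of the unit lattice. -/
noncomputable def logBasis : Module.Basis (Fin (Units.rank L)) ℝ (logSpace L) :=
  (basisUnitLattice L).ofZLatticeBasis ℝ (unitLattice L)

/-- The family `b` of the spec. -/
noncomputable def bFam : Fin (Units.rank L) → (InfinitePlace L → ℝ) :=
  fun i => iota L (logBasis L i)

theorem bFam_linearIndependent : LinearIndependent ℝ (bFam L) := by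
  have h := (logBasis L).linearIndependent
  exact h.map' (iota L) (LinearMap.ker_eq_bot.mpr (iota_injective L))

theorem range_bFam : Set.range (bFam L) = (iota L) '' Set.range (logBasis L) := by
  ext x
  constructor
  · rintro ⟨i, rfl⟩
    exact ⟨logBasis L i, ⟨i, rfl⟩, rfl⟩
  · rintro ⟨_, ⟨i, rfl⟩, rfl⟩
    exact ⟨i, rfl⟩

theorem span_real_bFam : Submodule.span ℝ (Set.range (bFam L)) = traceZeroR L := by
  rw [range_bFam, ← Submodule.map_span, (logBasis L).span_eq, Submodule.map_top, range_iota]

theorem span_int_logBasis : Submodule.span ℤ (Set.range (logBasis L)) = unitLattice L :=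
  (basisUnitLattice L).ofZLatticeBasis_span ℝ

theorem span_int_bFam :
    Submodule.span ℤ (Set.range (bFam L)) =
      (unitLattice L).map ((iota L).restrictScalars ℤ) := by
  rw [range_bFam, ← span_int_logBasis, Submodule.map_span]
  rfl

theorem map_phi_intUnits :
    (intUnits L).map (phi L) = (Submodule.span ℤ (Set.range (bFam L))).toAddSubgroup := by
  rw [span_int_bFam]
  ext x
  constructor
  · rintro ⟨y, hy, rfl⟩
    obtain ⟨u, rfl⟩ := (mem_intUnits_iff L y).mp hy
    refine ⟨logEmbedding L (Additive.ofMul u), ⟨Additive.ofMul u, trivial, rfl⟩, ?_⟩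
    exact (phi_uL_eq_iota L u).symm
  · rintro ⟨v, ⟨a, -, rfl⟩, rfl⟩
    refine ⟨uL L (Additive.toMul a), (mem_intUnits_iff L _).mpr ⟨_, rfl⟩, ?_⟩
    exact phi_uL_eq_iota L (Additive.toMul a)

end Basis

/-- **GU-LOG**: the equivariant logarithmic lattice of the units. -/
theorem unitsLogSpec : UnitsLogSpec.{u, v} := by
  intro K L _ _ _ _ _ _
  refine ⟨phi L, phi_equivariant K L, finite_ker_inf L, Units.rank L, bFam L,
    bFam_linearIndependent L, span_real_bFam L, map_phi_intUnits L⟩

end Fermat.Agent.S55.G.Log101
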