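/-
S55, layer G, block G-U, leaf GU-ORB (helper434): orbits of the infinite places.
Proves `Fermat.Agent.S55.G.OrbitInfSpec` of `SpecUnits.lean` (sub-architect helper595).
-/
import Mathlib
import Fermat.Agent.S55.G.SpecUnits

set_option autoImplicit false

namespace Fermat.Agent.S55.G.Orb434

open NumberField InfinitePlace

universe u v

/-- Orbit representatives: the class of `o.out` is `o`, so `orbitRelEquiv o` is the restriction
of `o.out` to the base field. -/
theorem orbitRelEquiv_eq_comap_out (K : Type u) (L : Type v) [Field K] [Field L]
    [NumberField K] [NumberField L] [Algebra K L] [IsGalois K L]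
    (o : MulAction.orbitRel.Quotient (L ≃ₐ[K] L) (InfinitePlace L)) :
    (orbitRelEquiv (k := K) (K := L)) o = (o.out).comap (algebraMap K L) := by
  conv_lhs => rw [← Quotient.out_eq o]
  rfl

/-- The stabiliser of an orbit representative has order `1` or `2` according to whether the place
below is unramified in `L` or not. -/
theorem card_stabilizer_out (K : Type u) (L : Type v) [Field K] [Field L]
    [NumberField K] [NumberField L] [Algebra K L] [IsGalois K L]
    (o : MulAction.orbitRel.Quotient (L ≃ₐ[K] L) (InfinitePlace L)) :
    Nat.card (MulAction.stabilizer (L ≃ₐ[K] L) o.out) =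
      (letI := Classical.propDecidable
          (((orbitRelEquiv (k := K) (K := L)) o).IsUnramifiedIn L)
       if ((orbitRelEquiv (k := K) (K := L)) o).IsUnramifiedIn L then 1 else 2) := by
  classical
  rw [orbitRelEquiv_eq_comap_out]
  by_cases h : (o.out).IsUnramified K
  · have h' : ((o.out).comap (algebraMap K L)).IsUnramifiedIn L := isUnramifiedIn_comap.mpr h
    rw [if_pos h']
    exact (isUnramified_iff_card_stabilizer_eq_one (k := K)).mp h
  · have h' : ¬ ((o.out).comap (algebraMap K L)).IsUnramifiedIn L :=
      fun H => h (isUnramifiedIn_comap.mp H)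
    rw [if_neg h']
    exact (not_isUnramified_iff_card_stabilizer_eq_two (k := K)).mp h

/-- **GU-ORB**: the stabiliser product of the Galois set of infinite places of `L` is the product
of the local degrees at the infinite places of `K`. -/
theorem orbitInfSpec : Fermat.Agent.S55.G.OrbitInfSpec.{u, v} := by
  intro K L _ _ _ _ _ _
  classical
  unfold stabProd infDegProd
  letI : Fintype (MulAction.orbitRel.Quotient (L ≃ₐ[K] L) (InfinitePlace L)) :=
    Fintype.ofFinite _
  exact Fintype.prod_equiv (orbitRelEquiv (k := K) (K := L))
    (fun o : MulAction.orbitRel.Quotient (L ≃ₐ[K] L) (InfinitePlace L) =>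
      Nat.card (MulAction.stabilizer (L ≃ₐ[K] L) o.out))
    (fun v : InfinitePlace K => (letI := Classical.propDecidable (v.IsUnramifiedIn L)
      if v.IsUnramifiedIn L then 1 else 2))
    (fun o => card_stabilizer_out K L o)

end Fermat.Agent.S55.G.Orb434
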