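import Mathlib
import Fermat.Agent.S55.G.SpecUnits

/-!
# S55 / layer G / block G-U, leaf GU-ORD (helper707)

`sUnitsOrd : SUnitsOrdSpec` : the valuation map on `T`-units.
-/

set_option autoImplicit false
set_option linter.unusedSectionVars false
set_option linter.style.haveILetI false
set_option warn.classDefReducibility false

namespace Fermat.Agent.S55.G.OrdH707

open Fermat.Agent.S55.Herbrand NumberField IsDedekindDomain
open scoped Pointwise

universe u v

section Action

variable (K : Type u) (L : Type v) [Field K] [Field L] [NumberField K] [NumberField L]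
  [Algebra K L] [IsGalois K L]

/-- The action of `Gal(L/K)` on the finite primes of `L`. -/
noncomputable def smulH (τ : L ≃ₐ[K] L) (w : HeightOneSpectrum (𝓞 L)) :
    HeightOneSpectrum (𝓞 L) where
  asIdeal := τ • w.asIdeal
  isPrime := inferInstance
  ne_bot := by
    intro h
    apply w.ne_bot
    have : τ⁻¹ • (τ • w.asIdeal) = τ⁻¹ • (⊥ : Ideal (𝓞 L)) := by rw [h]
    rw [inv_smul_smul] at this
    rw [this]
    ext x
    rw [Ideal.mem_pointwise_smul_iff_inv_smul_mem]
    simp [smul_eq_zero_iff_eq]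

@[simp] lemma smulH_asIdeal (τ : L ≃ₐ[K] L) (w : HeightOneSpectrum (𝓞 L)) :
    (smulH K L τ w).asIdeal = τ • w.asIdeal := rfl

lemma smulH_one (w : HeightOneSpectrum (𝓞 L)) : smulH K L 1 w = w := by
  ext1; simp

lemma smulH_mul (σ τ : L ≃ₐ[K] L) (w : HeightOneSpectrum (𝓞 L)) :
    smulH K L (σ * τ) w = smulH K L σ (smulH K L τ w) := by
  ext1; simp [mul_smul]

lemma under_smulH (τ : L ≃ₐ[K] L) (w : HeightOneSpectrum (𝓞 L)) :
    (smulH K L τ w).asIdeal.under (𝓞 K) = w.asIdeal.under (𝓞 K) := by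
  haveI : w.asIdeal.LiesOver (w.asIdeal.under (𝓞 K)) := ⟨rfl⟩
  have : (τ • w.asIdeal).LiesOver (w.asIdeal.under (𝓞 K)) := inferInstance
  exact (this.over).symm

lemma coe_smul_int (τ : L ≃ₐ[K] L) (x : 𝓞 L) : ((τ • x : 𝓞 L) : L) = τ (x : L) := rfl

/-- `intValuation` is equivariant. -/
lemma intValuation_smulH (τ : L ≃ₐ[K] L) (w : HeightOneSpectrum (𝓞 L)) (r : 𝓞 L) :
    (smulH K L τ w).intValuation (τ • r) = w.intValuation r := by
  by_cases hr : r = 0
  · subst hr; simp
  have hr' : τ • r ≠ 0 := by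
    rwa [Ne, smul_eq_zero_iff_eq]
  have key : ∀ n : ℕ, (smulH K L τ w).intValuation (τ • r) ≤ WithZero.exp (-(n : ℤ)) ↔
      w.intValuation r ≤ WithZero.exp (-(n : ℤ)) := by
    intro n
    rw [HeightOneSpectrum.intValuation_le_pow_iff_mem,
      HeightOneSpectrum.intValuation_le_pow_iff_mem, smulH_asIdeal, ← smul_pow',
      Ideal.smul_mem_pointwise_smul_iff]
  rw [HeightOneSpectrum.intValuation_if_neg _ hr] at key ⊢
  rw [HeightOneSpectrum.intValuation_if_neg _ hr'] at key ⊢
  set a := (Associates.mk (smulH K L τ w).asIdeal).count (Associates.mk (Ideal.span {τ • r})).factors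
  set b := (Associates.mk w.asIdeal).count (Associates.mk (Ideal.span {r})).factors
  have h1 := (key a).1 le_rfl
  have h2 := (key b).2 le_rfl
  rw [WithZero.exp_le_exp] at h1 h2
  have : a = b := by omega
  rw [this]

/-- The valuation is equivariant. -/
lemma valuation_smulH (τ : L ≃ₐ[K] L) (w : HeightOneSpectrum (𝓞 L)) (x : L) :
    (smulH K L τ w).valuation L (τ x) = w.valuation L x := by
  obtain ⟨r, s, hs, rfl⟩ := IsFractionRing.div_surjective (A := 𝓞 L) x
  rw [map_div₀, map_div₀, map_div₀]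
  have h1 : τ (algebraMap (𝓞 L) L r) = algebraMap (𝓞 L) L (τ • r) := rfl
  have h2 : τ (algebraMap (𝓞 L) L s) = algebraMap (𝓞 L) L (τ • s) := rfl
  rw [h1, h2, HeightOneSpectrum.valuation_of_algebraMap, HeightOneSpectrum.valuation_of_algebraMap,
    HeightOneSpectrum.valuation_of_algebraMap, HeightOneSpectrum.valuation_of_algebraMap,
    intValuation_smulH, intValuation_smulH]

end Action

section Main

variable (K : Type u) (L : Type v) [Field K] [Field L] [NumberField K] [NumberField L]
  [Algebra K L] [IsGalois K L] (T : Finset (HeightOneSpectrum (𝓞 K)))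

lemma smulH_mem (τ : L ≃ₐ[K] L) {w : HeightOneSpectrum (𝓞 L)} (hw : w ∈ primesAbove K L T) :
    smulH K L τ w ∈ primesAbove K L T := by
  obtain ⟨v, hv, h⟩ := hw
  exact ⟨v, hv, by rw [under_smulH, h]⟩

/-- The action of `Gal(L/K)` on the primes above `T`. -/
noncomputable def actX : MulAction (L ≃ₐ[K] L) ↥(primesAbove K L T) where
  smul τ w := ⟨smulH K L τ w.1, smulH_mem K L T τ w.2⟩
  one_smul w := Subtype.ext (smulH_one K L w.1)
  mul_smul σ τ w := Subtype.ext (smulH_mul K L σ τ w.1)

lemma actX_coe (τ : L ≃ₐ[K] L) (w : ↥(primesAbove K L T)) :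
    ((letI := actX K L T; τ • w : ↥(primesAbove K L T)) : HeightOneSpectrum (𝓞 L)) =
      smulH K L τ w.1 := rfl

lemma finite_primesAbove : (primesAbove K L T).Finite := by
  have h : primesAbove K L T ⊆
      ⋃ v ∈ T, {w : HeightOneSpectrum (𝓞 L) | w.asIdeal ∈ v.asIdeal.primesOver (𝓞 L)} := by
    rintro w ⟨v, hv, h⟩
    simp only [Set.mem_iUnion, Set.mem_ofPred_eq]
    exact ⟨v, hv, w.isPrime, ⟨h.symm⟩⟩
  refine Set.Finite.subset ?_ h
  refine Set.Finite.biUnion T.finite_toSet ?_
  intro v _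
  have hfin : (v.asIdeal.primesOver (𝓞 L)).Finite := Set.toFinite _
  refine Set.Finite.of_finite_image (f := fun w : HeightOneSpectrum (𝓞 L) => w.asIdeal)
    (hfin.subset ?_) ?_
  · rintro _ ⟨w, hw, rfl⟩
    exact hw
  · intro w₁ _ w₂ _ h
    exact HeightOneSpectrum.ext h

/-- The `Fintype` structure on the primes above `T`. -/
noncomputable def fintypeX : Fintype ↥(primesAbove K L T) :=
  (finite_primesAbove K L T).fintype

/-- The valuation map. -/
noncomputable def ordHom : Additive Lˣ →+ (↥(primesAbove K L T) → ℤ) where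
  toFun x w := Multiplicative.toAdd (w.1.valuationOfNeZero (Additive.toMul x))
  map_zero' := by
    funext w
    simp
  map_add' x y := by
    funext w
    simp

lemma ordHom_apply (x : Additive Lˣ) (w : ↥(primesAbove K L T)) :
    ordHom K L T x w = Multiplicative.toAdd (w.1.valuationOfNeZero (Additive.toMul x)) := rfl

lemma valuationOfNeZero_smulH (τ : L ≃ₐ[K] L) (w : HeightOneSpectrum (𝓞 L)) (x : Lˣ) :
    (smulH K L τ w).valuationOfNeZero (Units.map ((τ : L →+* L) : L →* L) x) =
      w.valuationOfNeZero x := by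
  have h1 := HeightOneSpectrum.valuationOfNeZero_eq (smulH K L τ w)
    (Units.map ((τ : L →+* L) : L →* L) x)
  have h2 := HeightOneSpectrum.valuationOfNeZero_eq w x
  have h3 := valuation_smulH K L τ w (x : L)
  have h4 : ((Units.map ((τ : L →+* L) : L →* L) x : Lˣ) : L) = τ (x : L) := rfl
  rw [h4, h3, ← h2] at h1
  exact WithZero.coe_injective h1

lemma ordHom_equivariant (τ : L ≃ₐ[K] L) (x : Additive Lˣ) :
    ordHom K L T (unitsHom K L τ x) =
      (letI := actX K L T; permHom (L ≃ₐ[K] L) ↥(primesAbove K L T) τ (ordHom K L T x)) := by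
  letI := actX K L T
  funext w
  change Multiplicative.toAdd (w.1.valuationOfNeZero
      (Units.map ((τ : L →+* L) : L →* L) (Additive.toMul x))) =
    Multiplicative.toAdd ((τ⁻¹ • w).1.valuationOfNeZero (Additive.toMul x))
  congr 1
  have := valuationOfNeZero_smulH K L τ (smulH K L τ⁻¹ w.1) (Additive.toMul x)
  rw [← smulH_mul, mul_inv_cancel, smulH_one] at this
  exact this

lemma mem_sUnits_iff (x : Additive Lˣ) :
    x ∈ sUnits K L T ↔ ∀ w : HeightOneSpectrum (𝓞 L), w ∉ primesAbove K L T →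
      w.valuation L ((Additive.toMul x : Lˣ) : L) = 1 := Iff.rfl

omit [NumberField K] [Algebra K L] [IsGalois K L] in
lemma mem_intUnits_iff (x : Additive Lˣ) :
    x ∈ intUnits L ↔ ∀ w : HeightOneSpectrum (𝓞 L),
      w.valuation L ((Additive.toMul x : Lˣ) : L) = 1 := by
  constructor
  · rintro ⟨u, rfl⟩ w
    have h1 : w.valuation L (algebraMap (𝓞 L) L (u : 𝓞 L)) ≤ 1 := w.valuation_le_one _
    have h2 : w.valuation L (algebraMap (𝓞 L) L ((u⁻¹ : (𝓞 L)ˣ) : 𝓞 L)) ≤ 1 :=
      w.valuation_le_one _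
    have h3 : w.valuation L (algebraMap (𝓞 L) L (u : 𝓞 L)) *
        w.valuation L (algebraMap (𝓞 L) L ((u⁻¹ : (𝓞 L)ˣ) : 𝓞 L)) = 1 := by
      rw [← map_mul, ← map_mul, Units.mul_inv, map_one, map_one]
    exact eq_one_of_one_le_mul_left h1 h2 h3.ge
  · intro h
    set y : Lˣ := Additive.toMul x with hy
    obtain ⟨a, ha⟩ := HeightOneSpectrum.mem_integers_of_valuation_le_one L (y : L)
      (fun w => (h w).le)
    obtain ⟨b, hb⟩ := HeightOneSpectrum.mem_integers_of_valuation_le_one L ((y⁻¹ : Lˣ) : L)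
      (fun w => by
        rw [Units.val_inv_eq_inv_val, map_inv₀, h w, inv_one])
    have hab : a * b = 1 := by
      apply FaithfulSMul.algebraMap_injective (𝓞 L) L
      rw [map_mul, ha, hb, map_one, Units.mul_inv]
    have hba : b * a = 1 := by rw [mul_comm, hab]
    refine ⟨⟨a, b, hab, hba⟩, ?_⟩
    apply Units.ext
    exact ha

lemma ordHom_eq_zero_iff (x : Additive Lˣ) (w : ↥(primesAbove K L T)) :
    ordHom K L T x w = 0 ↔ w.1.valuation L ((Additive.toMul x : Lˣ) : L) = 1 := by
  rw [ordHom_apply, ← HeightOneSpectrum.valuationOfNeZero_eq]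
  constructor
  · intro h
    have : w.1.valuationOfNeZero (Additive.toMul x) = 1 := by
      apply Multiplicative.toAdd.injective
      simpa using h
    rw [this]; rfl
  · intro h
    have : w.1.valuationOfNeZero (Additive.toMul x) = 1 := by
      apply WithZero.coe_injective
      simpa using h
    rw [this]; rfl

lemma ker_inf_sUnits : (ordHom K L T).ker ⊓ sUnits K L T = intUnits L := by
  ext x
  rw [AddSubgroup.mem_inf, AddMonoidHom.mem_ker, mem_sUnits_iff, mem_intUnits_iff]
  constructor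
  · rintro ⟨h1, h2⟩ w
    by_cases hw : w ∈ primesAbove K L T
    · have := congrFun h1 ⟨w, hw⟩
      exact (ordHom_eq_zero_iff K L T x ⟨w, hw⟩).1 this
    · exact h2 w hw
  · intro h
    refine ⟨?_, fun w _ => h w⟩
    funext w
    exact (ordHom_eq_zero_iff K L T x w).2 (h w.1)

/-- A subgroup of `ι → ℤ` containing `h • (ι → ℤ)` has finite index. -/
lemma index_ne_zero_of_nsmul_mem {ι : Type*} [Finite ι] (H : AddSubgroup (ι → ℤ)) (h : ℕ)
    (hh : 0 < h) (hH : ∀ a : ι → ℤ, h • a ∈ H) : H.index ≠ 0 := by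
  have hfin : Finite ((ι → ℤ) ⧸ H) := by
    have hf : Module.Finite ℤ ((ι → ℤ) ⧸ H) := by
      have : Module.Finite ℤ ((ι → ℤ) ⧸ (AddSubgroup.toIntSubmodule H)) := inferInstance
      exact this
    apply Module.finite_of_fg_torsion
    intro x
    induction x using QuotientAddGroup.induction_on with
    | H a =>
      refine ⟨⟨(h : ℤ), ?_⟩, ?_⟩
      · rw [mem_nonZeroDivisors_iff_ne_zero]
        exact_mod_cast hh.ne'
      · change (h : ℤ) • (QuotientAddGroup.mk a : (ι → ℤ) ⧸ H) = 0
        rw [natCast_zsmul, ← QuotientAddGroup.mk_nsmul, QuotientAddGroup.eq_zero_iff]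
        exact hH a
  exact AddSubgroup.index_ne_zero_of_finite

omit [NumberField K] [Algebra K L] [IsGalois K L] in
/-- A power of every prime is principal. -/
lemma exists_generator_pow (w : HeightOneSpectrum (𝓞 L)) :
    ∃ (h : ℕ) (g : 𝓞 L), 0 < h ∧ h = Fintype.card (ClassGroup (𝓞 L)) ∧ g ≠ 0 ∧
      Ideal.span {g} = w.asIdeal ^ h := by
  set h := Fintype.card (ClassGroup (𝓞 L)) with hh
  have hw0 : w.asIdeal ∈ nonZeroDivisors (Ideal (𝓞 L)) :=
    mem_nonZeroDivisors_of_ne_zero w.ne_bot
  have hpow : w.asIdeal ^ h ∈ nonZeroDivisors (Ideal (𝓞 L)) :=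
    mem_nonZeroDivisors_of_ne_zero (pow_ne_zero _ w.ne_bot)
  have h1 : ClassGroup.mk0 ⟨w.asIdeal ^ h, hpow⟩ = 1 := by
    have : (⟨w.asIdeal ^ h, hpow⟩ : nonZeroDivisors (Ideal (𝓞 L))) = ⟨w.asIdeal, hw0⟩ ^ h := by
      ext; simp
    rw [this, map_pow, hh, pow_card_eq_one]
  rw [ClassGroup.mk0_eq_one_iff] at h1
  obtain ⟨g, hg⟩ := h1
  refine ⟨h, g, Fintype.card_pos, rfl, ?_, ?_⟩
  · rintro rfl
    have : w.asIdeal ^ h = ⊥ := by
      rw [hg]; simp
    exact pow_ne_zero _ w.ne_bot this
  · rw [hg]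

omit [NumberField K] [Algebra K L] [IsGalois K L] in
lemma intValuation_generator_self (w : HeightOneSpectrum (𝓞 L)) (h : ℕ) (g : 𝓞 L) (hg0 : g ≠ 0)
    (hg : Ideal.span {g} = w.asIdeal ^ h) :
    w.intValuation g = WithZero.exp (-(h : ℤ)) := by
  have h1 : w.intValuation g ≤ WithZero.exp (-(h : ℤ)) := by
    rw [HeightOneSpectrum.intValuation_le_pow_iff_mem, ← hg]
    exact Ideal.mem_span_singleton_self g
  have h2 : ¬ w.intValuation g ≤ WithZero.exp (-((h + 1 : ℕ) : ℤ)) := by
    rw [HeightOneSpectrum.intValuation_le_pow_iff_mem]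
    intro hmem
    have hle : w.asIdeal ^ h ≤ w.asIdeal ^ (h + 1) := by
      rw [← hg, Ideal.span_singleton_le_iff_mem]
      exact hmem
    haveI := w.isPrime
    exact absurd hle (not_le_of_gt (Ideal.pow_succ_lt_pow w.ne_bot h))
  rw [HeightOneSpectrum.intValuation_if_neg _ hg0] at h1 h2 ⊢
  rw [WithZero.exp_le_exp] at h1 h2
  rw [WithZero.exp_inj]
  push_cast at h2
  omega

omit [NumberField K] [Algebra K L] [IsGalois K L] in
lemma intValuation_generator_ne (w w' : HeightOneSpectrum (𝓞 L)) (hne : w' ≠ w) (h : ℕ)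
    (g : 𝓞 L) (hg : Ideal.span {g} = w.asIdeal ^ h) :
    w'.intValuation g = 1 := by
  rw [HeightOneSpectrum.intValuation_eq_one_iff]
  intro hmem
  have hle : w.asIdeal ^ h ≤ w'.asIdeal := by
    rw [← hg, Ideal.span_singleton_le_iff_mem]
    exact hmem
  haveI := w'.isPrime
  have hle' : w.asIdeal ≤ w'.asIdeal := Ideal.IsPrime.le_of_pow_le hle
  haveI : w.asIdeal.IsMaximal := w.isMaximal
  have : w.asIdeal = w'.asIdeal :=
    Ideal.IsMaximal.eq_of_le inferInstance (Ideal.IsPrime.ne_top inferInstance) hle'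
  exact hne (HeightOneSpectrum.ext this.symm)

lemma index_map_ordHom : ((sUnits K L T).map (ordHom K L T)).index ≠ 0 := by
  classical
  haveI : Finite ↥(primesAbove K L T) := (finite_primesAbove K L T).to_subtype
  letI : Fintype ↥(primesAbove K L T) := fintypeX K L T
  set h := Fintype.card (ClassGroup (𝓞 L)) with hh
  have hpos : 0 < h := Fintype.card_pos
  -- the basic elements
  have hbasic : ∀ w : ↥(primesAbove K L T),
      (Pi.single w (h : ℤ) : ↥(primesAbove K L T) → ℤ) ∈ (sUnits K L T).map (ordHom K L T) := by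
    intro w
    obtain ⟨h', g, -, hh', hg0, hg⟩ := exists_generator_pow (L := L) w.1
    have hh'' : h' = h := hh'
    subst hh''
    have hgL : algebraMap (𝓞 L) L g ≠ 0 := by
      rwa [Ne, FaithfulSMul.algebraMap_eq_zero_iff]
    set y : Lˣ := Units.mk0 (algebraMap (𝓞 L) L g) hgL with hy
    have hval : ∀ w' : HeightOneSpectrum (𝓞 L), w'.valuation L (y : L) = w'.intValuation g := by
      intro w'
      rw [hy, Units.val_mk0, HeightOneSpectrum.valuation_of_algebraMap]
    have hmem : Additive.ofMul y ∈ sUnits K L T := by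
      rw [mem_sUnits_iff]
      intro w' hw'
      change w'.valuation L (y : L) = 1
      rw [hval]
      apply intValuation_generator_ne L w.1 w' _ _ g hg
      rintro rfl
      exact hw' w.2
    have hψ : ordHom K L T (Additive.ofMul y) = -(Pi.single w (h : ℤ)) := by
      funext w'
      rw [ordHom_apply]
      change Multiplicative.toAdd (w'.1.valuationOfNeZero y) = _
      by_cases hww : w' = w
      · subst hww
        have h1 := HeightOneSpectrum.valuationOfNeZero_eq w'.1 y
        rw [hval, intValuation_generator_self L w'.1 _ g hg0 hg, WithZero.exp_eq_coe_ofAdd] at h1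
        have h2 := WithZero.coe_injective h1
        rw [h2]
        simp
      · have hne : w'.1 ≠ w.1 := fun h => hww (Subtype.ext h)
        have h1 := HeightOneSpectrum.valuationOfNeZero_eq w'.1 y
        rw [hval, intValuation_generator_ne L w.1 w'.1 hne _ g hg] at h1
        have h2 : w'.1.valuationOfNeZero y = 1 := WithZero.coe_injective h1
        rw [h2]
        simp [hww]
    have : (Pi.single w (h : ℤ) : ↥(primesAbove K L T) → ℤ) =
        ordHom K L T (-(Additive.ofMul y)) := by
      rw [map_neg, hψ, neg_neg]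
    rw [this]
    exact AddSubgroup.mem_map_of_mem _ ((sUnits K L T).neg_mem hmem)
  apply index_ne_zero_of_nsmul_mem _ h hpos
  intro a
  have ha : h • a = ∑ w, a w • (Pi.single w (h : ℤ) : ↥(primesAbove K L T) → ℤ) := by
    funext w
    simp [Finset.sum_apply, Pi.single_apply, mul_comm]
  rw [ha]
  exact AddSubgroup.sum_mem _ (fun w _ => AddSubgroup.zsmul_mem _ (hbasic w) _)

/-- The prime of `T` below a prime above `T`. -/
noncomputable def below (w : ↥(primesAbove K L T)) : {v // v ∈ T} :=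
  ⟨w.2.choose, w.2.choose_spec.1⟩

lemma below_spec (w : ↥(primesAbove K L T)) :
    w.1.asIdeal.under (𝓞 K) = (below K L T w).1.asIdeal := w.2.choose_spec.2

lemma below_eq_iff (w : ↥(primesAbove K L T)) (v : {v // v ∈ T}) :
    below K L T w = v ↔ w.1.asIdeal.under (𝓞 K) = v.1.asIdeal := by
  constructor
  · rintro rfl
    exact below_spec K L T w
  · intro h
    apply Subtype.ext
    apply HeightOneSpectrum.ext
    rw [← below_spec, h]

lemma below_smul (τ : L ≃ₐ[K] L) (w : ↥(primesAbove K L T)) :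
    below K L T (letI := actX K L T; τ • w) = below K L T w := by
  rw [below_eq_iff, actX_coe, under_smulH, below_spec]

lemma exists_smul_eq_of_below_eq (w₁ w₂ : ↥(primesAbove K L T))
    (h : below K L T w₁ = below K L T w₂) :
    ∃ τ : L ≃ₐ[K] L, (letI := actX K L T; τ • w₁) = w₂ := by
  set v := below K L T w₁ with hv
  haveI : w₁.1.asIdeal.LiesOver v.1.asIdeal := ⟨(below_spec K L T w₁).symm⟩
  haveI : w₂.1.asIdeal.LiesOver v.1.asIdeal := ⟨by rw [h]; exact (below_spec K L T w₂).symm⟩
  haveI := w₁.1.isPrime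
  haveI := w₂.1.isPrime
  obtain ⟨τ, hτ⟩ := Ideal.exists_smul_eq_of_isGaloisGroup v.1.asIdeal w₁.1.asIdeal w₂.1.asIdeal
    (L ≃ₐ[K] L)
  refine ⟨τ, ?_⟩
  apply Subtype.ext
  apply HeightOneSpectrum.ext
  rw [actX_coe, smulH_asIdeal]
  exact hτ

lemma exists_above (v : {v // v ∈ T}) : ∃ w : ↥(primesAbove K L T), below K L T w = v := by
  haveI := v.1.isPrime
  obtain ⟨⟨P, hP, hPv⟩⟩ := (inferInstance : Nonempty (v.1.asIdeal.primesOver (𝓞 L)))
  have hne : P ≠ ⊥ := by
    rintro rfl
    apply v.1.ne_bot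
    rw [hPv.over]
    exact Ideal.under_bot _ _
  let w : HeightOneSpectrum (𝓞 L) := ⟨P, hP, hne⟩
  have hw : w ∈ primesAbove K L T := ⟨v.1, v.2, hPv.over.symm⟩
  exact ⟨⟨w, hw⟩, (below_eq_iff K L T _ _).2 hPv.over.symm⟩

lemma card_stabilizer (w : ↥(primesAbove K L T)) :
    Nat.card (letI := actX K L T; MulAction.stabilizer (L ≃ₐ[K] L) w) =
      (below K L T w).1.asIdeal.ramificationIdxIn (𝓞 L) *
        (below K L T w).1.asIdeal.inertiaDegIn (𝓞 L) := by
  letI := actX K L T
  set v := below K L T w with hv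
  haveI : w.1.asIdeal.LiesOver v.1.asIdeal := ⟨(below_spec K L T w).symm⟩
  haveI := w.1.isPrime
  haveI := v.1.isPrime
  rw [← Ideal.card_stabilizer_eq (G := (L ≃ₐ[K] L)) v.1.asIdeal w.1.asIdeal]
  have : MulAction.stabilizer (L ≃ₐ[K] L) w = MulAction.stabilizer (L ≃ₐ[K] L) w.1.asIdeal := by
    ext τ
    rw [MulAction.mem_stabilizer_iff, MulAction.mem_stabilizer_iff]
    constructor
    · intro h
      have := congrArg (fun x : ↥(primesAbove K L T) => x.1.asIdeal) h
      simpa [actX_coe] using this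
    · intro h
      apply Subtype.ext
      apply HeightOneSpectrum.ext
      rw [actX_coe, smulH_asIdeal]
      exact h
  rw [this]

lemma stabProd_eq :
    (letI := actX K L T; letI := fintypeX K L T;
      stabProd (L ≃ₐ[K] L) ↥(primesAbove K L T)) = finDegProd K L T := by
  classical
  letI := actX K L T
  letI := fintypeX K L T
  unfold stabProd finDegProd
  let f : MulAction.orbitRel.Quotient (L ≃ₐ[K] L) ↥(primesAbove K L T) → {v // v ∈ T} :=
    fun o => below K L T o.out
  have hf_mk : ∀ w : ↥(primesAbove K L T),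
      f (Quotient.mk (MulAction.orbitRel (L ≃ₐ[K] L) ↥(primesAbove K L T)) w) =
        below K L T w := by
    intro w
    have h : (Quotient.mk (MulAction.orbitRel (L ≃ₐ[K] L) ↥(primesAbove K L T)) w).out ∈
        MulAction.orbit (L ≃ₐ[K] L) w := by
      have := Quotient.exact (Quotient.out_eq
        (Quotient.mk (MulAction.orbitRel (L ≃ₐ[K] L) ↥(primesAbove K L T)) w))
      exact this
    obtain ⟨τ, hτ⟩ := h
    change below K L T _ = _
    rw [← hτ]
    exact below_smul K L T τ w
  have hf : Function.Bijective f := by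
    constructor
    · intro o₁ o₂ h
      induction o₁ using Quotient.inductionOn with | h w₁ =>
      induction o₂ using Quotient.inductionOn with | h w₂ =>
      rw [hf_mk, hf_mk] at h
      obtain ⟨τ, hτ⟩ := exists_smul_eq_of_below_eq K L T w₁ w₂ h
      apply Quotient.sound
      change w₁ ∈ MulAction.orbit (L ≃ₐ[K] L) w₂
      refine ⟨τ⁻¹, ?_⟩
      rw [← hτ]
      exact inv_smul_smul τ w₁
    · intro v
      obtain ⟨w, hw⟩ := exists_above K L T v
      exact ⟨Quotient.mk _ w, by rw [hf_mk, hw]⟩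
  rw [← Finset.prod_coe_sort T
    (fun v => v.asIdeal.ramificationIdxIn (𝓞 L) * v.asIdeal.inertiaDegIn (𝓞 L))]
  exact @Fintype.prod_bijective _ _ _ (Fintype.ofFinite _) _ _ f hf _ _
    (fun o => card_stabilizer K L T o.out)

/-- **GU-ORD**: the valuation map on `T`-units. -/
theorem sUnitsOrd : SUnitsOrdSpec.{u, v} := by
  intro K L _ _ _ _ _ _ T
  exact ⟨actX K L T, fintypeX K L T, ordHom K L T, ordHom_equivariant K L T,
    ker_inf_sUnits K L T, index_map_ordHom K L T, stabProd_eq K L T⟩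

end Main

end Fermat.Agent.S55.G.OrdH707
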