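/-
S55, layer G, block G-U, leaf **GU-P** (helper379): permutation lattices.

`G = ⟨σ⟩` finite cyclic, `X` a finite `G`-set.  On `ℤ^X`:
* `[ker (σ - 1) : im N] = ∏_{orbits} |Stab|`   (`Ĥ⁰`),
* `[ker N : im (σ - 1)] = 1`                   (`Ĥ⁻¹ = 0`).
Deliverable: `theorem permSpec : PermSpec` (spec of helper595's `SpecUnits.lean`).
-/
import Mathlib
import Fermat.Agent.S55.G.SpecUnits

set_option autoImplicit false
set_option linter.unusedSectionVars false
set_option linter.style.haveILetI false

namespace Fermat.Agent.S55.G.Perm379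

open Fermat.Agent.S55.Herbrand Fermat.Agent.S55.G

universe u v

variable {G : Type u} [Group G] [Fintype G] {X : Type v} [Fintype X] [MulAction G X]

theorem permHom_apply (τ : G) (a : X → ℤ) (x : X) : permHom G X τ a x = a (τ⁻¹ • x) := rfl

theorem permAug_apply (σ : G) (a : X → ℤ) (x : X) :
    permAug G X σ a x = a (σ⁻¹ • x) - a x := rfl

theorem permNorm_apply (a : X → ℤ) (x : X) :
    permNorm G X a x = ∑ τ : G, a (τ⁻¹ • x) := by
  simp [permNorm, Finset.sum_apply, permHom_apply]

/-- the orbit class of a point -/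
abbrev cls (G : Type u) [Group G] {X : Type v} [MulAction G X] (x : X) :
    MulAction.orbitRel.Quotient G X := Quotient.mk'' x

theorem cls_eq_iff {x y : X} : cls G y = cls G x ↔ y ∈ MulAction.orbit G x := by
  rw [cls, cls, Quotient.eq'']
  exact MulAction.orbitRel_apply

theorem cls_smul (g : G) (x : X) : cls G (g • x) = cls G x :=
  cls_eq_iff.mpr (MulAction.mem_orbit x g)

/-- the chosen base point of the orbit of `x` -/
noncomputable abbrev rep (G : Type u) [Group G] {X : Type v} [MulAction G X] (x : X) : X :=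
  (cls G x).out

theorem cls_rep (x : X) : cls G (rep G x) = cls G x := Quotient.out_eq' _

theorem rep_eq_of_cls_eq {x y : X} (h : cls G x = cls G y) : rep G x = rep G y := by
  unfold rep; rw [h]

theorem rep_rep (x : X) : rep G (rep G x) = rep G x := rep_eq_of_cls_eq (cls_rep x)

theorem exists_smul_rep (x : X) : ∃ g : G, g • rep G x = x := by
  have h : cls G x = cls G (rep G x) := (cls_rep x).symm
  exact cls_eq_iff.mp h

open Classical in
theorem card_filter_smul_eq (x y : X) (h : y ∈ MulAction.orbit G x) :
    ((Finset.univ.filter (fun τ : G => τ • x = y)).card : ℤ)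
      = Nat.card (MulAction.stabilizer G x) := by
  obtain ⟨g, rfl⟩ := h
  congr 1
  rw [← Fintype.card_subtype, ← Nat.card_eq_fintype_card]
  refine Nat.card_congr
    { toFun := fun τ => ⟨g⁻¹ * τ.1, ?_⟩
      invFun := fun s => ⟨g * s.1, ?_⟩
      left_inv := fun τ => by simp
      right_inv := fun s => by simp }
  · rw [MulAction.mem_stabilizer_iff, mul_smul, τ.2, inv_smul_smul]
  · show (g * s.1) • x = g • x
    rw [mul_smul, MulAction.mem_stabilizer_iff.mp s.2]

open Classical in
theorem card_filter_smul_eq_zero (x y : X) (h : y ∉ MulAction.orbit G x) :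
    (Finset.univ.filter (fun τ : G => τ • x = y)).card = 0 := by
  rw [Finset.card_eq_zero, Finset.filter_eq_empty_iff]
  intro τ _ hτ
  exact h ⟨τ, hτ⟩

open Classical in
/-- orbit-stabiliser summation formula -/
theorem sum_inv_smul (F : X → ℤ) (x : X) :
    ∑ τ : G, F (τ⁻¹ • x) = (Nat.card (MulAction.stabilizer G x) : ℤ) *
      ∑ y : X, if cls G y = cls G x then F y else 0 := by
  have h1 : ∑ τ : G, F (τ⁻¹ • x) = ∑ τ : G, F (τ • x) :=
    Equiv.sum_comp (Equiv.inv G) (fun τ => F (τ • x))
  rw [h1]
  have h2 : ∀ τ : G, F (τ • x) = ∑ y : X, if τ • x = y then F y else 0 := by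
    intro τ
    rw [Finset.sum_ite_eq]
    simp
  simp_rw [h2]
  rw [Finset.sum_comm, Finset.mul_sum]
  refine Finset.sum_congr rfl fun y _ => ?_
  rw [← Finset.sum_filter, Finset.sum_const, nsmul_eq_mul]
  by_cases hy : y ∈ MulAction.orbit G x
  · rw [if_pos (cls_eq_iff.mpr hy), card_filter_smul_eq x y hy]
  · rw [if_neg (fun h => hy (cls_eq_iff.mp h)), card_filter_smul_eq_zero x y hy]
    simp

/-! ### Part (2): `ker N ≤ im (σ - 1)` -/

open Classical in
theorem permAug_single (σ : G) (w : X) :
    permAug G X σ (Pi.single w (1 : ℤ)) = Pi.single (σ • w) 1 - Pi.single w 1 := by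
  funext x
  rw [permAug_apply, Pi.sub_apply]
  congr 1
  by_cases h : x = σ • w
  · subst h
    simp
  · rw [Pi.single_eq_of_ne h, Pi.single_eq_of_ne]
    intro h'
    exact h (by rw [← h', smul_inv_smul])

open Classical in
theorem single_pow_sub_mem (σ : G) (k : ℕ) (z : X) :
    (Pi.single (σ ^ k • z) (1 : ℤ) - Pi.single z 1 : X → ℤ) ∈ (permAug G X σ).range := by
  induction k with
  | zero => simp
  | succ k ih =>
    have : (Pi.single (σ ^ (k + 1) • z) (1 : ℤ) - Pi.single z 1 : X → ℤ)
        = permAug G X σ (Pi.single (σ ^ k • z) (1 : ℤ))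
          + (Pi.single (σ ^ k • z) (1 : ℤ) - Pi.single z 1) := by
      rw [permAug_single, pow_succ', mul_smul]
      abel
    rw [this]
    exact AddSubgroup.add_mem _ ⟨_, rfl⟩ ih

theorem exists_pow_eq (σ : G) (hσ : ∀ τ : G, τ ∈ Subgroup.zpowers σ) (g : G) :
    ∃ k : ℕ, σ ^ k = g := by
  have h := hσ g
  rw [← (isOfFinOrder_of_finite σ).mem_powers_iff_mem_zpowers] at h
  exact (Submonoid.mem_powers_iff _ _).mp h

open Classical in
theorem single_sub_single_rep_mem (σ : G) (hσ : ∀ τ : G, τ ∈ Subgroup.zpowers σ) (x : X) :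
    (Pi.single x (1 : ℤ) - Pi.single (rep G x) 1 : X → ℤ) ∈ (permAug G X σ).range := by
  obtain ⟨g, hg⟩ := exists_smul_rep (G := G) x
  obtain ⟨k, rfl⟩ := exists_pow_eq σ hσ g
  have := single_pow_sub_mem σ k (rep G x)
  rwa [hg] at this

open Classical in
theorem orbit_sum_eq_zero {a : X → ℤ} (ha : permNorm G X a = 0) (w : X) :
    ∑ y : X, (if cls G y = cls G w then a y else 0) = 0 := by
  have h := congrFun ha w
  rw [permNorm_apply, sum_inv_smul] at h
  have hne : (Nat.card (MulAction.stabilizer G w) : ℤ) ≠ 0 := by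
    exact_mod_cast Nat.card_pos.ne'
  rcases mul_eq_zero.mp h with h | h
  · exact absurd h hne
  · convert h

open Classical in
theorem ker_norm_le_range_aug (σ : G) (hσ : ∀ τ : G, τ ∈ Subgroup.zpowers σ) :
    (permNorm G X).ker ≤ (permAug G X σ).range := by
  intro a ha
  rw [AddMonoidHom.mem_ker] at ha
  have hdecomp : a = ∑ x : X, a x • (Pi.single x (1 : ℤ) - Pi.single (rep G x) 1 : X → ℤ)
      + ∑ x : X, a x • (Pi.single (rep G x) (1 : ℤ) : X → ℤ) := by
    rw [← Finset.sum_add_distrib]
    simp_rw [← smul_add, sub_add_cancel]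
    funext w
    rw [Finset.sum_apply]
    simp [Pi.single_apply]
  have hzero : ∑ x : X, a x • (Pi.single (rep G x) (1 : ℤ) : X → ℤ) = 0 := by
    funext w
    rw [Finset.sum_apply, Pi.zero_apply]
    simp only [Pi.smul_apply, Pi.single_apply, smul_eq_mul, mul_ite, mul_one, mul_zero]
    by_cases hw : rep G w = w
    · refine Eq.trans ?_ (orbit_sum_eq_zero ha w)
      refine Finset.sum_congr rfl fun x _ => ?_
      by_cases hx : cls G x = cls G w
      · rw [if_pos hx, if_pos]
        rw [← hw, rep_eq_of_cls_eq hx]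
      · rw [if_neg hx, if_neg]
        intro h
        apply hx
        rw [h, cls_rep]
    · refine Finset.sum_eq_zero fun x _ => ?_
      rw [if_neg]
      intro h
      apply hw
      rw [h, rep_rep]
  rw [hdecomp, hzero, add_zero]
  refine AddSubgroup.sum_mem _ fun x _ => ?_
  exact AddSubgroup.zsmul_mem _ (single_sub_single_rep_mem σ hσ x) _

theorem hIndex_norm_aug (σ : G) (hσ : ∀ τ : G, τ ∈ Subgroup.zpowers σ) :
    hIndex (permNorm G X) (permAug G X σ) = 1 := by
  unfold hIndex
  rw [AddSubgroup.relIndex_eq_one]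
  exact ker_norm_le_range_aug σ hσ

/-! ### Part (1) -/

/-- functions on the orbit set, pulled back to `X` -/
def pull (G : Type u) [Group G] (X : Type v) [MulAction G X] :
    (MulAction.orbitRel.Quotient G X → ℤ) →+ (X → ℤ) where
  toFun c x := c (cls G x)
  map_zero' := rfl
  map_add' _ _ := rfl

theorem pull_apply (c : MulAction.orbitRel.Quotient G X → ℤ) (x : X) :
    pull G X c x = c (cls G x) := rfl

theorem pull_injective : Function.Injective (pull G X) := by
  intro c d h
  funext o
  induction o using Quotient.inductionOn' with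
  | h x => exact congrFun h x

theorem smul_invariant_of_mem_ker (σ : G) (hσ : ∀ τ : G, τ ∈ Subgroup.zpowers σ)
    {a : X → ℤ} (ha : a ∈ (permAug G X σ).ker) (g : G) (x : X) : a (g • x) = a x := by
  rw [AddMonoidHom.mem_ker] at ha
  have h1 : ∀ x, a (σ⁻¹ • x) = a x := fun x => by
    have := congrFun ha x
    rw [permAug_apply, Pi.zero_apply, sub_eq_zero] at this
    exact this
  let S : Subgroup G :=
    { carrier := {g | ∀ x, a (g • x) = a x}
      mul_mem' := fun {g h} hg hh x => by rw [mul_smul, hg, hh]
      one_mem' := fun x => by rw [one_smul]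
      inv_mem' := fun {g} hg x => by
        have := hg (g⁻¹ • x)
        rw [smul_inv_smul] at this
        exact this.symm }
  have hσS : σ ∈ S := by
    have : σ⁻¹ ∈ S := h1
    simpa using S.inv_mem this
  have : Subgroup.zpowers σ ≤ S := (Subgroup.zpowers_le).mpr hσS
  exact this (hσ g) x

theorem range_pull (σ : G) (hσ : ∀ τ : G, τ ∈ Subgroup.zpowers σ) :
    (pull G X).range = (permAug G X σ).ker := by
  ext a
  constructor
  · rintro ⟨c, rfl⟩
    rw [AddMonoidHom.mem_ker]
    funext x
    rw [permAug_apply, pull_apply, pull_apply, cls_smul, sub_self, Pi.zero_apply]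
  · intro ha
    refine ⟨fun o => a o.out, ?_⟩
    funext x
    rw [pull_apply]
    obtain ⟨g, hg⟩ := exists_smul_rep (G := G) x
    show a (rep G x) = a x
    calc a (rep G x) = a (g • rep G x) := (smul_invariant_of_mem_ker σ hσ ha g (rep G x)).symm
      _ = a x := by rw [hg]

/-- the stabiliser order of the chosen base point of an orbit -/
noncomputable def stabCard (G : Type u) [Group G] (X : Type v) [MulAction G X]
    (o : MulAction.orbitRel.Quotient G X) : ℕ := Nat.card (MulAction.stabilizer G o.out)

/-- reduction of the orbit coordinates modulo the stabiliser orders -/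
noncomputable def red (G : Type u) [Group G] (X : Type v) [MulAction G X] :
    (MulAction.orbitRel.Quotient G X → ℤ) →+
      ((o : MulAction.orbitRel.Quotient G X) → ZMod (stabCard G X o)) where
  toFun c o := (c o : ZMod (stabCard G X o))
  map_zero' := by funext o; simp
  map_add' c d := by funext o; simp

theorem red_surjective : Function.Surjective (red G X) := by
  intro t
  choose c hc using fun o => ZMod.intCast_surjective (t o)
  exact ⟨c, funext hc⟩

theorem mem_ker_red (c : MulAction.orbitRel.Quotient G X → ℤ) :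
    c ∈ (red G X).ker ↔ ∀ o, (stabCard G X o : ℤ) ∣ c o := by
  rw [AddMonoidHom.mem_ker]
  constructor
  · intro h o
    have := congrFun h o
    exact (ZMod.intCast_zmod_eq_zero_iff_dvd _ _).mp this
  · intro h
    funext o
    exact (ZMod.intCast_zmod_eq_zero_iff_dvd _ _).mpr (h o)

theorem norm_mem_ker_aug (σ : G) (a : X → ℤ) : permNorm G X a ∈ (permAug G X σ).ker := by
  rw [AddMonoidHom.mem_ker]
  funext x
  rw [permAug_apply, Pi.zero_apply, sub_eq_zero, permNorm_apply, permNorm_apply]
  refine Fintype.sum_equiv (Equiv.mulLeft σ) _ _ fun τ => ?_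
  simp [mul_smul]

open Classical in
theorem map_pull_ker_red (σ : G) (hσ : ∀ τ : G, τ ∈ Subgroup.zpowers σ) :
    (red G X).ker.map (pull G X) = (permNorm G X).range := by
  ext a
  constructor
  · rintro ⟨c, hc, rfl⟩
    have hc' := (mem_ker_red c).mp hc
    choose d hd using hc'
    set F : X → ℤ := fun x => if rep G x = x then d (cls G x) else 0 with hF
    refine ⟨F, ?_⟩
    funext w
    have hinv := smul_invariant_of_mem_ker σ hσ (norm_mem_ker_aug σ F)
    obtain ⟨g, hg⟩ := exists_smul_rep (G := G) w
    have hsum : ∑ y : X, (if cls G y = cls G (rep G w) then F y else 0) = d (cls G w) := by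
      rw [Finset.sum_eq_single (rep G w)]
      · rw [if_pos rfl, hF]
        simp only
        rw [if_pos (rep_rep w), cls_rep]
      · intro x _ hx
        by_cases h1 : cls G x = cls G (rep G w)
        · rw [if_pos h1, hF]
          simp only
          rw [if_neg]
          intro h2
          apply hx
          rw [← h2, rep_eq_of_cls_eq h1, rep_rep]
        · rw [if_neg h1]
      · intro h
        exact absurd (Finset.mem_univ _) h
    calc permNorm G X F w = permNorm G X F (g • rep G w) := by rw [hg]
      _ = permNorm G X F (rep G w) := hinv g _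
      _ = (Nat.card (MulAction.stabilizer G (rep G w)) : ℤ) * d (cls G w) := by
          rw [permNorm_apply, sum_inv_smul F (rep G w), hsum]
      _ = pull G X c w := by
          rw [pull_apply, hd]
          rfl
  · rintro ⟨a, rfl⟩
    have hker := norm_mem_ker_aug σ a
    rw [← range_pull σ hσ] at hker
    obtain ⟨c, hc⟩ := hker
    refine ⟨c, (mem_ker_red c).mpr ?_, hc⟩
    intro o
    have h1 : c o = permNorm G X a o.out := by
      rw [← hc, pull_apply]
      congr 1
      exact (Quotient.out_eq' o).symm
    rw [h1, permNorm_apply, sum_inv_smul]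
    exact Dvd.intro _ rfl

theorem index_ker_red : (red G X).ker.index = stabProd G X := by
  classical
  letI : Fintype (MulAction.orbitRel.Quotient G X) := Fintype.ofFinite _
  rw [AddSubgroup.index_ker, AddMonoidHom.range_eq_top.mpr red_surjective,
    AddSubgroup.card_top, Nat.card_pi]
  unfold stabProd stabCard
  simp only [Nat.card_zmod]

theorem hIndex_aug_norm (σ : G) (hσ : ∀ τ : G, τ ∈ Subgroup.zpowers σ) :
    hIndex (permAug G X σ) (permNorm G X) = stabProd G X := by
  unfold hIndex
  rw [← map_pull_ker_red σ hσ, ← range_pull σ hσ, AddMonoidHom.range_eq_map,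
    AddSubgroup.relIndex_map_map_of_injective _ _ pull_injective,
    AddSubgroup.relIndex_top_right, index_ker_red]

/-- **GU-P.** -/
theorem permSpec : PermSpec.{u, v} := by
  intro G _ _ X _ _ σ hσ
  exact ⟨hIndex_aug_norm σ hσ, hIndex_norm_aug σ hσ⟩

end Fermat.Agent.S55.G.Perm379
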