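/-
S55, layer G, block G-U (helper595): basic algebra of the permutation lattices `ℤ^X`, `ℝ^X`
of `SpecUnits.lean` (`permHom`, `permAug`, `permNorm`, `sumHom`, `traceZero`, `stabProd`).
-/
import Mathlib
import Fermat.Agent.S55.G.SpecUnits

set_option autoImplicit false

namespace Fermat.Agent.S55.G

universe u v

section Perm

variable (G : Type u) [Group G] (X : Type v) [MulAction G X]

@[simp] lemma permHom_apply (τ : G) (a : X → ℤ) (x : X) :
    permHom G X τ a x = a (τ⁻¹ • x) := rfl

@[simp] lemma permHomR_apply (τ : G) (a : X → ℝ) (x : X) :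
    permHomR G X τ a x = a (τ⁻¹ • x) := rfl

lemma permHom_mul (σ τ : G) (a : X → ℤ) :
    permHom G X (σ * τ) a = permHom G X σ (permHom G X τ a) := by
  funext x
  simp only [permHom_apply, mul_inv_rev, mul_smul]

lemma permHomR_mul (σ τ : G) (a : X → ℝ) :
    permHomR G X (σ * τ) a = permHomR G X σ (permHomR G X τ a) := by
  funext x
  simp only [permHomR_apply, mul_inv_rev, mul_smul]

lemma permHom_one (a : X → ℤ) : permHom G X 1 a = a := by
  funext x
  simp only [permHom_apply, inv_one, one_smul]

lemma permHomR_one (a : X → ℝ) : permHomR G X 1 a = a := by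
  funext x
  simp only [permHomR_apply, inv_one, one_smul]

lemma permAug_apply (σ : G) (a : X → ℤ) :
    permAug G X σ a = permHom G X σ a - a := rfl

lemma permAugR_apply (σ : G) (a : X → ℝ) :
    permAugR G X σ a = permHomR G X σ a - a := rfl

lemma permNorm_apply [Fintype G] (a : X → ℤ) :
    permNorm G X a = ∑ τ : G, permHom G X τ a := by
  unfold permNorm
  rw [AddMonoidHom.finsetSum_apply]

lemma permNormR_apply [Fintype G] (a : X → ℝ) :
    permNormR G X a = ∑ τ : G, permHomR G X τ a := by
  unfold permNormR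
  rw [AddMonoidHom.finsetSum_apply]

lemma permHom_permNorm [Fintype G] (σ : G) (a : X → ℤ) :
    permHom G X σ (permNorm G X a) = permNorm G X a := by
  rw [permNorm_apply, map_sum]
  simp only [← permHom_mul]
  exact Fintype.sum_equiv (Equiv.mulLeft σ) _ _ (fun _ => rfl)

lemma permHomR_permNormR [Fintype G] (σ : G) (a : X → ℝ) :
    permHomR G X σ (permNormR G X a) = permNormR G X a := by
  rw [permNormR_apply, map_sum]
  simp only [← permHomR_mul]
  exact Fintype.sum_equiv (Equiv.mulLeft σ) _ _ (fun _ => rfl)

lemma permNorm_permHom [Fintype G] (σ : G) (a : X → ℤ) :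
    permNorm G X (permHom G X σ a) = permNorm G X a := by
  rw [permNorm_apply, permNorm_apply]
  simp only [← permHom_mul]
  exact Fintype.sum_equiv (Equiv.mulRight σ) _ _ (fun _ => rfl)

lemma permNormR_permHomR [Fintype G] (σ : G) (a : X → ℝ) :
    permNormR G X (permHomR G X σ a) = permNormR G X a := by
  rw [permNormR_apply, permNormR_apply]
  simp only [← permHomR_mul]
  exact Fintype.sum_equiv (Equiv.mulRight σ) _ _ (fun _ => rfl)

lemma permAug_permNorm [Fintype G] (σ : G) (a : X → ℤ) :
    permAug G X σ (permNorm G X a) = 0 := by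
  rw [permAug_apply, permHom_permNorm, sub_self]

lemma permNorm_permAug [Fintype G] (σ : G) (a : X → ℤ) :
    permNorm G X (permAug G X σ a) = 0 := by
  rw [permAug_apply, map_sub, permNorm_permHom, sub_self]

lemma permAugR_permNormR [Fintype G] (σ : G) (a : X → ℝ) :
    permAugR G X σ (permNormR G X a) = 0 := by
  rw [permAugR_apply, permHomR_permNormR, sub_self]

lemma permNormR_permAugR [Fintype G] (σ : G) (a : X → ℝ) :
    permNormR G X (permAugR G X σ a) = 0 := by
  rw [permAugR_apply, map_sub, permNormR_permHomR, sub_self]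

/-- The coefficientwise inclusion `ℤ^X → ℝ^X`. -/
def coeHomR : (X → ℤ) →+ (X → ℝ) where
  toFun a x := (a x : ℝ)
  map_zero' := by funext x; simp
  map_add' a b := by funext x; simp

@[simp] lemma coeHomR_apply (a : X → ℤ) (x : X) : coeHomR X a x = (a x : ℝ) := rfl

lemma coeHomR_injective : Function.Injective (coeHomR X) := by
  intro a b h
  funext x
  have := congrFun h x
  simpa using this

lemma coeHomR_permHom (τ : G) (a : X → ℤ) :
    coeHomR X (permHom G X τ a) = permHomR G X τ (coeHomR X a) := rfl

lemma coeHomR_permAug (σ : G) (a : X → ℤ) :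
    coeHomR X (permAug G X σ a) = permAugR G X σ (coeHomR X a) := by
  rw [permAug_apply, permAugR_apply, map_sub, coeHomR_permHom]

lemma coeHomR_permNorm [Fintype G] (a : X → ℤ) :
    coeHomR X (permNorm G X a) = permNormR G X (coeHomR X a) := by
  rw [permNorm_apply, permNormR_apply, map_sum]
  simp only [coeHomR_permHom]

variable [Fintype X]

@[simp] lemma sumHom_apply (a : X → ℤ) : sumHom X a = ∑ x, a x := rfl

lemma sumHom_permHom (τ : G) (a : X → ℤ) : sumHom X (permHom G X τ a) = sumHom X a := by
  simp only [sumHom_apply, permHom_apply]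
  exact Equiv.sum_comp (MulAction.toPerm τ⁻¹) a

lemma sumHom_permAug (σ : G) (a : X → ℤ) : sumHom X (permAug G X σ a) = 0 := by
  rw [permAug_apply, map_sub, sumHom_permHom, sub_self]

lemma sumHom_permNorm [Fintype G] (a : X → ℤ) :
    sumHom X (permNorm G X a) = Fintype.card G • sumHom X a := by
  rw [permNorm_apply, map_sum]
  simp only [sumHom_permHom]
  rw [Finset.sum_const, Finset.card_univ]

lemma sumHom_surjective [Nonempty X] : Function.Surjective (sumHom X) := by
  classical
  obtain ⟨x₀⟩ := ‹Nonempty X›
  intro n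
  refine ⟨Pi.single x₀ n, ?_⟩
  simp only [sumHom_apply]
  rw [Finset.sum_pi_single']
  simp

lemma mem_traceZero (a : X → ℤ) : a ∈ traceZero X ↔ ∑ x, a x = 0 := Iff.rfl

lemma stabProd_ne_zero [Finite G] : stabProd G X ≠ 0 := by
  unfold stabProd
  refine Finset.prod_ne_zero_iff.2 (fun o _ => ?_)
  exact Nat.card_pos.ne'

end Perm

end Fermat.Agent.S55.G
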