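/-
S55, layer G, block G-U (helper595): two further small leaf specs needed by the assemblies
(`UnitsAssembly.lean`, `SUnitsAssembly.lean`).  No `sorry` here.
-/
import Mathlib
import Fermat.Agent.S55.G.SpecUnits
import Fermat.Agent.S55.G.PermBasic

set_option autoImplicit false

namespace Fermat.Agent.S55.G

open NumberField

universe u v

/-- **(S-STAB) the `T`-units are Galois stable.**  (`T` is a set of primes of the base field
`K`, so the set of primes of `L` above `T` is stable under `Gal(L/K)`.)  Route: for `w` a prime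
of `𝓞 L` and `τ`, put `w' = IsDedekindDomain.HeightOneSpectrum.comap` of `w` under the
restriction of `τ` to `𝓞 L` (`galRestrict`); then `w'` lies over the same prime of `K`, and
`w.valuation (τ x) ≤ 1 ↔ w'.valuation x ≤ 1` by
`IsDedekindDomain.HeightOneSpectrum.exists_primeCompl_mul_eq_of_integer`. -/
def SUnitsStableSpec : Prop :=
  ∀ (K : Type u) (L : Type v) [Field K] [Field L] [NumberField K] [NumberField L] [Algebra K L]
    [IsGalois K L] (T : Finset (IsDedekindDomain.HeightOneSpectrum (𝓞 K))) (τ : L ≃ₐ[K] L)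
    (x : Additive Lˣ), x ∈ sUnits K L T → unitsHom K L τ x ∈ sUnits K L T

/-- **(TZ-BASIS) a `ℤ`-basis of the integral trace-zero lattice inside `ℝ^X`.**
Route: fix `x₀`; the family `e_x - e_{x₀}` (`x ≠ x₀`), reindexed by `Fin (card X - 1)`. -/
def TraceZeroBasisSpec : Prop :=
  ∀ (X : Type v) [Fintype X] [Nonempty X],
    ∃ (r : ℕ) (b : Fin r → (X → ℝ)), LinearIndependent ℝ b ∧
      Submodule.span ℝ (Set.range b) =
        LinearMap.ker (∑ x : X, LinearMap.proj x : (X → ℝ) →ₗ[ℝ] ℝ) ∧
      (Submodule.span ℤ (Set.range b)).toAddSubgroup = (traceZero X).map (coeHomR X)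

end Fermat.Agent.S55.G
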