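/-
S55, layer G, block G-U (helper595): basic algebra of the Galois action on `Additive Lˣ`
(`unitsHom`, `unitsAug`, `unitsNorm`) and Galois stability of the units of `𝓞 L`.
-/
import Mathlib
import Fermat.Agent.S55.G.SpecUnits

set_option autoImplicit false
set_option linter.unusedSectionVars false

namespace Fermat.Agent.S55.G

open NumberField

universe u v

section Units

variable (K : Type u) (L : Type v) [Field K] [Field L] [Algebra K L]

lemma unitsHom_toMul_val (τ : L ≃ₐ[K] L) (x : Additive Lˣ) :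
    ((Additive.toMul (unitsHom K L τ x) : Lˣ) : L) = τ ((Additive.toMul x : Lˣ) : L) := rfl

lemma unitsHom_mul (σ τ : L ≃ₐ[K] L) (x : Additive Lˣ) :
    unitsHom K L (σ * τ) x = unitsHom K L σ (unitsHom K L τ x) := by
  apply Additive.toMul.injective
  apply Units.ext
  rfl

lemma unitsHom_one (x : Additive Lˣ) : unitsHom K L 1 x = x := by
  apply Additive.toMul.injective
  apply Units.ext
  rfl

lemma unitsAug_apply (σ : L ≃ₐ[K] L) (x : Additive Lˣ) :
    unitsAug K L σ x = unitsHom K L σ x - x := rfl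

variable [FiniteDimensional K L]

lemma unitsNorm_apply (x : Additive Lˣ) :
    unitsNorm K L x = ∑ τ : (L ≃ₐ[K] L), unitsHom K L τ x := by
  unfold unitsNorm
  rw [AddMonoidHom.finsetSum_apply]

lemma unitsHom_unitsNorm (σ : L ≃ₐ[K] L) (x : Additive Lˣ) :
    unitsHom K L σ (unitsNorm K L x) = unitsNorm K L x := by
  rw [unitsNorm_apply, map_sum]
  simp only [← unitsHom_mul]
  exact Fintype.sum_equiv (Equiv.mulLeft σ) _ _ (fun _ => rfl)

lemma unitsNorm_unitsHom (σ : L ≃ₐ[K] L) (x : Additive Lˣ) :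
    unitsNorm K L (unitsHom K L σ x) = unitsNorm K L x := by
  rw [unitsNorm_apply, unitsNorm_apply]
  simp only [← unitsHom_mul]
  exact Fintype.sum_equiv (Equiv.mulRight σ) _ _ (fun _ => rfl)

lemma unitsAug_unitsNorm (σ : L ≃ₐ[K] L) (x : Additive Lˣ) :
    unitsAug K L σ (unitsNorm K L x) = 0 := by
  rw [unitsAug_apply, unitsHom_unitsNorm, sub_self]

lemma unitsNorm_unitsAug (σ : L ≃ₐ[K] L) (x : Additive Lˣ) :
    unitsNorm K L (unitsAug K L σ x) = 0 := by
  rw [unitsAug_apply, map_sub, unitsNorm_unitsHom, sub_self]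

end Units

section Stable

variable (K : Type u) (L : Type v) [Field K] [Field L] [Algebra K L] [NumberField L]

lemma mem_intUnits_iff_isIntegral (x : Additive Lˣ) :
    x ∈ intUnits L ↔ IsIntegral ℤ ((Additive.toMul x : Lˣ) : L) ∧
      IsIntegral ℤ (((Additive.toMul x)⁻¹ : Lˣ) : L) := by
  constructor
  · rintro ⟨u, rfl⟩
    exact ⟨(u : 𝓞 L).2, ((u⁻¹ : (𝓞 L)ˣ) : 𝓞 L).2⟩
  · rintro ⟨h1, h2⟩
    have h1' : ((Additive.toMul x : Lˣ) : L) ∈ integralClosure ℤ L := h1
    have h2' : (((Additive.toMul x)⁻¹ : Lˣ) : L) ∈ integralClosure ℤ L := h2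
    let a : 𝓞 L := ⟨_, h1'⟩
    let b : 𝓞 L := ⟨_, h2'⟩
    have hab : a * b = 1 := by
      apply RingOfIntegers.ext
      show ((Additive.toMul x : Lˣ) : L) * (((Additive.toMul x)⁻¹ : Lˣ) : L) = 1
      simp
    have hba : b * a = 1 := by rw [mul_comm, hab]
    refine ⟨⟨a, b, hab, hba⟩, ?_⟩
    apply Units.ext
    rfl

lemma unitsHom_mem_intUnits (τ : L ≃ₐ[K] L) (x : Additive Lˣ) (hx : x ∈ intUnits L) :
    unitsHom K L τ x ∈ intUnits L := by
  rw [mem_intUnits_iff_isIntegral] at hx ⊢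
  obtain ⟨h1, h2⟩ := hx
  refine ⟨?_, ?_⟩
  · exact h1.map (τ : L →ₐ[K] L).toRingHom.toIntAlgHom
  · have : (((Additive.toMul (unitsHom K L τ x))⁻¹ : Lˣ) : L) =
        τ (((Additive.toMul x)⁻¹ : Lˣ) : L) := by
      rw [Units.val_inv_eq_inv_val, Units.val_inv_eq_inv_val, map_inv₀]
      rfl
    rw [this]
    exact h2.map (τ : L →ₐ[K] L).toRingHom.toIntAlgHom

lemma unitsAug_mem_intUnits (σ : L ≃ₐ[K] L) (x : Additive Lˣ) (hx : x ∈ intUnits L) :
    unitsAug K L σ x ∈ intUnits L := by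
  rw [unitsAug_apply]
  exact (intUnits L).sub_mem (unitsHom_mem_intUnits K L σ x hx) hx

lemma unitsNorm_mem_intUnits [FiniteDimensional K L] (x : Additive Lˣ) (hx : x ∈ intUnits L) :
    unitsNorm K L x ∈ intUnits L := by
  rw [unitsNorm_apply]
  exact (intUnits L).sum_mem (fun τ _ => unitsHom_mem_intUnits K L τ x hx)

end Stable

end Fermat.Agent.S55.G
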