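/-
S55, layer G, block G-U (helper595): assembly A3, `SUnitsHerbrandSpec` from
`UnitsHerbrandSpec`, `SUnitsOrdSpec`, `PermSpec`, `SUnitsStableSpec`.

`0 → 𝒪_L^× → 𝒪_{L,T}^× → ψ(𝒪_{L,T}^×) → 0`, the last group of finite index in the permutation
lattice `ℤ^{primes above T}`.
-/
import Mathlib
import Fermat.Agent.S55.G.SpecUnits
import Fermat.Agent.S55.G.SpecUnits2
import Fermat.Agent.S55.G.PermBasic
import Fermat.Agent.S55.G.UnitsBasic
import Fermat.Agent.S55.G.HerbrandRel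

set_option autoImplicit false

namespace Fermat.Agent.S55.G

open Fermat.Agent.S55.Herbrand NumberField

universe u v

/-- **Assembly A3.** -/
theorem sUnitsHerbrandSpec_of (hU : UnitsHerbrandSpec.{u, v}) (hO : SUnitsOrdSpec.{u, v})
    (hP : PermSpec.{v, v}) (hS : SUnitsStableSpec.{u, v}) : SUnitsHerbrandSpec.{u, v} := by
  intro K L _ _ _ _ _ _ σ hσ T
  obtain ⟨u1, u2, u3⟩ := hU K L σ hσ
  obtain ⟨iMA, iFT, ψ, hψ, hker, hidx, hstab⟩ := hO K L T
  obtain ⟨p1, p2⟩ := hP (L ≃ₐ[K] L) ↥(primesAbove K L T) σ hσ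
  -- stability of the `T`-units
  have hSf : ∀ x ∈ sUnits K L T, unitsAug K L σ x ∈ sUnits K L T := by
    intro x hx
    rw [unitsAug_apply]
    exact (sUnits K L T).sub_mem (hS K L T σ x hx) hx
  have hSg : ∀ x ∈ sUnits K L T, unitsNorm K L x ∈ sUnits K L T := by
    intro x hx
    rw [unitsNorm_apply]
    exact (sUnits K L T).sum_mem (fun τ _ => hS K L T τ x hx)
  -- equivariance of `ψ`
  have hψf : ∀ b, ψ (unitsAug K L σ b) = permAug (L ≃ₐ[K] L) ↥(primesAbove K L T) σ (ψ b) := by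
    intro b
    rw [unitsAug_apply, permAug_apply, map_sub, hψ]
  have hψg : ∀ b, ψ (unitsNorm K L b) = permNorm (L ≃ₐ[K] L) ↥(primesAbove K L T) (ψ b) := by
    intro b
    rw [unitsNorm_apply, permNorm_apply, map_sum]
    simp only [hψ]
  -- the six factors
  obtain ⟨Ef, Eg, w, y, w', y', e1, e2, e3, e4, e5, e6⟩ :=
    hIndexSub_six (unitsAug K L σ) (unitsNorm K L)
      (permAug (L ≃ₐ[K] L) ↥(primesAbove K L T) σ) (permNorm (L ≃ₐ[K] L) ↥(primesAbove K L T))
      ψ hψf hψg (sUnits K L T) hSf hSg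
      (fun b _ => unitsAug_unitsNorm K L σ b) (fun b _ => unitsNorm_unitsAug K L σ b)
  rw [hker] at e1 e4
  -- the image has finite index in the permutation lattice
  obtain ⟨f1, f2⟩ := hIndexSub_of_finite_index
    (permAug (L ≃ₐ[K] L) ↥(primesAbove K L T) σ) (permNorm (L ≃ₐ[K] L) ↥(primesAbove K L T))
    ((sUnits K L T).map ψ) ⊤ le_top (by rwa [AddSubgroup.relIndex_top_right])
    (by
      rintro _ ⟨x, hx, rfl⟩
      exact ⟨_, hSf x hx, hψf x⟩)
    (by
      rintro _ ⟨x, hx, rfl⟩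
      exact ⟨_, hSg x hx, hψg x⟩)
    (fun _ _ => AddSubgroup.mem_top _) (fun _ _ => AddSubgroup.mem_top _)
    (fun b _ => permAug_permNorm _ _ σ b) (fun b _ => permNorm_permAug _ _ σ b)
  rw [hIndexSub_top, hIndexSub_top, p1, p2, hstab] at f1 f2
  have hD : finDegProd K L T ≠ 0 := by
    rw [← hstab]
    exact stabProd_ne_zero _ _
  obtain ⟨g1, g2⟩ := f1.2 ⟨hD, one_ne_zero⟩
  rw [mul_one] at f2
  rw [e3] at g1 f2
  rw [e6] at g2 f2
  rw [e1] at u1 u3
  rw [e4] at u2 u3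
  rw [e2, e5]
  have hEg : Eg ≠ 0 := left_ne_zero_of_mul u1
  have hw : w ≠ 0 := right_ne_zero_of_mul u1
  have hEf : Ef ≠ 0 := left_ne_zero_of_mul u2
  have hw' : w' ≠ 0 := right_ne_zero_of_mul u2
  have hy : y ≠ 0 := right_ne_zero_of_mul g1
  have hy' : y' ≠ 0 := right_ne_zero_of_mul g2
  refine ⟨Nat.mul_ne_zero hw hy, Nat.mul_ne_zero hw' hy', ?_⟩
  have hne : Eg * Ef ≠ 0 := Nat.mul_ne_zero hEg hEf
  apply Nat.eq_of_mul_eq_mul_right (Nat.pos_of_ne_zero hne)
  calc w * y * Module.finrank K L * (Eg * Ef)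
      = (Eg * w * Module.finrank K L) * (Ef * y) := by ring
    _ = (Ef * w' * infDegProd K L) * (Eg * y' * finDegProd K L T) := by rw [u3, f2]
    _ = w' * y' * (infDegProd K L * finDegProd K L T) * (Eg * Ef) := by ring

end Fermat.Agent.S55.G
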