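/-
S55, layer G, block G-U (helper595): assembly A1, `TraceZeroSpec` from `PermSpec`.

`0 → Λ₀ → ℤ^X → ℤ → 0` with `G` acting trivially on `ℤ`, whose Herbrand indices are `(n, 1)`.
-/
import Mathlib
import Fermat.Agent.S55.G.SpecUnits
import Fermat.Agent.S55.G.PermBasic
import Fermat.Agent.S55.G.HerbrandRel

set_option autoImplicit false

namespace Fermat.Agent.S55.G

open Fermat.Agent.S55.Herbrand

universe u v

lemma hIndex_zero_nsmul_id (n : ℕ) :
    hIndex (0 : ℤ →+ ℤ) (n • AddMonoidHom.id ℤ) = n := by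
  unfold hIndex
  have h1 : (0 : ℤ →+ ℤ).ker = ⊤ := by
    ext x
    simp
  have h2 : (n • AddMonoidHom.id ℤ).range = AddSubgroup.zmultiples (n : ℤ) := by
    ext x
    simp only [AddMonoidHom.mem_range, AddMonoidHom.smul_apply, AddMonoidHom.id_apply,
      AddSubgroup.mem_zmultiples_iff]
    constructor
    · rintro ⟨y, rfl⟩
      exact ⟨y, by simp [mul_comm]⟩
    · rintro ⟨y, rfl⟩
      exact ⟨y, by simp [mul_comm]⟩
  rw [h1, h2, AddSubgroup.relIndex_top_right, Int.index_zmultiples]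
  simp

lemma hIndex_nsmul_id_zero (n : ℕ) (hn : n ≠ 0) :
    hIndex (n • AddMonoidHom.id ℤ) (0 : ℤ →+ ℤ) = 1 := by
  unfold hIndex
  have h1 : (n • AddMonoidHom.id ℤ).ker = ⊥ := by
    ext x
    simp only [AddMonoidHom.mem_ker, AddMonoidHom.smul_apply, AddMonoidHom.id_apply,
      AddSubgroup.mem_bot]
    constructor
    · intro h
      rcases smul_eq_zero.1 h with h | h
      · exact absurd h hn
      · exact h
    · rintro rfl
      simp
  have h2 : (0 : ℤ →+ ℤ).range = ⊥ := by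
    ext x
    simp only [AddMonoidHom.mem_range, AddMonoidHom.zero_apply, AddSubgroup.mem_bot]
    constructor
    · rintro ⟨_, rfl⟩
      rfl
    · rintro rfl
      exact ⟨0, rfl⟩
  rw [h1, h2, AddSubgroup.relIndex_self]

/-- **Assembly A1.** -/
theorem traceZeroSpec_of (h : PermSpec.{u, v}) : TraceZeroSpec.{u, v} := by
  intro G _ _ X _ _ _ σ hσ
  obtain ⟨h1, h2⟩ := h G X σ hσ
  have hn : Fintype.card G ≠ 0 := Fintype.card_ne_zero
  obtain ⟨Ef, Eg, w, y, w', y', e1, e2, e3, e4, e5, e6⟩ :=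
    hIndexSub_six (permAug G X σ) (permNorm G X) (0 : ℤ →+ ℤ)
      (Fintype.card G • AddMonoidHom.id ℤ) (sumHom X)
      (fun b => by rw [sumHom_permAug]; rfl)
      (fun b => by rw [sumHom_permNorm]; rfl)
      ⊤ (fun _ _ => AddSubgroup.mem_top _) (fun _ _ => AddSubgroup.mem_top _)
      (fun b _ => permAug_permNorm G X σ b) (fun b _ => permNorm_permAug G X σ b)
  have htop : (⊤ : AddSubgroup (X → ℤ)).map (sumHom X) = ⊤ :=
    AddSubgroup.map_top_of_surjective _ (sumHom_surjective X)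
  have hker : (sumHom X).ker ⊓ ⊤ = traceZero X := inf_top_eq _
  rw [hker] at e1 e4
  rw [hIndexSub_top, h1] at e2
  rw [hIndexSub_top, h2] at e5
  rw [htop, hIndexSub_top, hIndex_zero_nsmul_id] at e3
  rw [htop, hIndexSub_top, hIndex_nsmul_id_zero _ hn] at e6
  have hw' : w' = 1 := Nat.eq_one_of_mul_eq_one_right e5.symm
  have hEg : Eg = 1 := Nat.eq_one_of_mul_eq_one_right e6.symm
  have hP : stabProd G X ≠ 0 := stabProd_ne_zero G X
  rw [e1, e4, hw', hEg, one_mul, mul_one]
  refine ⟨?_, ?_, ?_⟩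
  · rw [e2] at hP
    exact left_ne_zero_of_mul hP
  · rw [e3] at hn
    exact left_ne_zero_of_mul hn
  · rw [e2, e3]
    ring

end Fermat.Agent.S55.G
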