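/-
S55, layer G, block G-U, subtask 287 (helper831): `TraceZeroBasisSpec`.

A `ℤ`-basis of the integral trace-zero lattice inside `ℝ^X`: fix `x₀`, take the family
`e_x - e_{x₀}` (`x ≠ x₀`), reindexed by `Fin (card {x // x ≠ x₀})`.
-/
import Mathlib
import Fermat.Agent.S55.G.SpecUnits2

set_option autoImplicit false

namespace Fermat.Agent.S55.G.TZB

open Fermat.Agent.S55.G

universe v

section

variable {X : Type v} [DecidableEq X] (x0 : X)

/-- The vector `e_x - e_{x₀}` of `ℝ^X`. -/
def diffVec (x : X) : X → ℝ := Pi.single x 1 - Pi.single x0 1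

/-- The vector `e_x - e_{x₀}` of `ℤ^X`. -/
def diffVecZ (x : X) : X → ℤ := Pi.single x 1 - Pi.single x0 1

lemma coeHomR_diffVecZ (x : X) : coeHomR X (diffVecZ x0 x) = diffVec x0 x := by
  funext y
  simp only [coeHomR_apply, diffVecZ, diffVec, Pi.sub_apply, Pi.single_apply]
  split_ifs <;> simp

variable [Fintype X]

lemma sum_diffVecZ (x : X) : ∑ y, diffVecZ x0 x y = 0 := by
  simp [diffVecZ, Finset.sum_sub_distrib]

lemma diffVecZ_mem_traceZero (x : X) : diffVecZ x0 x ∈ traceZero X := by
  show sumHom X (diffVecZ x0 x) = 0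
  exact sum_diffVecZ x0 x

lemma sum_diffVec (x : X) : ∑ y, diffVec x0 x y = 0 := by
  simp [diffVec, Finset.sum_sub_distrib]

/-- Evaluation of a combination of the `e_y - e_{x₀}` at a point `x ≠ x₀`. -/
lemma comb_apply_ne (c : {x : X // x ≠ x0} → ℝ) (x : X) (hx : x ≠ x0) :
    (∑ y : {x : X // x ≠ x0}, c y • diffVec x0 y.1) x = c ⟨x, hx⟩ := by
  rw [Finset.sum_apply, Finset.sum_eq_single (⟨x, hx⟩ : {x : X // x ≠ x0})]
  · simp [diffVec, hx]
  · intro y _ hy
    have hne : x ≠ y.1 := fun h => hy (Subtype.ext h.symm)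
    simp [diffVec, hne, hx]
  · intro h
    exact absurd (Finset.mem_univ _) h

/-- Evaluation of a combination of the `e_y - e_{x₀}` at `x₀`. -/
lemma comb_apply_self (c : {x : X // x ≠ x0} → ℝ) :
    (∑ y : {x : X // x ≠ x0}, c y • diffVec x0 y.1) x0 = - ∑ y, c y := by
  rw [Finset.sum_apply, ← Finset.sum_neg_distrib]
  refine Finset.sum_congr rfl fun y _ => ?_
  have hne : x0 ≠ y.1 := fun h => y.2 h.symm
  simp [diffVec, hne]

lemma sum_subtype_ne (a : X → ℝ) :
    ∑ x, a x = a x0 + ∑ y : {x : X // x ≠ x0}, a y.1 := by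
  rw [← Finset.add_sum_erase Finset.univ a (Finset.mem_univ x0)]
  congr 1
  exact Finset.sum_subtype (Finset.univ.erase x0) (fun x => by simp) a

/-- Every trace-zero real vector is the obvious combination of the `e_y - e_{x₀}`. -/
lemma decomp (a : X → ℝ) (ha : ∑ x, a x = 0) :
    a = ∑ y : {x : X // x ≠ x0}, a y.1 • diffVec x0 y.1 := by
  funext x
  by_cases hx : x = x0
  · subst hx
    rw [comb_apply_self]
    have := sum_subtype_ne x a
    linarith
  · rw [comb_apply_ne x0 (fun y => a y.1) x hx]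

end

/-- **(TZ-BASIS)**, subtask 287 (proof). -/
theorem traceZeroBasisSpec_aux : TraceZeroBasisSpec.{v} := by
  classical
  intro X _ _
  obtain ⟨x0⟩ := (inferInstance : Nonempty X)
  let Y := {x : X // x ≠ x0}
  let e : Fin (Fintype.card Y) ≃ Y := (Fintype.equivFin Y).symm
  let b : Fin (Fintype.card Y) → (X → ℝ) := fun i => diffVec x0 (e i).1
  -- reindexing of combinations
  have hre : ∀ c : Y → ℝ, ∑ i, c (e i) • b i = ∑ y : Y, c y • diffVec x0 y.1 := fun c =>
    Fintype.sum_equiv e (fun i => c (e i) • b i) (fun y => c y • diffVec x0 y.1) (fun _ => rfl)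
  have hker : ∀ i, b i ∈ LinearMap.ker (∑ x : X, LinearMap.proj x : (X → ℝ) →ₗ[ℝ] ℝ) := by
    intro i
    rw [LinearMap.mem_ker, LinearMap.sum_apply]
    simp only [LinearMap.proj_apply]
    exact sum_diffVec x0 _
  refine ⟨Fintype.card Y, b, ?_, ?_, ?_⟩
  · -- linear independence
    rw [Fintype.linearIndependent_iff]
    intro g hg i
    have h1 : ∑ j, g j • b j = ∑ y : Y, g (e.symm y) • diffVec x0 y.1 := by
      rw [← hre (fun y => g (e.symm y))]
      simp
    rw [h1] at hg
    have h2 := comb_apply_ne x0 (fun y => g (e.symm y)) (e i).1 (e i).2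
    rw [hg] at h2
    simpa using h2.symm
  · -- real span
    apply le_antisymm
    · rw [Submodule.span_le]
      rintro _ ⟨i, rfl⟩
      exact hker i
    · intro a ha
      rw [LinearMap.mem_ker, LinearMap.sum_apply] at ha
      simp only [LinearMap.proj_apply] at ha
      rw [decomp x0 a ha, ← hre (fun y => a y.1)]
      exact Submodule.sum_mem _ fun i _ =>
        Submodule.smul_mem _ _ (Submodule.subset_span ⟨i, rfl⟩)
  · -- integral span
    apply le_antisymm
    · have : Submodule.span ℤ (Set.range b) ≤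
          AddSubgroup.toIntSubmodule ((traceZero X).map (coeHomR X)) := by
        rw [Submodule.span_le]
        rintro _ ⟨i, rfl⟩
        exact ⟨diffVecZ x0 (e i).1, diffVecZ_mem_traceZero x0 _, coeHomR_diffVecZ x0 _⟩
      intro v hv
      exact this hv
    · rintro _ ⟨a, ha, rfl⟩
      have ha' : ∑ x, coeHomR X a x = 0 := by
        have h0 : sumHom X a = 0 := ha
        have h1 : ((∑ x, a x : ℤ) : ℝ) = 0 := by
          have : (∑ x, a x : ℤ) = 0 := h0
          rw [this]; simp
        simpa using h1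
      have hdec := decomp x0 (coeHomR X a) ha'
      rw [← hre (fun y => coeHomR X a y.1)] at hdec
      show coeHomR X a ∈ Submodule.span ℤ (Set.range b)
      rw [hdec]
      refine Submodule.sum_mem _ fun i _ => ?_
      have : (coeHomR X a (e i).1) • b i = (a (e i).1) • b i := by
        rw [coeHomR_apply]
        exact Int.cast_smul_eq_zsmul ℝ _ _
      rw [this]
      exact Submodule.smul_mem _ _ (Submodule.subset_span ⟨i, rfl⟩)

end Fermat.Agent.S55.G.TZB

namespace Fermat.Agent.S55.G

universe v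

/-- **(TZ-BASIS)**: a `ℤ`-basis of the integral trace-zero lattice inside `ℝ^X`. -/
theorem traceZeroBasisSpec : TraceZeroBasisSpec.{v} := TZB.traceZeroBasisSpec_aux

end Fermat.Agent.S55.G
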