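/-
S55, layer G, block G-U (helper595): assembly A2, `UnitsHerbrandSpec` from the leaf specs
`UnitsLogSpec`, `LatticeSpec`, `TraceZeroSpec`, `OrbitInfSpec`, `TraceZeroBasisSpec`.

`𝒪_L^× → φ(𝒪_L^×)` has finite kernel; `φ(𝒪_L^×)` and the integral trace-zero lattice are two
`G`-stable lattices spanning the trace-zero hyperplane of `ℝ^{places}`, hence have the same
Herbrand quotient (`LatticeSpec`); the latter is computed by `TraceZeroSpec`.
-/
import Mathlib
import Fermat.Agent.S55.G.SpecUnits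
import Fermat.Agent.S55.G.SpecUnits2
import Fermat.Agent.S55.G.PermBasic
import Fermat.Agent.S55.G.UnitsBasic
import Fermat.Agent.S55.G.HerbrandRel

set_option autoImplicit false

namespace Fermat.Agent.S55.G

open Fermat.Agent.S55.Herbrand NumberField

universe u v

section PermLin

variable (G : Type u) [Group G] (X : Type v) [MulAction G X]

/-- The permutation action as an `ℝ`-linear map. -/
def permLin (τ : G) : (X → ℝ) →ₗ[ℝ] (X → ℝ) := LinearMap.funLeft ℝ ℝ (fun x => τ⁻¹ • x)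

lemma permLin_apply (τ : G) (a : X → ℝ) : permLin G X τ a = permHomR G X τ a := rfl

lemma permLin_pow (τ : G) (k : ℕ) : permLin G X τ ^ k = permLin G X (τ ^ k) := by
  induction k with
  | zero =>
    refine LinearMap.ext fun a => ?_
    rw [pow_zero, pow_zero, permLin_apply, permHomR_one]
    rfl
  | succ k ih =>
    refine LinearMap.ext fun a => ?_
    rw [pow_succ, ih, pow_succ, Module.End.mul_apply, permLin_apply, permLin_apply,
      permLin_apply, permHomR_mul]

lemma permLin_sub_one (σ : G) :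
    (permLin G X σ - 1 : (X → ℝ) →ₗ[ℝ] (X → ℝ)).toAddMonoidHom = permAugR G X σ := by
  refine AddMonoidHom.ext fun a => ?_
  rfl

lemma permLin_sum_pow [Fintype G] (σ : G) (hσ : ∀ τ : G, τ ∈ Subgroup.zpowers σ) :
    (∑ k ∈ Finset.range (Fintype.card G), permLin G X σ ^ k :
      (X → ℝ) →ₗ[ℝ] (X → ℝ)).toAddMonoidHom = permNormR G X := by
  classical
  refine AddMonoidHom.ext fun a => ?_
  show (∑ k ∈ Finset.range (Fintype.card G), permLin G X σ ^ k) a = permNormR G X a
  rw [LinearMap.sum_apply, permNormR_apply]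
  simp only [permLin_pow, permLin_apply]
  have himg := IsCyclic.image_range_card hσ
  rw [Nat.card_eq_fintype_card] at himg
  rw [← himg, Finset.sum_image]
  have hord : orderOf σ = Fintype.card G := by
    rw [orderOf_eq_card_of_forall_mem_zpowers hσ, Nat.card_eq_fintype_card]
  intro i hi j hj hij
  apply pow_injOn_Iio_orderOf (x := σ)
  · rw [hord]
    exact Finset.mem_range.1 hi
  · rw [hord]
    exact Finset.mem_range.1 hj
  · exact hij

end PermLin

/-- **Assembly A2.** -/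
theorem unitsHerbrandSpec_of (hLog : UnitsLogSpec.{u, v}) (hLat : LatticeSpec.{v})
    (hTZ : TraceZeroSpec.{v, v}) (hOrb : OrbitInfSpec.{u, v}) (hB : TraceZeroBasisSpec.{v}) :
    UnitsHerbrandSpec.{u, v} := by
  intro K L _ _ _ _ _ _ σ hσ
  obtain ⟨φ, hφ, hfin, r, b, hb_li, hb_span, hb_img⟩ := hLog K L
  obtain ⟨r₂, b₂, hb₂_li, hb₂_span, hb₂_img⟩ := hB (InfinitePlace L)
  -- the two ranks agree
  have hr : r = r₂ := by
    have h1 := finrank_span_eq_card hb_li
    have h2 := finrank_span_eq_card hb₂_li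
    rw [Fintype.card_fin] at h1 h2
    rw [← h1, ← h2, hb_span, hb₂_span]
    rfl
  subst hr
  -- equivariance of `φ`
  have hφf : ∀ x, φ (unitsAug K L σ x) =
      permAugR (L ≃ₐ[K] L) (InfinitePlace L) σ (φ x) := by
    intro x
    rw [unitsAug_apply, permAugR_apply, map_sub, hφ]
  have hφg : ∀ x, φ (unitsNorm K L x) = permNormR (L ≃ₐ[K] L) (InfinitePlace L) (φ x) := by
    intro x
    rw [unitsNorm_apply, permNormR_apply, map_sum]
    simp only [hφ]
  -- step 1: finite kernel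
  have hfin' : Finite ↥(φ.ker ⊓ intUnits L) := hfin
  obtain ⟨k1, k2⟩ := hIndexSub_of_finite_ker (unitsAug K L σ) (unitsNorm K L)
    (permAugR (L ≃ₐ[K] L) (InfinitePlace L) σ) (permNormR (L ≃ₐ[K] L) (InfinitePlace L)) φ
    hφf hφg (intUnits L) (unitsAug_mem_intUnits K L σ) (unitsNorm_mem_intUnits K L)
    (fun x _ => unitsAug_unitsNorm K L σ x) (fun x _ => unitsNorm_unitsAug K L σ x) hfin'
  -- step 2: the lattice lemma
  have hn : 0 < Fintype.card (L ≃ₐ[K] L) := Fintype.card_pos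
  have hsn : permLin (L ≃ₐ[K] L) (InfinitePlace L) σ ^ Fintype.card (L ≃ₐ[K] L) = 1 := by
    rw [permLin_pow, pow_card_eq_one]
    refine LinearMap.ext fun a => ?_
    rw [permLin_apply, permHomR_one]
    rfl
  have hst₁ : ∀ i, permLin (L ≃ₐ[K] L) (InfinitePlace L) σ (b i) ∈
      Submodule.span ℤ (Set.range b) := by
    intro i
    have hi : b i ∈ (Submodule.span ℤ (Set.range b)).toAddSubgroup :=
      Submodule.subset_span ⟨i, rfl⟩
    rw [← hb_img] at hi
    obtain ⟨x, hx, hxb⟩ := hi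
    have : permLin (L ≃ₐ[K] L) (InfinitePlace L) σ (b i) ∈
        (Submodule.span ℤ (Set.range b)).toAddSubgroup := by
      rw [← hb_img, ← hxb, permLin_apply, ← hφ]
      exact ⟨_, unitsHom_mem_intUnits K L σ x hx, rfl⟩
    exact this
  have hst₂ : ∀ i, permLin (L ≃ₐ[K] L) (InfinitePlace L) σ (b₂ i) ∈
      Submodule.span ℤ (Set.range b₂) := by
    intro i
    have hi : b₂ i ∈ (Submodule.span ℤ (Set.range b₂)).toAddSubgroup :=
      Submodule.subset_span ⟨i, rfl⟩
    rw [hb₂_img] at hi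
    obtain ⟨a, ha, hab⟩ := hi
    have : permLin (L ≃ₐ[K] L) (InfinitePlace L) σ (b₂ i) ∈
        (Submodule.span ℤ (Set.range b₂)).toAddSubgroup := by
      rw [hb₂_img, ← hab, permLin_apply, ← coeHomR_permHom]
      refine ⟨_, ?_, rfl⟩
      show sumHom (InfinitePlace L) (permHom (L ≃ₐ[K] L) (InfinitePlace L) σ a) = 0
      rw [sumHom_permHom]
      exact ha
    exact this
  obtain ⟨l1, l2, l3, l4, l5⟩ := hLat (InfinitePlace L → ℝ)
    (permLin (L ≃ₐ[K] L) (InfinitePlace L) σ) (Fintype.card (L ≃ₐ[K] L)) r hn hsn b b₂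
    hb_li hb₂_li (hb_span.trans hb₂_span.symm) hst₁ hst₂
  rw [permLin_sub_one, permLin_sum_pow _ _ σ hσ, ← hb_img] at l1 l2
  rw [permLin_sub_one, permLin_sum_pow _ _ σ hσ, hb₂_img] at l3 l4
  rw [permLin_sub_one, permLin_sum_pow _ _ σ hσ, ← hb_img, hb₂_img] at l5
  -- step 3: transport from `ℤ^X` to `ℝ^X`
  have m1 := hIndexSub_map_of_injective (permAug (L ≃ₐ[K] L) (InfinitePlace L) σ)
    (permNorm (L ≃ₐ[K] L) (InfinitePlace L)) (permAugR (L ≃ₐ[K] L) (InfinitePlace L) σ)
    (permNormR (L ≃ₐ[K] L) (InfinitePlace L)) (coeHomR (InfinitePlace L))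
    (coeHomR_injective _) (coeHomR_permAug _ _ σ) (coeHomR_permNorm _ _)
    (traceZero (InfinitePlace L))
  have m2 := hIndexSub_map_of_injective (permNorm (L ≃ₐ[K] L) (InfinitePlace L))
    (permAug (L ≃ₐ[K] L) (InfinitePlace L) σ) (permNormR (L ≃ₐ[K] L) (InfinitePlace L))
    (permAugR (L ≃ₐ[K] L) (InfinitePlace L) σ) (coeHomR (InfinitePlace L))
    (coeHomR_injective _) (coeHomR_permNorm _ _) (coeHomR_permAug _ _ σ)
    (traceZero (InfinitePlace L))
  rw [m1] at l3 l5
  rw [m2] at l4 l5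
  -- step 4: the trace-zero lattice
  obtain ⟨t1, t2, t3⟩ := hTZ (L ≃ₐ[K] L) (InfinitePlace L) σ hσ
  rw [hOrb K L] at t3
  have hcard : Fintype.card (L ≃ₐ[K] L) = Module.finrank K L := by
    rw [← Nat.card_eq_fintype_card]
    exact IsGalois.card_aut_eq_finrank K L
  rw [hcard] at t3
  -- conclusion
  obtain ⟨c1, c2⟩ := k1.2 ⟨l1, l2⟩
  refine ⟨c1, c2, ?_⟩
  have hne : hIndexSub (permNormR (L ≃ₐ[K] L) (InfinitePlace L))
      (permAugR (L ≃ₐ[K] L) (InfinitePlace L) σ) ((intUnits L).map φ) *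
      hIndexSub (permNorm (L ≃ₐ[K] L) (InfinitePlace L))
        (permAug (L ≃ₐ[K] L) (InfinitePlace L) σ) (traceZero (InfinitePlace L)) ≠ 0 :=
    Nat.mul_ne_zero l2 l4
  apply Nat.eq_of_mul_eq_mul_right (Nat.pos_of_ne_zero hne)
  generalize hIndexSub (unitsAug K L σ) (unitsNorm K L) (intUnits L) = a at *
  generalize hIndexSub (unitsNorm K L) (unitsAug K L σ) (intUnits L) = b' at *
  generalize hIndexSub (permAugR (L ≃ₐ[K] L) (InfinitePlace L) σ)
    (permNormR (L ≃ₐ[K] L) (InfinitePlace L)) ((intUnits L).map φ) = a₁ at *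
  generalize hIndexSub (permNormR (L ≃ₐ[K] L) (InfinitePlace L))
    (permAugR (L ≃ₐ[K] L) (InfinitePlace L) σ) ((intUnits L).map φ) = b₁ at *
  generalize hIndexSub (permAug (L ≃ₐ[K] L) (InfinitePlace L) σ)
    (permNorm (L ≃ₐ[K] L) (InfinitePlace L)) (traceZero (InfinitePlace L)) = a₂ at *
  generalize hIndexSub (permNorm (L ≃ₐ[K] L) (InfinitePlace L))
    (permAug (L ≃ₐ[K] L) (InfinitePlace L) σ) (traceZero (InfinitePlace L)) = b₂' at *
  calc a * Module.finrank K L * (b₁ * b₂')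
      = (a * b₁) * (Module.finrank K L * b₂') := by ring
    _ = (b' * a₁) * (Module.finrank K L * b₂') := by rw [k2]
    _ = b' * Module.finrank K L * (a₁ * b₂') := by ring
    _ = b' * Module.finrank K L * (a₂ * b₁) := by rw [l5]
    _ = b' * b₁ * (a₂ * Module.finrank K L) := by ring
    _ = b' * b₁ * (b₂' * infDegProd K L) := by rw [t3]
    _ = b' * infDegProd K L * (b₁ * b₂') := by ring

end Fermat.Agent.S55.G
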