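/-
S55, layer G, block G-U (helper595): **the Herbrand quotient of the units and of the `T`-units
of a cyclic extension of number fields** — final theorems of the block.

For `L/K` cyclic of degree `n` with generator `σ`, `f = σ - 1`, `g = N` on `Additive Lˣ`:

* `unitsHerbrandSpec`  : `[𝒪_L^× ∩ ker f : g 𝒪_L^×] * n = [𝒪_L^× ∩ ker g : f 𝒪_L^×] * ∏_{v | ∞} n_v`
  with both indices finite;
* `sUnitsHerbrandSpec` : the same for the `T`-units with `∏_{v | ∞} n_v * ∏_{v ∈ T} e_v f_v`.

Leaves: helper379 (`PermSpec`), helper793 (`LatticeSpec`), helper101 (`UnitsLogSpec`),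
helper434 (`OrbitInfSpec`), helper707 (`SUnitsOrdSpec`, `SUnitsStableSpec`),
helper831 (`TraceZeroBasisSpec`); assemblies: helper595.
-/
import Mathlib
import Fermat.Agent.S55.G.SpecUnits
import Fermat.Agent.S55.G.SpecUnits2
import Fermat.Agent.S55.G.TraceZero
import Fermat.Agent.S55.G.UnitsAssembly
import Fermat.Agent.S55.G.SUnitsAssembly
import Fermat.Agent.S55.G.Perm379
import Fermat.Agent.S55.G.Lat793
import Fermat.Agent.S55.G.Log101
import Fermat.Agent.S55.G.Orb434
import Fermat.Agent.S55.G.OrdH707
import Fermat.Agent.S55.G.StabH707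
import Fermat.Agent.S55.G.TraceZeroBasis

set_option autoImplicit false

namespace Fermat.Agent.S55.G

universe u v

/-- Herbrand quotient of the trace-zero permutation lattice. -/
theorem traceZeroSpec : TraceZeroSpec.{u, v} := traceZeroSpec_of Perm379.permSpec

/-- **Herbrand quotient of the units** of a cyclic extension of number fields. -/
theorem unitsHerbrandSpec : UnitsHerbrandSpec.{u, v} :=
  unitsHerbrandSpec_of Log101.unitsLogSpec Lat793.latticeSpec traceZeroSpec
    Orb434.orbitInfSpec traceZeroBasisSpec

/-- **Herbrand quotient of the `T`-units** of a cyclic extension of number fields. -/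
theorem sUnitsHerbrandSpec : SUnitsHerbrandSpec.{u, v} :=
  sUnitsHerbrandSpec_of unitsHerbrandSpec OrdH707.sUnitsOrd Perm379.permSpec
    StabH707.sUnitsStable

end Fermat.Agent.S55.G
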