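/-
S55, layer G, leaf G-H1J (helper537): `H¹(G, J_S(L)) = 0` from the Shapiro decomposition
`ShapiroJSpec` (leaf G-LOC) and Hilbert 90 for the local fields `L_𝔪`.

* `isZero_H1_of_forall_coboundary` : criterion for `H¹ = 0` in terms of cocycles;
* `finite_sPlace` : `L ⊗ ℚ_S` has finitely many maximal ideals (it is Artinian);
* `exists_orbit_reps` : a finite set of representatives of the `G`-orbits of places above `S`;
* `isZero_H1_locRep` : `H¹(D_𝔪, L_𝔪ˣ) = 0` (Hilbert 90);
* `h1J_of : ShapiroJSpec → H1JSpec`.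
-/
import Fermat.Agent.S55.G.Spec
import Fermat.Agent.S55.G.DescH537.Desc

set_option autoImplicit false
set_option linter.unusedSectionVars false

open scoped NumberField TensorProduct
open IsDedekindDomain CategoryTheory groupCohomology

noncomputable section

namespace Fermat.Agent.S55.G.H1JH537

open Fermat.Agent.S55.G.DescH537

/-- `H¹(G, A) = 0` as soon as every 1-cocycle is a 1-coboundary. -/
lemma isZero_H1_of_forall_coboundary {G : Type} [Group G] (A : Rep ℤ G)
    (h : ∀ f : G → A, (∀ g h : G, f (g * h) = A.ρ g (f h) + f g) →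
      ∃ y : A, ∀ g : G, A.ρ g y - y = f g) :
    Limits.IsZero (groupCohomology A 1) := by
  have hsub : Subsingleton (groupCohomology A 1) := by
    refine ⟨fun a b => ?_⟩
    have key : ∀ c : H1 A, c = 0 := by
      intro c
      refine H1_induction_on c fun x => (H1π_eq_zero_iff x).2 ?_
      obtain ⟨y, hy⟩ := h x ((mem_cocycles₁_iff _).1 x.2)
      refine ⟨y, ?_⟩
      funext g
      rw [d₀₁_hom_apply]
      exact hy g
    rw [key a, key b]
  exact ModuleCat.isZero_of_subsingleton _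

section Places

variable (S : Finset Nat.Primes) (G L : Type) [Group G] [Field L] [NumberField L]
  [MulSemiringAction G L]

/-- `L ⊗ ℚ_S` has finitely many maximal ideals. -/
lemma finite_sPlace : Finite (SPlace S L) := by
  have h1 : IsArtinianRing (QS S) := inferInstanceAs (IsArtinianRing (∀ q : S, Qq q.1))
  have h2 : IsArtinianRing (QS S ⊗[ℚ] L) := IsArtinianRing.of_finite (QS S) _
  have h3 : IsArtinianRing (AS S L) :=
    (Algebra.TensorProduct.comm ℚ (QS S) L).toRingEquiv.isArtinianRing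
  infer_instance

/-- A finite set of representatives of the `G`-orbits of the places above `S`. -/
lemma exists_orbit_reps :
    ∃ R : Finset (SPlace S L),
      ∀ 𝔪 : SPlace S L, ∃! r : SPlace S L, r ∈ R ∧ ∃ g : G, sPlaceSMul S G g r = 𝔪 := by
  classical
  have := finite_sPlace S L
  let _ : Fintype (SPlace S L) := Fintype.ofFinite _
  let _ : MulAction G (SPlace S L) := sPlaceAction S G L
  let rep : SPlace S L → SPlace S L := fun 𝔪 =>
    (Quotient.mk (MulAction.orbitRel G (SPlace S L)) 𝔪).out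
  have hrep : ∀ 𝔪, ∃ g : G, sPlaceSMul S G g (rep 𝔪) = 𝔪 := by
    intro 𝔪
    have h : (MulAction.orbitRel G (SPlace S L)) (rep 𝔪) 𝔪 :=
      Quotient.mk_out (s := MulAction.orbitRel G (SPlace S L)) 𝔪
    rw [MulAction.orbitRel_apply] at h
    obtain ⟨g, hg⟩ := h
    refine ⟨g⁻¹, ?_⟩
    change g⁻¹ • rep 𝔪 = 𝔪
    rw [← hg, inv_smul_smul]
  have hrep_eq : ∀ 𝔪 𝔪' : SPlace S L, (∃ g : G, sPlaceSMul S G g 𝔪 = 𝔪') → rep 𝔪 = rep 𝔪' := by
    rintro 𝔪 𝔪' ⟨g, hg⟩
    have : Quotient.mk (MulAction.orbitRel G (SPlace S L)) 𝔪 =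
        Quotient.mk (MulAction.orbitRel G (SPlace S L)) 𝔪' := by
      apply Quotient.sound
      change (MulAction.orbitRel G (SPlace S L)) 𝔪 𝔪'
      rw [MulAction.orbitRel_apply]
      exact ⟨g⁻¹, by rw [← hg]; exact inv_smul_smul g 𝔪⟩
    simp only [rep, this]
  have hrep_rep : ∀ 𝔪, rep (rep 𝔪) = rep 𝔪 := fun 𝔪 => hrep_eq _ _ (hrep 𝔪)
  refine ⟨Finset.univ.image rep, fun 𝔪 => ⟨rep 𝔪, ⟨Finset.mem_image_of_mem _ (Finset.mem_univ _),
    hrep 𝔪⟩, ?_⟩⟩
  rintro r ⟨hr, hg⟩
  obtain ⟨𝔫, -, rfl⟩ := Finset.mem_image.1 hr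
  rw [← hrep_rep 𝔫]
  exact hrep_eq _ _ hg

end Places

section Local

variable (S : Finset Nat.Primes) (G L : Type) [Group G] [Field L] [NumberField L]
  [MulSemiringAction G L]

/-- The action of the decomposition group on the local field, as a `MulSemiringAction`
(a definition, NOT a global instance). -/
@[reducible] def locAction (𝔪 : SPlace S L) : MulSemiringAction (decomp S G 𝔪) (LocField S 𝔪) :=
  MulSemiringAction.compHom (LocField S 𝔪) (locAut S G 𝔪)

lemma toLoc_injective (𝔪 : SPlace S L) : Function.Injective (toLoc S 𝔪) :=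
  (toLoc S 𝔪).injective

variable [Finite G] [FaithfulSMul G L]

/-- **Hilbert 90 for the local fields**: `H¹(D_𝔪, L_𝔪ˣ) = 0`. -/
theorem isZero_H1_locRep (𝔪 : SPlace S L) :
    Limits.IsZero (groupCohomology (LocRep S G 𝔪) 1) := by
  let _ : MulSemiringAction (decomp S G 𝔪) (LocField S 𝔪) := locAction S G L 𝔪
  have hsmul : ∀ (d : decomp S G 𝔪) (x : LocField S 𝔪), d • x = locAut S G 𝔪 d x :=
    fun _ _ => rfl
  have hfaith : FaithfulSMul (decomp S G 𝔪) (LocField S 𝔪) := by
    refine ⟨fun {d d'} h => Subtype.ext (eq_of_smul_eq_smul (α := L) fun l => ?_)⟩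
    apply toLoc_injective S L 𝔪
    rw [← locAut_toLoc, ← locAut_toLoc, ← hsmul, ← hsmul]
    exact h (toLoc S 𝔪 l)
  have hrep : ∀ (d : decomp S G 𝔪) (x : Additive (LocField S 𝔪)ˣ),
      lRepr (decomp S G 𝔪) (LocField S 𝔪) d x = locRepr S G 𝔪 d x := fun _ _ => rfl
  refine isZero_H1_of_forall_coboundary (LocRep S G 𝔪) fun f hf => ?_
  let f' : decomp S G 𝔪 → Additive (LocField S 𝔪)ˣ := f
  have hf' : ∀ g h : decomp S G 𝔪,
      f' (g * h) = f' g + lRepr (decomp S G 𝔪) (LocField S 𝔪) g (f' h) :=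
    fun g h => (hf g h).trans (add_comm _ _)
  obtain ⟨y, hy⟩ := hilbert90 (decomp S G 𝔪)
    (FixedPoints.subfield (decomp S G 𝔪) (LocField S 𝔪)) (LocField S 𝔪) f' hf'
  exact ⟨y, fun g => (hy g).symm⟩

/-- **G-H1J**: `H¹(G, J_S(L)) = 0`, from the Shapiro decomposition (G-LOC). -/
theorem h1J_of (hLOC : ShapiroJSpec) : H1JSpec := by
  intro S G L _ _ _ _ _ _
  obtain ⟨R, hR⟩ := exists_orbit_reps S G L
  have hbij := hLOC S G L R hR 1
  have hsub : Subsingleton (groupCohomology (JRep G S L) 1) := by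
    refine ⟨fun a b => hbij.1 ?_⟩
    funext r
    have hz := isZero_H1_locRep S G L r.1
    have : Subsingleton (groupCohomology (LocRep S G r.1) 1) :=
      ModuleCat.subsingleton_of_isZero hz
    exact Subsingleton.elim _ _
  exact ModuleCat.isZero_of_subsingleton _

end Local

end Fermat.Agent.S55.G.H1JH537
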