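/-
S55, layer G, leaf G-H1J (helper604): `H¹(G, J_S(L)) = 0`
(Hilbert 90 for the semi-local algebra `L ⊗[ℚ] ℚ_S`), DIRECT proof by Poincaré series,
independent of the Shapiro decomposition.

For a `1`-cocycle `c : G → (L ⊗ ℚ_S)ˣ` put `b(x) = ∑_h c(h) · (h x ⊗ 1)`, `x ∈ L`.
For every maximal ideal `𝔪` of `A = L ⊗ ℚ_S` the `|G|` maps `x ↦ (h x ⊗ 1 mod 𝔪)` are pairwise
distinct characters `Lˣ → (A/𝔪)ˣ` (the action is faithful), so by Dedekind's independence the
`ℚ`-subspace `{x | b(x) ∈ 𝔪}` is proper.  There are finitely many `𝔪` (`A` is Artinian) and `ℚ` is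
infinite, so some `b(x)` lies in no maximal ideal, i.e. is a unit; then `c(g) = g(β)/β` for
`β = b(x)⁻¹`.
-/
import Fermat.Agent.S55.G.Spec

set_option autoImplicit false
set_option linter.unusedSectionVars false

open scoped NumberField TensorProduct
open IsDedekindDomain CategoryTheory groupCohomology

noncomputable section

namespace Fermat.Agent.S55.G.H1JH604

open Fermat.Agent.S55.G

/-! ## 1. The abstract Poincaré-series argument -/

section Abstract

variable {R : Type*} [CommRing R] {G : Type*} [Group G] [Fintype G]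

/-- If some Poincaré series `∑_h c(h) · h(a)` of a `1`-cocycle `c : G → Rˣ` is a unit, then `c` is
a coboundary. -/
theorem exists_units_of_isUnit_sum (φ : G →* (R ≃+* R)) (c : G → Rˣ)
    (hc : ∀ g h, c (g * h) = Units.map ((φ g : R ≃+* R) : R →* R) (c h) * c g)
    (a : R) (ha : IsUnit (∑ h, (c h : R) * φ h a)) :
    ∃ β : Rˣ, ∀ g, Units.map ((φ g : R ≃+* R) : R →* R) β = c g * β := by
  set b : R := ∑ h, (c h : R) * φ h a with hb
  have key : ∀ g, (c g : R) * φ g b = b := by
    intro g
    rw [hb, map_sum, Finset.mul_sum]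
    rw [← Fintype.sum_bijective (fun h => g * h) (Group.mulLeft_bijective g)
      (fun h => (c g : R) * φ g ((c h : R) * φ h a)) (fun h => (c h : R) * φ h a)]
    intro h
    have h1 : ((c (g * h) : Rˣ) : R) = φ g (c h : R) * (c g : R) := by
      rw [hc g h]; rfl
    have h2 : φ (g * h) a = φ g (φ h a) := by
      rw [map_mul]; rfl
    rw [h1, h2, map_mul]
    ring
  set B : Rˣ := ha.unit with hB
  have hBval : (B : R) = b := rfl
  have keyU : ∀ g, c g * Units.map ((φ g : R ≃+* R) : R →* R) B = B := by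
    intro g
    apply Units.ext
    rw [Units.val_mul, Units.coe_map, hBval]
    exact key g
  refine ⟨B⁻¹, fun g => ?_⟩
  rw [map_inv]
  have hM : Units.map ((φ g : R ≃+* R) : R →* R) B = (c g)⁻¹ * B :=
    eq_inv_mul_of_mul_eq (keyU g)
  rw [hM, mul_inv, inv_inv, mul_comm]

end Abstract

/-! ## 2. Finiteness of the set of places -/

section Artinian

variable (S : Finset Nat.Primes) (L : Type) [Field L] [NumberField L]

instance isArtinianRing_QS : IsArtinianRing (QS S) :=
  inferInstanceAs (IsArtinianRing (∀ q : S, Qq q.1))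

/-- `L ⊗[ℚ] ℚ_S` is an Artinian ring. -/
theorem isArtinianRing_AS : IsArtinianRing (AS S L) := by
  have h1 : IsArtinianRing (QS S ⊗[ℚ] L) := IsArtinianRing.of_finite (QS S) _
  exact (Algebra.TensorProduct.comm ℚ (QS S) L).toRingEquiv.isArtinianRing

/-- There are finitely many places above `S`. -/
theorem finite_sPlace : Finite (SPlace S L) := by
  have := isArtinianRing_AS S L
  infer_instance

end Artinian

/-! ## 3. A Poincaré series which is a unit -/

section Poincare

variable (S : Finset Nat.Primes) (G L : Type) [Group G] [Fintype G] [Field L] [NumberField L]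
  [MulSemiringAction G L] [FaithfulSMul G L]

/-- The Poincaré series `x ↦ ∑_h c(h) · (h x ⊗ 1)` as a `ℚ`-linear map. -/
def poincare (c : G → (AS S L)ˣ) : L →ₗ[ℚ] AS S L :=
  ∑ h : G, (LinearMap.mulLeft ℚ ((c h : (AS S L)ˣ) : AS S L)) ∘ₗ
    (asDiag S L).toLinearMap ∘ₗ (fieldAut G L h).toLinearMap

lemma poincare_apply (c : G → (AS S L)ˣ) (x : L) :
    poincare S G L c x = ∑ h : G, ((c h : (AS S L)ˣ) : AS S L) * asDiag S L (h • x) := by
  simp [poincare, LinearMap.sum_apply]

/-- The character `x ↦ (h x ⊗ 1 mod 𝔪)`. -/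
def chi (𝔪 : SPlace S L) (h : G) : L →* LocField S 𝔪 :=
  ((toLoc S 𝔪 : L →+* LocField S 𝔪) : L →* LocField S 𝔪).comp
    ((MulSemiringAction.toRingHom G L h : L →+* L) : L →* L)

lemma chi_apply (𝔪 : SPlace S L) (h : G) (x : L) :
    chi S G L 𝔪 h x = LocField.mk S 𝔪 (asDiag S L (h • x)) := rfl

lemma chi_injective (𝔪 : SPlace S L) : Function.Injective (chi S G L 𝔪) := by
  intro g h hgh
  apply FaithfulSMul.eq_of_smul_eq_smul (α := L)
  intro x
  have h1 := DFunLike.congr_fun hgh x
  exact (toLoc S 𝔪).injective h1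

/-- For every place `𝔪`, some value of the Poincaré series is not in `𝔪`. -/
lemma exists_poincare_notMem (c : G → (AS S L)ˣ) (𝔪 : SPlace S L) :
    ∃ x : L, poincare S G L c x ∉ 𝔪.asIdeal := by
  classical
  by_contra hcon
  push Not at hcon
  have hli : LinearIndependent (LocField S 𝔪)
      (fun h : G => (chi S G L 𝔪 h : L → LocField S 𝔪)) :=
    LinearIndependent.comp (ι' := G) (linearIndependent_monoidHom L (LocField S 𝔪))
      (chi S G L 𝔪) (chi_injective S G L 𝔪)
  have hsum : ∑ h : G, (LocField.mk S 𝔪 ((c h : (AS S L)ˣ) : AS S L)) •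
      (chi S G L 𝔪 h : L → LocField S 𝔪) = 0 := by
    funext x
    have hx := hcon x
    rw [← LocField.mk_eq_zero_iff, poincare_apply, map_sum] at hx
    simp only [Finset.sum_apply, Pi.smul_apply, smul_eq_mul, Pi.zero_apply]
    rw [← hx]
    refine Finset.sum_congr rfl fun h _ => ?_
    rw [map_mul, chi_apply]
  have h0 := (Fintype.linearIndependent_iff.1 hli) _ hsum 1
  have hu : IsUnit (LocField.mk S 𝔪 ((c 1 : (AS S L)ˣ) : AS S L)) :=
    (c 1).isUnit.map (LocField.mk S 𝔪)
  exact hu.ne_zero h0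

/-- Some value of the Poincaré series is a unit. -/
theorem exists_isUnit_poincare (c : G → (AS S L)ˣ) :
    ∃ x : L, IsUnit (poincare S G L c x) := by
  classical
  have := finite_sPlace S L
  by_contra hcon
  push Not at hcon
  -- the bad subspaces
  let V : SPlace S L → Subspace ℚ L := fun 𝔪 =>
    Submodule.comap (poincare S G L c) (𝔪.asIdeal.restrictScalars ℚ)
  have hcover : ⋃ 𝔪, (V 𝔪 : Set L) = Set.univ := by
    rw [Set.eq_univ_iff_forall]
    intro x
    obtain ⟨I, hI, hxI⟩ := exists_max_ideal_of_mem_nonunits (hcon x)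
    exact Set.mem_iUnion.2 ⟨⟨I, hI⟩, hxI⟩
  obtain ⟨𝔪, h𝔪⟩ := Subspace.exists_eq_top_of_iUnion_eq_univ hcover
  obtain ⟨x, hx⟩ := exists_poincare_notMem S G L c 𝔪
  have : x ∈ V 𝔪 := by rw [h𝔪]; trivial
  exact hx this

end Poincare

/-! ## 4. Hilbert 90 for `J_S(L)` -/

section Hilbert90

variable (S : Finset Nat.Primes) (G L : Type) [Group G] [Finite G] [Field L] [NumberField L]
  [MulSemiringAction G L] [FaithfulSMul G L]

/-- **Hilbert 90 for the `S`-idèles**, cocycle form: every `1`-cocycle `c : G → J_S(L)` is of the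
form `c g = g β / β`. -/
theorem exists_units_of_cocycle (c : G → (AS S L)ˣ)
    (hc : ∀ g h, c (g * h) =
      Units.map ((asRingAut G S L g : AS S L ≃+* AS S L) : AS S L →* AS S L) (c h) * c g) :
    ∃ β : (AS S L)ˣ, ∀ g,
      Units.map ((asRingAut G S L g : AS S L ≃+* AS S L) : AS S L →* AS S L) β = c g * β := by
  classical
  have : Fintype G := Fintype.ofFinite G
  obtain ⟨x, hx⟩ := exists_isUnit_poincare S G L c
  refine exists_units_of_isUnit_sum (asRingAut G S L) c hc (asDiag S L x) ?_
  rw [poincare_apply] at hx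
  have hsum : ∑ h : G, ((c h : (AS S L)ˣ) : AS S L) * (asRingAut G S L h) (asDiag S L x) =
      ∑ h : G, ((c h : (AS S L)ˣ) : AS S L) * asDiag S L (h • x) :=
    Finset.sum_congr rfl fun h _ => by rw [asRingAut_apply, asAut_asDiag]
  rw [hsum]
  exact hx

/-- **G-H1J.** `H¹(G, J_S(L)) = 0`. -/
theorem h1JSpec : H1JSpec := by
  intro S G L _ _ _ _ _ _
  rw [ModuleCat.isZero_iff_subsingleton]
  suffices h : ∀ a : groupCohomology (JRep G S L) 1, a = 0 from
    ⟨fun a b => by rw [h a, h b]⟩
  intro a
  induction a using H1_induction_on with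
  | h x =>
    rw [H1π_eq_zero_iff]
    have hx := (mem_cocycles₁_iff (x : G → (JRep G S L))).1 x.2
    obtain ⟨β, hβ⟩ := exists_units_of_cocycle S G L (fun g => Additive.toMul (x g))
      (fun g h => by
        have := hx g h
        exact congrArg Additive.toMul this)
    refine ⟨(Additive.ofMul β : Additive (AS S L)ˣ), ?_⟩
    funext g
    have h1 := hβ g
    change jRepr G S L g (Additive.ofMul β : Additive (AS S L)ˣ) -
      (Additive.ofMul β : Additive (AS S L)ˣ) = x g
    apply Additive.toMul.injective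
    change Units.map ((asRingAut G S L g : AS S L ≃+* AS S L) : AS S L →* AS S L) β / β = _
    rw [h1, mul_div_assoc, div_self', mul_one]

end Hilbert90

end Fermat.Agent.S55.G.H1JH604
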