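/-
S55, layer G, leaf **J-GLUE** (helper604): the Herbrand indices of the `S`-idèles,
`JHerbrandSpec` of `G/FI/FirstIneqH895.lean` (the last open input of the first inequality G-FI).

* `card_H2_unitsRepr` : a finite cyclic group `D` acting faithfully on a finite extension `E` of
  `ℚ_q` by field automorphisms fixing `ℚ_q`: `|H²(D, Eˣ)| = |D|` (from the local cyclic
  theorem `L.H2CardCyclicSpec`, applied to `E` over the fixed field of `D`);
* `card_H2_locRep` : `|H²(D_𝔪, L_𝔪ˣ)| = |D_𝔪|` for the decomposition group of a place above `S`;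
* `card_H2_JRep` : `|H²(G, J_S(L))| = ∏_{r ∈ R} |D_r|` for orbit representatives `R` (Shapiro);
* `JCountSpec`, `jHerbrand_of : ShapiroJSpec → H2CardCyclicSpec → JCountSpec → JHerbrandSpec`.

No `sorry`.
-/
import Fermat.Agent.S55.G.Spec
import Fermat.Agent.S55.G.PL0H713
import Fermat.Agent.S55.G.H953.H1J
import Fermat.Agent.S55.G.H1JH604
import Fermat.Agent.S55.G.FI.FirstIneqH895
import Fermat.Agent.S55.Herbrand.RepCyclic

set_option autoImplicit false
set_option linter.unusedSectionVars false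
set_option linter.style.haveILetI false

open scoped NumberField TensorProduct
open IsDedekindDomain CategoryTheory groupCohomology
open Fermat.Agent.S55.G Fermat.Agent.S55.Herbrand

noncomputable section

namespace Fermat.Agent.S55.G.JGlueH604

/-! ## 1. The abstract local statement -/

section Abstract

variable {D E : Type} [Group D] [Finite D] [Field E]

/-- A finite cyclic group `D` acting faithfully (via `φ`) on a finite extension `E` of `ℚ_q`,
fixing `ℚ_q`: `|H²(D, Eˣ)| = |D|`. -/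
theorem card_H2_unitsRepr (hL : Fermat.Agent.S55.L.H2CardCyclicSpec) [IsCyclic D]
    (φ : D →* (E ≃+* E)) (hφ : Function.Injective φ)
    (q : ℕ) [Fact q.Prime] (ι : ℚ_[q] →+* E)
    (hfin : letI := ι.toAlgebra; Module.Finite ℚ_[q] E)
    (hι : ∀ (d : D) (x : ℚ_[q]), φ d (ι x) = ι x) :
    Nat.card (groupCohomology (Rep.of (unitsRepr D φ)) 2) = Nat.card D := by
  classical
  letI : Fintype D := Fintype.ofFinite D
  letI : MulSemiringAction D E := MulSemiringAction.compHom E φ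
  have hsmul : ∀ (d : D) (x : E), d • x = φ d x := fun _ _ => rfl
  haveI : FaithfulSMul D E := ⟨fun {d₁ d₂} h => hφ (RingEquiv.ext fun x => by
    rw [← hsmul, ← hsmul]; exact h x)⟩
  let F : Subfield E := FixedPoints.subfield D E
  let ιF : ℚ_[q] →+* F := ι.codRestrict F (fun x d => by rw [hsmul]; exact hι d x)
  letI : Algebra ℚ_[q] E := ι.toAlgebra
  letI : Algebra ℚ_[q] F := ιF.toAlgebra
  haveI : IsScalarTower ℚ_[q] F E := IsScalarTower.of_algebraMap_eq (fun _ => rfl)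
  haveI : Module.Finite ℚ_[q] E := hfin
  haveI : FiniteDimensional ℚ_[q] F := FiniteDimensional.left ℚ_[q] F E
  haveI : Fermat.Agent.S55.L.IsLocalFld F := PL0H713.isLocalFld_of_finite_padic q F
  let ψ : D ≃* (E ≃ₐ[F] E) := FixedPoints.toAlgAutMulEquiv D E
  haveI : IsCyclic (E ≃ₐ[F] E) := isCyclic_of_surjective ψ ψ.surjective
  obtain ⟨-, hcard⟩ := hL F E
  obtain ⟨g, hg⟩ := IsCyclic.exists_generator (α := D)
  have hψg : ∀ τ : E ≃ₐ[F] E, τ ∈ Subgroup.zpowers (ψ g) := by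
    intro τ
    obtain ⟨t, rfl⟩ := ψ.surjective τ
    obtain ⟨k, rfl⟩ := Subgroup.mem_zpowers_iff.1 (hg t)
    exact Subgroup.mem_zpowers_iff.2 ⟨k, (map_zpow ψ g k).symm⟩
  have hcardeq : Nat.card (E ≃ₐ[F] E) = Nat.card D := (Nat.card_congr ψ.toEquiv).symm
  have hact : (gAct (Rep.of (unitsRepr D φ)) g : AddMonoid.End (Additive Eˣ)) =
      gAct (Fermat.Agent.S55.L.unitsRep F E) (ψ g) := by
    refine AddMonoidHom.ext fun x => ?_
    apply Additive.toMul.injective
    apply Units.ext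
    rfl
  have e1 := card_H2_eq_h0 (Rep.of (unitsRepr D φ)) g hg
  have e2 := card_H2_eq_h0 (Fermat.Agent.S55.L.unitsRep F E) (ψ g) hψg
  rw [e1]
  have e3 : h0 (gAct (Rep.of (unitsRepr D φ)) g) (Nat.card D) =
      h0 (gAct (Fermat.Agent.S55.L.unitsRep F E) (ψ g)) (Nat.card (E ≃ₐ[F] E)) := by
    rw [hcardeq]
    exact congrArg (fun s : AddMonoid.End (Additive Eˣ) => h0 s (Nat.card D)) hact
  rw [e3, ← e2]
  have e4 : Nat.card (groupCohomology (Fermat.Agent.S55.L.unitsRep F E) 2) =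
      Module.finrank F E := hcard
  rw [e4, ← IsGalois.card_aut_eq_finrank, hcardeq]

end Abstract

/-! ## 2. The decomposition group of a place above `S` -/

section Loc

variable (S : Finset Nat.Primes) (G L : Type) [Group G] [Finite G] [Field L] [NumberField L]
  [MulSemiringAction G L] [FaithfulSMul G L]

variable {L} in
/-- The decomposition group fixes the image of `ℚ_q` in `L_𝔪`. -/
lemma locAut_ofQq (𝔪 : SPlace S L) (d : decomp S G 𝔪) (x : Qq (PL0H713.primeOf S L 𝔪).1) :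
    locAut S G 𝔪 d (PL0H713.ofQq S L 𝔪 x) = PL0H713.ofQq S L 𝔪 x := by
  rw [PL0H713.ofQq_apply]
  change locAut S G 𝔪 d (LocField.mk S 𝔪 (asIncl S L _)) = LocField.mk S 𝔪 (asIncl S L _)
  rw [locAut_mk, asAut_asIncl]

variable {L} in
/-- `|H²(D_𝔪, L_𝔪ˣ)| = |D_𝔪|` for a cyclic group `G`. -/
theorem card_H2_locRep (hL : Fermat.Agent.S55.L.H2CardCyclicSpec) [IsCyclic G]
    (𝔪 : SPlace S L) :
    Nat.card (groupCohomology (LocRep S G 𝔪) 2) = Nat.card (decomp S G 𝔪) := by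
  haveI : Fact (Nat.Prime ((PL0H713.primeOf S L 𝔪).1 : ℕ)) := ⟨(PL0H713.primeOf S L 𝔪).1.2⟩
  exact card_H2_unitsRepr hL (locAut S G 𝔪) (H953.locAut_injective S G 𝔪)
    ((PL0H713.primeOf S L 𝔪).1 : ℕ) (PL0H713.ofQq S L 𝔪) (PL0H713.finite_locField S L 𝔪)
    (locAut_ofQq S G 𝔪)

/-- `|H²(G, J_S(L))| = ∏_{r ∈ R} |D_r|` for a set `R` of representatives of the `G`-orbits of
places above `S` (`G` cyclic). -/
theorem card_H2_JRep (hSh : ShapiroJSpec) (hL : Fermat.Agent.S55.L.H2CardCyclicSpec) [IsCyclic G]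
    (R : Finset (SPlace S L))
    (hR : ∀ 𝔪 : SPlace S L, ∃! r : SPlace S L, r ∈ R ∧ ∃ g : G, sPlaceSMul S G g r = 𝔪) :
    Nat.card (groupCohomology (JRep G S L) 2) = ∏ r : R, Nat.card (decomp S G r.1) := by
  have hbij := hSh S G L R hR 2
  rw [Nat.card_congr (Equiv.ofBijective _ hbij), Nat.card_pi]
  exact Finset.prod_congr rfl fun r _ => card_H2_locRep S G hL r.1

end Loc

/-! ## 3. The Herbrand indices of `J_S(L)` -/

/-- **(J-COUNT)** for `G = Gal(L/K)` and any set `R` of representatives of the `G`-orbits of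
places of `L` above `S`: `∏_{r ∈ R} |D_r| = ∏_{v ∈ S_K} e_v f_v`. -/
def JCountSpec : Prop :=
  ∀ (K L : Type) [Field K] [Field L] [NumberField K] [NumberField L] [Algebra K L]
    [IsGalois K L] (S : Finset Nat.Primes) (R : Finset (SPlace S L)),
    (∀ 𝔪 : SPlace S L, ∃! r : SPlace S L,
      r ∈ R ∧ ∃ g : L ≃ₐ[K] L, sPlaceSMul S (L ≃ₐ[K] L) g r = 𝔪) →
    ∏ r : R, Nat.card (decomp S (L ≃ₐ[K] L) r.1) = finDegProd K L (FIH895.primesOver S K)

/-- **J-GLUE.**  The Herbrand indices of the `S`-idèles of a cyclic extension: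
`h₀(J_S(L)) = ∏_{v ∈ S_K} e_v f_v`, `h₁(J_S(L)) = 1`. -/
theorem jHerbrand_of (hSh : ShapiroJSpec) (hL : Fermat.Agent.S55.L.H2CardCyclicSpec)
    (hC : JCountSpec) : FIH895.JHerbrandSpec := by
  intro K L _ _ _ _ _ _ σ hσ S
  classical
  letI : Fintype (L ≃ₐ[K] L) := Fintype.ofFinite _
  haveI : IsCyclic (L ≃ₐ[K] L) := ⟨σ, hσ⟩
  haveI : Finite (SPlace S L) := PL0H713.finite_sPlace S L
  obtain ⟨R, hR⟩ := H953.exists_orbitReps S (L ≃ₐ[K] L) L
  constructor
  · rw [← card_H2_eq_h0 (JRep (L ≃ₐ[K] L) S L) σ hσ,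
      card_H2_JRep S (L ≃ₐ[K] L) L hSh hL R hR, hC K L S R hR]
  · rw [← card_H1_eq_h1 (JRep (L ≃ₐ[K] L) S L) σ hσ]
    haveI : Subsingleton (groupCohomology (JRep (L ≃ₐ[K] L) S L) 1) :=
      ModuleCat.isZero_iff_subsingleton.1 (H1JH604.h1JSpec S (L ≃ₐ[K] L) L)
    exact Nat.card_eq_one_iff_unique.2 ⟨inferInstance, ⟨0⟩⟩

end Fermat.Agent.S55.G.JGlueH604
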