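/-
S55, layer G, leaf G-CYCp (helper537): cyclic layers of `p`-power degree.
`cyclicPow_of : PClassUpperSpec → FirstInequalityCycSpec → CyclicPowSpec`
(`H¹(G, C_S(L)) = 0` from the upper bound with `H = ⊤`; `|H²| = |G|·|H¹| = |G|` from the
first inequality for cyclic groups of odd order).
-/
import Fermat.Agent.S55.G.Spec1b
import Fermat.Agent.S55.T.ClassModuleOfCyclicH53

set_option autoImplicit false

open scoped NumberField TensorProduct
open IsDedekindDomain CategoryTheory groupCohomology

noncomputable section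

namespace Fermat.Agent.S55.G.CycPowH537

/-- **G-CYCp.** -/
theorem cyclicPow_of (hUP : PClassUpperSpec) (hFI : FirstInequalityCycSpec) : CyclicPowSpec := by
  intro p hp hp2 S G L _ _ _ _ _ _ _ hpS hpG hunr hroot
  obtain ⟨h1, -⟩ := hUP p hp2 S G L hpS hpG hunr hroot ⊤
  have hH1 : Limits.IsZero (groupCohomology (CRep S G L) 1) :=
    h1.of_iso (T.H53.topIso (CRep S G L) 1).symm
  have hodd : Odd (Nat.card G) := by
    obtain ⟨k, hk⟩ := (IsPGroup.iff_card).1 hpG
    rw [hk]
    exact (hp.out.odd_of_ne_two hp2).pow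
  obtain ⟨-, -, hcard⟩ := hFI (Nat.card G) hodd S G L ⟨_, hpS⟩ rfl
  have hc1 : Nat.card (groupCohomology (CRep S G L) 1) = 1 := by
    have : Subsingleton (groupCohomology (CRep S G L) 1) := ModuleCat.subsingleton_of_isZero hH1
    exact Nat.card_of_subsingleton 0
  exact ⟨hH1, by rw [hcard, hc1, mul_one]⟩

end Fermat.Agent.S55.G.CycPowH537
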