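/-
S55 layer G, leaf G-DESC (helper853): Galois descent for the `S`-idèle class group.

`theorem descent : DescentSpec` — for `N ⊴ G` acting on `L` with fixed field `L'`, `L/L^G`
unramified outside `S ≠ ∅`, the base change map `C_S(L') → C_S(L)` is injective, equivariant,
and its image is `C_S(L)^N`.

Proof (files `DescH853/*.lean`): `ι` is induced by `(y, d) ↦ (y ⊗ 1, conorm d)`;
* `Primes`    : `e(w | w ∩ L') = 1` from the triviality of inertia, hence `ord_w = ord_{w ∩ L'}` on `L'`;
* `Tensor`    : `L → L ⊗ ℚ_S`, `L' ⊗ ℚ_S → L ⊗ ℚ_S` injective; `(L ⊗ ℚ_S)^N = L' ⊗ ℚ_S` (averaging);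
* `Hilbert90` : `H¹(N, Lˣ) = 0` by independence of characters;
* `Conorm`    : `Div^S(L)^N = conorm Div^S(L')` (transitivity of `N` on the primes above a prime);
* `Main`      : assembly.
-/
import Fermat.Agent.S55.G.Spec
import Fermat.Agent.S55.G.DescH853.Main

set_option autoImplicit false

namespace Fermat.Agent.S55.G.DescH853

/-- **G-DESC.** -/
theorem descent : Fermat.Agent.S55.G.DescentSpec := by
  intro S G L L' _ _ _ _ _ _ _ _ _ N _ _ hS hunr hfix hcompat
  exact descent_core S G L L' N hS hunr hfix hcompat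

end Fermat.Agent.S55.G.DescH853
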