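import Fermat.Agent.S55.G.Spec

/-!
# S55 / layer G, leaf G-CYC (helper379): `CyclicLayerSpec` from G-FI and G-SI

`|H²| = p·|H¹|` (first inequality) and `|H²| ∣ p` (second inequality) give `|H¹| = 1`, `|H²| = p`.
-/

set_option autoImplicit false

open CategoryTheory groupCohomology

namespace Fermat.Agent.S55.G.CycH379

/-- Pure arithmetic: `b = p * a`, `b ∣ p`, `0 < p` ⇒ `a = 1 ∧ b = p`. -/
theorem eq_one_and_eq_of_mul_dvd {p a b : ℕ} (hp : 0 < p) (hb : b = p * a)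
    (hdvd : b ∣ p) : a = 1 ∧ b = p := by
  subst hb
  have h1 : p * a ∣ p * 1 := by rwa [mul_one]
  have h2 : a ∣ 1 := (Nat.mul_dvd_mul_iff_left hp).1 h1
  have h3 : a = 1 := Nat.dvd_one.1 h2
  exact ⟨h3, by rw [h3, mul_one]⟩

/-- **G-CYC.**  `CyclicLayerSpec` follows from the first and the second inequality. -/
theorem cyclicLayerSpec_of (hFI : FirstInequalitySpec) (hSI : SecondInequalitySpec) :
    CyclicLayerSpec := by
  intro p hp hp2 S G L _ _ _ _ _ _ hpS hcard hunr hζ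
  obtain ⟨hfin1, hfin2, hcardeq⟩ := hFI p hp2 S G L ⟨_, hpS⟩ hcard
  obtain ⟨-, hdvd⟩ := hSI p hp2 S G L hpS hcard hunr hζ
  obtain ⟨h1, h2⟩ := eq_one_and_eq_of_mul_dvd hp.out.pos hcardeq hdvd
  refine ⟨?_, h2⟩
  have : Subsingleton (groupCohomology (CRep S G L) 1) :=
    (Nat.card_eq_one_iff_unique.1 h1).1
  exact ModuleCat.isZero_of_subsingleton _

end Fermat.Agent.S55.G.CycH379
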