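import Fermat.Agent.S55.G.Spec1b
import Fermat.Agent.S55.T.ClassModuleOfCyclicH53

/-!
# S55 layer G, leaf G-CYCp : cyclic layers of `p`-power degree (helper713)

`cyclicPow_of : PClassUpperSpec → FirstInequalityCycSpec → CyclicPowSpec`.
-/

set_option autoImplicit false
set_option linter.unusedSectionVars false
set_option linter.style.haveILetI false

open CategoryTheory groupCohomology

namespace Fermat.Agent.S55.G.CycPowH713

open Fermat.Agent.S55.G

/-- The cardinality of a `p`-group, `p` odd, is odd. -/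
lemma odd_card_of_isPGroup {p : ℕ} [hp : Fact p.Prime] (hp2 : p ≠ 2) {G : Type} [Group G]
    [Finite G] (hG : IsPGroup p G) : Odd (Nat.card G) := by
  obtain ⟨n, hn⟩ := IsPGroup.iff_card.1 hG
  rw [hn]
  exact (hp.out.odd_of_ne_two hp2).pow

/-- **G-CYCp** from the upper bound G-UP and the first inequality for cyclic groups of odd
order. -/
theorem cyclicPow_of (hUP : PClassUpperSpec) (hFI : FirstInequalityCycSpec) : CyclicPowSpec := by
  intro p hp hp2 S G L _ _ _ _ _ _ _ hpS hG hunr hμ
  obtain ⟨h1, h2fin, h2dvd⟩ := hUP p hp2 S G L hpS hG hunr hμ ⊤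
  have hS : S.Nonempty := ⟨_, hpS⟩
  obtain ⟨-, -, hcard⟩ := hFI (Nat.card G) (odd_card_of_isPGroup hp2 hG) S G L hS rfl
  have hz : Limits.IsZero (groupCohomology (CRep S G L) 1) :=
    Limits.IsZero.of_iso h1 (T.H53.topIso (CRep S G L) 1).symm
  refine ⟨hz, ?_⟩
  have hsub : Subsingleton (groupCohomology (CRep S G L) 1) :=
    ModuleCat.subsingleton_of_isZero hz
  have hone : Nat.card (groupCohomology (CRep S G L) 1) = 1 := Nat.card_unique
  rw [hcard, hone, mul_one]

end Fermat.Agent.S55.G.CycPowH713
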