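/-
S55, layer G, block G-U, leaf **GU-LAT** (helper155): the lattice lemma `LatticeSpec`.

Two `s`-stable `ℤ`-lattices spanning the same real subspace have finite Herbrand indices and the
same Herbrand quotient.
-/
import Mathlib
import Fermat.Agent.S55.G.SpecUnits
import Fermat.Agent.S55.H595.Relative

set_option autoImplicit false

namespace Fermat.Agent.S55.G.GULat155

open Fermat.Agent.S55.Herbrand Fermat.Agent.S55.H595

universe u

/-! ## 1. Generalities on indices -/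

section Index

variable {B : Type*} [AddCommGroup B]

/-- A subgroup of a finitely generated abelian group is finitely generated. -/
lemma fg_of_le_fg {H K : AddSubgroup B} (hK : K.FG) (h : H ≤ K) : H.FG := by
  have h1 : (AddSubgroup.toIntSubmodule K).FG :=
    (Submodule.fg_iff_addSubgroup_fg _).mpr (by simpa using hK)
  have := isNoetherian_of_fg_of_noetherian _ h1
  have h2 : (AddSubgroup.toIntSubmodule H).FG :=
    isNoetherian_submodule.mp this _ (fun x hx => h hx)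
  simpa using (Submodule.fg_iff_addSubgroup_fg _).mp h2

/-- If `K` is finitely generated and `d • K ≤ H` with `d ≠ 0`, then `[K : H ∩ K]` is finite. -/
lemma relIndex_ne_zero_of_fg_of_nsmul (H K : AddSubgroup B) (hK : K.FG) (d : ℕ) (hd : d ≠ 0)
    (h : ∀ x ∈ K, d • x ∈ H) : H.relIndex K ≠ 0 := by
  have : AddGroup.FG ↥K := (AddGroup.fg_iff_addSubgroup_fg K).mpr hK
  have htors : IsAddTorsion (↥K ⧸ H.addSubgroupOf K) := by
    intro q
    induction q using QuotientAddGroup.induction_on with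
    | H k =>
      rw [isOfFinAddOrder_iff_nsmul_eq_zero]
      refine ⟨d, Nat.pos_of_ne_zero hd, ?_⟩
      rw [← QuotientAddGroup.mk_nsmul]
      refine (QuotientAddGroup.eq_zero_iff _).mpr ?_
      exact h k k.2
  have : Finite (↥K ⧸ H.addSubgroupOf K) := AddCommGroup.finite_of_fg_isAddTorsion _ htors
  exact AddSubgroup.index_ne_zero_of_finite

lemma rhIdx_eq_hIndexSub (f g : B →+ B) (U : AddSubgroup B) :
    rhIdx f g U = hIndexSub f g U := by
  unfold rhIdx hIndexSub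
  rw [inf_comm]

end Index

/-! ## 2. Stable subgroups and finiteness of the Herbrand indices -/

section Stable

variable {V : Type u} [AddCommGroup V] [Module ℝ V]

/-- `T` maps the subgroup `Λ` into the subgroup `Λ'`. -/
def MapsInto (Λ Λ' : AddSubgroup V) (T : V →ₗ[ℝ] V) : Prop := ∀ x ∈ Λ, T x ∈ Λ'

lemma MapsInto.one (Λ : AddSubgroup V) : MapsInto Λ Λ (1 : V →ₗ[ℝ] V) := fun _ hx => hx

lemma MapsInto.mul {Λ Λ' Λ'' : AddSubgroup V} {T T' : V →ₗ[ℝ] V} (h : MapsInto Λ' Λ'' T)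
    (h' : MapsInto Λ Λ' T') : MapsInto Λ Λ'' (T * T') := fun x hx => h _ (h' x hx)

lemma MapsInto.add {Λ Λ' : AddSubgroup V} {T T' : V →ₗ[ℝ] V} (h : MapsInto Λ Λ' T)
    (h' : MapsInto Λ Λ' T') : MapsInto Λ Λ' (T + T') := fun x hx =>
  Λ'.add_mem (h x hx) (h' x hx)

lemma MapsInto.sub {Λ Λ' : AddSubgroup V} {T T' : V →ₗ[ℝ] V} (h : MapsInto Λ Λ' T)
    (h' : MapsInto Λ Λ' T') : MapsInto Λ Λ' (T - T') := fun x hx =>
  Λ'.sub_mem (h x hx) (h' x hx)

lemma MapsInto.neg {Λ Λ' : AddSubgroup V} {T : V →ₗ[ℝ] V} (h : MapsInto Λ Λ' T) :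
    MapsInto Λ Λ' (-T) := fun x hx => Λ'.neg_mem (h x hx)

lemma MapsInto.zero (Λ Λ' : AddSubgroup V) : MapsInto Λ Λ' (0 : V →ₗ[ℝ] V) := fun _ _ =>
  Λ'.zero_mem

lemma MapsInto.pow {Λ : AddSubgroup V} {T : V →ₗ[ℝ] V} (h : MapsInto Λ Λ T) (k : ℕ) :
    MapsInto Λ Λ (T ^ k) := by
  induction k with
  | zero => simpa using MapsInto.one Λ
  | succ k ih => rw [pow_succ]; exact ih.mul h

lemma MapsInto.sum {ι : Type*} {Λ Λ' : AddSubgroup V} (S : Finset ι) (T : ι → V →ₗ[ℝ] V)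
    (h : ∀ i ∈ S, MapsInto Λ Λ' (T i)) : MapsInto Λ Λ' (∑ i ∈ S, T i) := by
  classical
  induction S using Finset.induction_on with
  | empty => simpa using MapsInto.zero Λ Λ'
  | insert a S ha ih =>
    rw [Finset.sum_insert ha]
    exact (h a (Finset.mem_insert_self a S)).add
      (ih (fun i hi => h i (Finset.mem_insert_of_mem hi)))

variable (s : V →ₗ[ℝ] V) (n : ℕ)

/-- `s - 1` as an additive endomorphism. -/
noncomputable def augF : V →+ V := (s - 1 : V →ₗ[ℝ] V).toAddMonoidHom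

/-- `1 + s + ⋯ + s^(n-1)` as an additive endomorphism. -/
noncomputable def nrmN : V →+ V := (∑ k ∈ Finset.range n, s ^ k : V →ₗ[ℝ] V).toAddMonoidHom

lemma augF_apply (x : V) : augF s x = (s - 1 : V →ₗ[ℝ] V) x := rfl

lemma nrmN_apply (x : V) : nrmN s n x = (∑ k ∈ Finset.range n, s ^ k : V →ₗ[ℝ] V) x := rfl

variable {s n}

lemma augF_nrmN (hs : s ^ n = 1) (x : V) : augF s (nrmN s n x) = 0 := by
  rw [augF_apply, nrmN_apply, ← Module.End.mul_apply, mul_geom_sum, hs, sub_self]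
  rfl

lemma nrmN_augF (hs : s ^ n = 1) (x : V) : nrmN s n (augF s x) = 0 := by
  rw [augF_apply, nrmN_apply, ← Module.End.mul_apply, geom_sum_mul, hs, sub_self]
  rfl

lemma pow_apply_of_fixed {x : V} (hx : s x = x) (k : ℕ) : (s ^ k) x = x := by
  induction k with
  | zero => simp
  | succ k ih => rw [pow_succ, Module.End.mul_apply, hx, ih]

lemma nrmN_of_fixed {x : V} (hx : s x = x) : nrmN s n x = n • x := by
  rw [nrmN_apply, LinearMap.sum_apply]
  simp [pow_apply_of_fixed hx]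

/-- the identity `n - N = (s - 1) * (-∑_{k<n} ∑_{j<k} s^j)`. -/
lemma nsmul_sub_nrm_eq :
    (n : V →ₗ[ℝ] V) - ∑ k ∈ Finset.range n, s ^ k =
      (s - 1) * (-∑ k ∈ Finset.range n, ∑ j ∈ Finset.range k, s ^ j) := by
  rw [mul_neg, Finset.mul_sum]
  simp_rw [mul_geom_sum]
  rw [Finset.sum_sub_distrib]
  simp

variable {Λ : AddSubgroup V}

lemma mapsInto_augF (hΛ : MapsInto Λ Λ s) : MapsInto Λ Λ (s - 1) := hΛ.sub (MapsInto.one Λ)

lemma mapsInto_nrmN (hΛ : MapsInto Λ Λ s) :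
    MapsInto Λ Λ (∑ k ∈ Finset.range n, s ^ k) :=
  MapsInto.sum _ _ (fun k _ => hΛ.pow k)

/-- **Finiteness of the Herbrand indices** of a finitely generated `s`-stable subgroup. -/
theorem hIndexSub_ne_zero (hn : 0 < n) (hΛfg : Λ.FG) (hΛ : MapsInto Λ Λ s) :
    hIndexSub (augF s) (nrmN s n) Λ ≠ 0 ∧ hIndexSub (nrmN s n) (augF s) Λ ≠ 0 := by
  constructor
  · unfold hIndexSub
    refine relIndex_ne_zero_of_fg_of_nsmul _ _ (fg_of_le_fg hΛfg inf_le_left) n hn.ne' ?_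
    rintro x ⟨hx, hxk⟩
    have hfix : s x = x := by
      have : augF s x = 0 := hxk
      rw [augF_apply, LinearMap.sub_apply, Module.End.one_apply, sub_eq_zero] at this
      exact this
    exact ⟨x, hx, nrmN_of_fixed hfix⟩
  · unfold hIndexSub
    refine relIndex_ne_zero_of_fg_of_nsmul _ _ (fg_of_le_fg hΛfg inf_le_left) n hn.ne' ?_
    rintro x ⟨hx, hxk⟩
    have hN : (∑ k ∈ Finset.range n, s ^ k : V →ₗ[ℝ] V) x = 0 := hxk
    refine ⟨(-∑ k ∈ Finset.range n, ∑ j ∈ Finset.range k, s ^ j : V →ₗ[ℝ] V) x, ?_, ?_⟩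
    · exact (MapsInto.sum _ _ (fun k _ => MapsInto.sum _ _ (fun j _ => hΛ.pow j))).neg x hx
    · rw [augF_apply, ← Module.End.mul_apply, ← nsmul_sub_nrm_eq, LinearMap.sub_apply, hN,
        sub_zero]
      simp

end Stable

/-! ## 3. Matrices of linear maps with respect to two independent families -/

section Rep

variable {V : Type u} [AddCommGroup V] [Module ℝ V] {r : ℕ}

/-- the linear map `ℝ^r → V`, `v ↦ ∑ v j • b j`. -/
noncomputable abbrev comb (b : Fin r → V) : (Fin r → ℝ) →ₗ[ℝ] V := Fintype.linearCombination ℝ b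

/-- the lattice spanned by `b`. -/
abbrev lat (b : Fin r → V) : AddSubgroup V := (Submodule.span ℤ (Set.range b)).toAddSubgroup

lemma comb_single (b : Fin r → V) (j : Fin r) : comb b (Pi.single j 1) = b j := by
  simp [comb]

lemma mem_lat_iff (b : Fin r → V) (x : V) :
    x ∈ lat b ↔ ∃ z : Fin r → ℤ, x = comb b (fun j => (z j : ℝ)) := by
  rw [Submodule.mem_toAddSubgroup, Submodule.mem_span_range_iff_exists_fun]
  constructor
  · rintro ⟨z, rfl⟩
    refine ⟨z, ?_⟩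
    simp [comb, Fintype.linearCombination_apply, Int.cast_smul_eq_zsmul]
  · rintro ⟨z, rfl⟩
    refine ⟨z, ?_⟩
    simp [comb, Fintype.linearCombination_apply, Int.cast_smul_eq_zsmul]

omit [Module ℝ V] in
lemma lat_fg (b : Fin r → V) : (lat b).FG := by
  have : (Submodule.span ℤ (Set.range b)).FG := Submodule.fg_span (Set.finite_range b)
  exact (Submodule.fg_iff_addSubgroup_fg _).mp this

/-- `Rep b b' T M`: `T (∑ v j • b j) = ∑ (M v) k • b' k`. -/
def Rep (b b' : Fin r → V) (T : V →ₗ[ℝ] V) (M : Matrix (Fin r) (Fin r) ℝ) : Prop :=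
  T ∘ₗ comb b = comb b' ∘ₗ Matrix.toLin' M

lemma Rep.apply {b b' : Fin r → V} {T : V →ₗ[ℝ] V} {M : Matrix (Fin r) (Fin r) ℝ}
    (h : Rep b b' T M) (v : Fin r → ℝ) : T (comb b v) = comb b' (M.mulVec v) := by
  have := LinearMap.congr_fun h v
  simpa using this

lemma rep_of_apply {b b' : Fin r → V} {T : V →ₗ[ℝ] V} {M : Matrix (Fin r) (Fin r) ℝ}
    (h : ∀ j, T (b j) = ∑ k, M k j • b' k) : Rep b b' T M := by
  unfold Rep
  apply LinearMap.pi_ext'
  intro j
  ext
  simp only [LinearMap.coe_comp, LinearMap.coe_single, Function.comp_apply, comb_single, h j,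
    Matrix.toLin'_apply, Matrix.mulVec_single_one]
  simp [comb, Fintype.linearCombination_apply]

lemma Rep.mul {b b' b'' : Fin r → V} {T T' : V →ₗ[ℝ] V} {M M' : Matrix (Fin r) (Fin r) ℝ}
    (h' : Rep b' b'' T' M') (h : Rep b b' T M) : Rep b b'' (T' * T) (M' * M) := by
  unfold Rep at *
  rw [Module.End.mul_eq_comp, LinearMap.comp_assoc, h, ← LinearMap.comp_assoc, h',
    LinearMap.comp_assoc, Matrix.toLin'_mul]

lemma Rep.one (b : Fin r → V) : Rep b b 1 1 := by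
  unfold Rep
  rw [Matrix.toLin'_one]
  rfl

lemma Rep.pow {b : Fin r → V} {T : V →ₗ[ℝ] V} {M : Matrix (Fin r) (Fin r) ℝ}
    (h : Rep b b T M) (k : ℕ) : Rep b b (T ^ k) (M ^ k) := by
  induction k with
  | zero => simpa using Rep.one b
  | succ k ih => rw [pow_succ, pow_succ]; exact ih.mul h

lemma Rep.zero (b b' : Fin r → V) : Rep b b' 0 0 := by
  unfold Rep
  simp

lemma Rep.add {b b' : Fin r → V} {T T' : V →ₗ[ℝ] V} {M M' : Matrix (Fin r) (Fin r) ℝ}
    (h : Rep b b' T M) (h' : Rep b b' T' M') : Rep b b' (T + T') (M + M') := by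
  unfold Rep at *
  rw [LinearMap.add_comp, h, h', map_add, LinearMap.comp_add]

lemma Rep.sum {ι : Type*} {b b' : Fin r → V} (S : Finset ι) (T : ι → V →ₗ[ℝ] V)
    (M : ι → Matrix (Fin r) (Fin r) ℝ) (h : ∀ i ∈ S, Rep b b' (T i) (M i)) :
    Rep b b' (∑ i ∈ S, T i) (∑ i ∈ S, M i) := by
  classical
  induction S using Finset.induction_on with
  | empty => simpa using Rep.zero b b'
  | insert a S ha ih =>
    rw [Finset.sum_insert ha, Finset.sum_insert ha]
    exact (h a (Finset.mem_insert_self a S)).add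
      (ih (fun i hi => h i (Finset.mem_insert_of_mem hi)))

/-- uniqueness of the matrix when the target family is independent. -/
lemma Rep.unique {b b' : Fin r → V} (hb' : LinearIndependent ℝ b') {T : V →ₗ[ℝ] V}
    {M M' : Matrix (Fin r) (Fin r) ℝ} (h : Rep b b' T M) (h' : Rep b b' T M') : M = M' := by
  unfold Rep at *
  have hinj : Function.Injective (comb b') := hb'.fintypeLinearCombination_injective
  have : Matrix.toLin' M = Matrix.toLin' M' := by
    apply LinearMap.ext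
    intro v
    apply hinj
    have h1 := LinearMap.congr_fun h v
    have h2 := LinearMap.congr_fun h' v
    simp only [LinearMap.coe_comp, Function.comp_apply] at h1 h2
    rw [← h1, ← h2]
  exact Matrix.toLin'.injective this

/-- an integral matrix maps the lattice into the lattice. -/
lemma Rep.mapsInto {b b' : Fin r → V} {T : V →ₗ[ℝ] V} {M : Matrix (Fin r) (Fin r) ℤ}
    (h : Rep b b' T (M.map (Int.cast : ℤ → ℝ))) : MapsInto (lat b) (lat b') T := by
  intro x hx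
  obtain ⟨z, rfl⟩ := (mem_lat_iff b x).mp hx
  rw [h.apply]
  refine (mem_lat_iff b' _).mpr ⟨M.mulVec z, ?_⟩
  congr 1
  funext k
  have hk := RingHom.map_mulVec (Int.castRingHom ℝ) M z k
  rw [Int.coe_castRingHom] at hk
  exact hk.symm

/-- existence of an integral matrix for a lattice-preserving map. -/
lemma exists_rep_int {b : Fin r → V} {T : V →ₗ[ℝ] V}
    (h : ∀ i, T (b i) ∈ Submodule.span ℤ (Set.range b)) :
    ∃ M : Matrix (Fin r) (Fin r) ℤ, Rep b b T (M.map (Int.cast : ℤ → ℝ)) := by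
  have h' : ∀ j, ∃ c : Fin r → ℤ, ∑ k, c k • b k = T (b j) := fun j =>
    (Submodule.mem_span_range_iff_exists_fun ℤ).mp (h j)
  choose c hc using h'
  refine ⟨Matrix.of (fun k j => c j k), rep_of_apply (fun j => ?_)⟩
  rw [← hc j]
  simp [Int.cast_smul_eq_zsmul]

/-- existence of the real change-of-basis matrix. -/
lemma exists_rep_one {b b' : Fin r → V}
    (h : Submodule.span ℝ (Set.range b) ≤ Submodule.span ℝ (Set.range b')) :
    ∃ P : Matrix (Fin r) (Fin r) ℝ, Rep b b' 1 P := by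
  have h' : ∀ j, ∃ c : Fin r → ℝ, ∑ k, c k • b' k = b j := fun j =>
    (Submodule.mem_span_range_iff_exists_fun ℝ).mp (h (Submodule.subset_span ⟨j, rfl⟩))
  choose c hc using h'
  refine ⟨Matrix.of (fun k j => c j k), rep_of_apply (fun j => ?_)⟩
  rw [Module.End.one_apply, ← hc j]
  simp

end Rep

/-! ## 4. A polynomial that does not vanish has an integral non-zero -/

section Poly

variable {r : ℕ}

/-- If `X ↦ det (∑ A^i X B^i)` is nonzero at a real matrix, it is nonzero at an integral one. -/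
lemma exists_int_matrix_det_ne_zero (A B : Matrix (Fin r) (Fin r) ℝ) (n : ℕ)
    (P : Matrix (Fin r) (Fin r) ℝ)
    (hP : (∑ i ∈ Finset.range n, A ^ i * P * B ^ i).det ≠ 0) :
    ∃ X : Matrix (Fin r) (Fin r) ℤ,
      (∑ i ∈ Finset.range n, A ^ i * X.map (Int.cast : ℤ → ℝ) * B ^ i).det ≠ 0 := by
  classical
  let Cm : Matrix (Fin r) (Fin r) ℝ →+* Matrix (Fin r) (Fin r) (MvPolynomial (Fin r × Fin r) ℝ) :=
    (MvPolynomial.C).mapMatrix
  let G : Matrix (Fin r) (Fin r) (MvPolynomial (Fin r × Fin r) ℝ) :=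
    ∑ i ∈ Finset.range n, Cm A ^ i * Matrix.mvPolynomialX (Fin r) (Fin r) ℝ * Cm B ^ i
  have heval : ∀ Y : Matrix (Fin r) (Fin r) ℝ,
      MvPolynomial.eval (fun p : Fin r × Fin r => Y p.1 p.2) G.det =
        (∑ i ∈ Finset.range n, A ^ i * Y * B ^ i).det := by
    intro Y
    rw [RingHom.map_det]
    congr 1
    have hC : ∀ Z : Matrix (Fin r) (Fin r) ℝ,
        (MvPolynomial.eval fun p : Fin r × Fin r => Y p.1 p.2).mapMatrix (Cm Z) = Z := by
      intro Z
      ext a b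
      simp [Cm]
    simp only [G]
    rw [map_sum]
    refine Finset.sum_congr rfl (fun i _ => ?_)
    rw [map_mul, map_mul, map_pow, map_pow, Matrix.mvPolynomialX_mapMatrix_eval, hC, hC]
  have hpol : G.det ≠ 0 := by
    intro h0
    apply hP
    rw [← heval P, h0, map_zero]
  by_contra hcon
  simp only [not_exists, not_not] at hcon
  apply hpol
  refine MvPolynomial.funext_set (fun _ => Set.range (Int.cast : ℤ → ℝ))
    (fun _ => Set.infinite_range_of_injective Int.cast_injective) ?_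
  intro x hx
  rw [map_zero]
  have hx' : ∀ p : Fin r × Fin r, ∃ z : ℤ, (z : ℝ) = x p := fun p => hx p (Set.mem_univ p)
  choose Z hZ using hx'
  have hxe : x = fun p : Fin r × Fin r =>
      (Matrix.of (fun a b => Z (a, b))).map (Int.cast : ℤ → ℝ) p.1 p.2 := by
    funext p
    simp [hZ]
  rw [hxe, heval]
  exact hcon _

end Poly

/-! ## 5. The averaged comparison map -/

section Avg

variable {V : Type u} [AddCommGroup V] [Module ℝ V] {r : ℕ}
variable (s : V →ₗ[ℝ] V) (n : ℕ)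

/-- `ψ = ∑_{i<n} s^i φ t^i` with `t = s^(n-1) = s⁻¹`. -/
noncomputable def avg (φ : V →ₗ[ℝ] V) : V →ₗ[ℝ] V :=
  ∑ i ∈ Finset.range n, s ^ i * φ * (s ^ (n - 1)) ^ i

variable {s n}

lemma mul_pow_pred (hn : 0 < n) (hs : s ^ n = 1) : s * s ^ (n - 1) = 1 := by
  rw [← pow_succ', Nat.sub_add_cancel hn, hs]

lemma pow_pred_mul (hn : 0 < n) (hs : s ^ n = 1) : s ^ (n - 1) * s = 1 := by
  rw [← pow_succ, Nat.sub_add_cancel hn, hs]

lemma pow_pred_pow (hs : s ^ n = 1) : (s ^ (n - 1)) ^ n = 1 := by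
  rw [← pow_mul, mul_comm, pow_mul, hs, one_pow]

lemma avg_commute (hn : 0 < n) (hs : s ^ n = 1) (φ : V →ₗ[ℝ] V) : Commute (avg s n φ) s := by
  have key : s * avg s n φ * s ^ (n - 1) = avg s n φ := by
    unfold avg
    rw [Finset.mul_sum, Finset.sum_mul]
    have h1 : ∀ i ∈ Finset.range n, s * (s ^ i * φ * (s ^ (n - 1)) ^ i) * s ^ (n - 1) =
        s ^ (i + 1) * φ * (s ^ (n - 1)) ^ (i + 1) := by
      intro i _
      rw [pow_succ' s i, pow_succ (s ^ (n - 1)) i]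
      simp only [mul_assoc]
    rw [Finset.sum_congr rfl h1]
    have h2 := Finset.sum_range_succ' (fun i => s ^ i * φ * (s ^ (n - 1)) ^ i) n
    have h3 := Finset.sum_range_succ (fun i => s ^ i * φ * (s ^ (n - 1)) ^ i) n
    rw [h3] at h2
    simp only [hs, pow_pred_pow hs, pow_zero, one_mul, mul_one] at h2
    exact (add_right_cancel h2).symm
  show avg s n φ * s = s * avg s n φ
  calc avg s n φ * s = (s * avg s n φ * s ^ (n - 1)) * s := by rw [key]
    _ = s * avg s n φ * (s ^ (n - 1) * s) := by simp only [mul_assoc]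
    _ = s * avg s n φ := by rw [pow_pred_mul hn hs, mul_one]

lemma avg_rep {b₁ b₂ : Fin r → V} {S₁ S₂ X : Matrix (Fin r) (Fin r) ℝ} {φ : V →ₗ[ℝ] V}
    (h₁ : Rep b₁ b₁ s S₁) (h₂ : Rep b₂ b₂ s S₂) (hφ : Rep b₁ b₂ φ X) :
    Rep b₁ b₂ (avg s n φ) (∑ i ∈ Finset.range n, S₂ ^ i * X * (S₁ ^ (n - 1)) ^ i) :=
  Rep.sum _ _ _ (fun i _ => ((h₂.pow i).mul hφ).mul ((h₁.pow (n - 1)).pow i))

/-- a linear map with prescribed matrix. -/
lemma exists_rep {b₁ : Fin r → V} (b₂ : Fin r → V) (hb₁ : LinearIndependent ℝ b₁)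
    (X : Matrix (Fin r) (Fin r) ℝ) : ∃ φ : V →ₗ[ℝ] V, Rep b₁ b₂ φ X := by
  have hker : LinearMap.ker (comb b₁) = ⊥ :=
    LinearMap.ker_eq_bot.mpr hb₁.fintypeLinearCombination_injective
  obtain ⟨g, hg⟩ := LinearMap.exists_leftInverse_of_injective (comb b₁) hker
  refine ⟨comb b₂ ∘ₗ Matrix.toLin' X ∘ₗ g, ?_⟩
  unfold Rep
  rw [LinearMap.comp_assoc, LinearMap.comp_assoc, hg, LinearMap.comp_id]

end Avg

/-! ## 6. The comparison map between the two lattices -/

section Comparison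

variable {V : Type u} [AddCommGroup V] [Module ℝ V] {r : ℕ}
variable {s : V →ₗ[ℝ] V} {n : ℕ} {b₁ b₂ : Fin r → V}

/-- **Existence of the comparison map**: an `s`-equivariant linear map `ψ` mapping `Λ₁` into `Λ₂`,
injective on `Λ₁`, with `d Λ₂ ⊆ ψ Λ₁` for a nonzero integer `d`. -/
theorem exists_comparison (hn : 0 < n) (hs : s ^ n = 1)
    (hb₁ : LinearIndependent ℝ b₁) (hb₂ : LinearIndependent ℝ b₂)
    (hspan : Submodule.span ℝ (Set.range b₁) = Submodule.span ℝ (Set.range b₂))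
    (h₁ : ∀ i, s (b₁ i) ∈ Submodule.span ℤ (Set.range b₁))
    (h₂ : ∀ i, s (b₂ i) ∈ Submodule.span ℤ (Set.range b₂)) :
    ∃ (ψ : V →ₗ[ℝ] V) (d : ℤ), d ≠ 0 ∧ Commute ψ s ∧ MapsInto (lat b₁) (lat b₂) ψ ∧
      (∀ x ∈ lat b₁, ψ x = 0 → x = 0) ∧ (∀ y ∈ lat b₂, ∃ x ∈ lat b₁, ψ x = d • y) := by
  classical
  obtain ⟨S₁, hS₁⟩ := exists_rep_int h₁
  obtain ⟨S₂, hS₂⟩ := exists_rep_int h₂
  obtain ⟨P, hP⟩ := exists_rep_one (b := b₁) (b' := b₂) hspan.le
  obtain ⟨Q, hQ⟩ := exists_rep_one (b := b₂) (b' := b₁) hspan.ge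
  set S₁r : Matrix (Fin r) (Fin r) ℝ := S₁.map (Int.cast : ℤ → ℝ) with hS₁r
  set S₂r : Matrix (Fin r) (Fin r) ℝ := S₂.map (Int.cast : ℤ → ℝ) with hS₂r
  -- `P` is invertible
  have hPQ : P * Q = 1 := by
    have h := hP.mul hQ
    rw [one_mul] at h
    exact h.unique hb₂ (Rep.one b₂)
  have hdetP : P.det ≠ 0 := by
    intro h0
    have := congrArg Matrix.det hPQ
    rw [Matrix.det_mul, h0, zero_mul, Matrix.det_one] at this
    exact zero_ne_one this
  -- `S₂ P = P S₁`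
  have hSP : S₂r * P = P * S₁r := by
    have h := hS₂.mul hP
    have h' := hP.mul hS₁
    rw [mul_one] at h
    rw [one_mul] at h'
    exact h.unique hb₂ h'
  have hSPpow : ∀ i : ℕ, S₂r ^ i * P = P * S₁r ^ i := by
    intro i
    induction i with
    | zero => simp
    | succ i ih => rw [pow_succ, mul_assoc, hSP, ← mul_assoc, ih, mul_assoc, ← pow_succ]
  -- `S₁^n = 1`
  have hS₁n : S₁r ^ n = 1 := by
    have h := hS₁.pow n
    rw [hs] at h
    exact h.unique hb₁ (Rep.one b₁)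
  have hterm : ∀ i : ℕ, S₂r ^ i * P * (S₁r ^ (n - 1)) ^ i = P := by
    intro i
    rw [hSPpow, mul_assoc, ← pow_mul, ← pow_add]
    have : i + (n - 1) * i = n * i := by
      obtain ⟨m, rfl⟩ : ∃ m, n = m + 1 := ⟨n - 1, (Nat.sub_add_cancel hn).symm⟩
      simp only [Nat.add_sub_cancel]
      ring
    rw [this, pow_mul, hS₁n, one_pow, mul_one]
  have hsumP : (∑ i ∈ Finset.range n, S₂r ^ i * P * (S₁r ^ (n - 1)) ^ i).det ≠ 0 := by
    rw [Finset.sum_congr rfl (fun i _ => hterm i), Finset.sum_const, Finset.card_range,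
      ← Nat.cast_smul_eq_nsmul ℝ, Matrix.det_smul]
    refine mul_ne_zero (pow_ne_zero _ ?_) hdetP
    exact Nat.cast_ne_zero.mpr hn.ne'
  -- an integral `X`
  obtain ⟨X, hX⟩ := exists_int_matrix_det_ne_zero S₂r (S₁r ^ (n - 1)) n P hsumP
  obtain ⟨φ, hφ⟩ := exists_rep b₂ hb₁ (X.map (Int.cast : ℤ → ℝ))
  -- the integral matrix of `ψ`
  set M : Matrix (Fin r) (Fin r) ℤ := ∑ i ∈ Finset.range n, S₂ ^ i * X * (S₁ ^ (n - 1)) ^ i with hM
  have hMr : M.map (Int.cast : ℤ → ℝ) =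
      ∑ i ∈ Finset.range n, S₂r ^ i * X.map (Int.cast : ℤ → ℝ) * (S₁r ^ (n - 1)) ^ i := by
    have := map_sum (Int.castRingHom ℝ).mapMatrix
      (fun i => S₂ ^ i * X * (S₁ ^ (n - 1)) ^ i) (Finset.range n)
    simp only [map_mul, map_pow, RingHom.mapMatrix_apply, Int.coe_castRingHom] at this
    rw [hM, hS₁r, hS₂r]
    exact this
  have hψ : Rep b₁ b₂ (avg s n φ) (M.map (Int.cast : ℤ → ℝ)) := by
    rw [hMr]
    exact avg_rep hS₁ hS₂ hφ
  have hdetM : (M.map (Int.cast : ℤ → ℝ)).det ≠ 0 := by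
    rw [hMr]
    exact hX
  have hdetMint : M.det ≠ 0 := by
    intro h0
    apply hdetM
    have := RingHom.map_det (Int.castRingHom ℝ) M
    rw [h0, map_zero, RingHom.mapMatrix_apply, Int.coe_castRingHom] at this
    exact this.symm
  refine ⟨avg s n φ, M.det, hdetMint, avg_commute hn hs φ, hψ.mapsInto, ?_, ?_⟩
  · -- injectivity
    intro x hx hx0
    obtain ⟨z, rfl⟩ := (mem_lat_iff b₁ x).mp hx
    rw [hψ.apply] at hx0
    have h0 : (M.map (Int.cast : ℤ → ℝ)).mulVec (fun j => (z j : ℝ)) = 0 := by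
      apply hb₂.fintypeLinearCombination_injective
      rw [map_zero]
      exact hx0
    have hz := Matrix.eq_zero_of_mulVec_eq_zero hdetM h0
    rw [hz, map_zero]
  · -- `d Λ₂ ⊆ ψ Λ₁`
    intro y hy
    obtain ⟨z, rfl⟩ := (mem_lat_iff b₂ y).mp hy
    refine ⟨comb b₁ (fun j => ((M.adjugate.mulVec z) j : ℝ)),
      (mem_lat_iff b₁ _).mpr ⟨M.adjugate.mulVec z, rfl⟩, ?_⟩
    rw [hψ.apply, ← Int.cast_smul_eq_zsmul ℝ, ← map_smul]
    congr 1
    funext k
    have hk := RingHom.map_mulVec (Int.castRingHom ℝ) M (M.adjugate.mulVec z) k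
    rw [Int.coe_castRingHom] at hk
    have hk' : (M.map (Int.cast : ℤ → ℝ)).mulVec (fun j => ((M.adjugate.mulVec z) j : ℝ)) k =
        ((M.mulVec (M.adjugate.mulVec z) k : ℤ) : ℝ) := hk.symm
    rw [hk', Matrix.mulVec_mulVec, Matrix.mul_adjugate, Matrix.smul_mulVec, Matrix.one_mulVec]
    simp

end Comparison

/-! ## 7. The lattice lemma -/

section Final

variable {V : Type u} [AddCommGroup V] [Module ℝ V] {r : ℕ}
variable {s : V →ₗ[ℝ] V} {n : ℕ} {b₁ b₂ : Fin r → V}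

lemma mapsInto_of_mem_span {b : Fin r → V}
    (h : ∀ i, s (b i) ∈ Submodule.span ℤ (Set.range b)) : MapsInto (lat b) (lat b) s := by
  obtain ⟨S, hS⟩ := exists_rep_int h
  exact hS.mapsInto

/-- integer version of `relIndex_ne_zero_of_fg_of_nsmul`. -/
lemma relIndex_ne_zero_of_fg_of_zsmul {B : Type*} [AddCommGroup B] (H K : AddSubgroup B)
    (hK : K.FG) (d : ℤ) (hd : d ≠ 0) (h : ∀ x ∈ K, d • x ∈ H) : H.relIndex K ≠ 0 := by
  refine relIndex_ne_zero_of_fg_of_nsmul H K hK d.natAbs (Int.natAbs_ne_zero.mpr hd) ?_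
  intro x hx
  rcases Int.natAbs_eq d with hd' | hd'
  · have : d.natAbs • x = d • x := by
      conv_rhs => rw [hd']
      rw [natCast_zsmul]
    rw [this]
    exact h x hx
  · have : d.natAbs • x = -(d • x) := by
      conv_rhs => rw [hd']
      rw [neg_smul, neg_neg, natCast_zsmul]
    rw [this]
    exact H.neg_mem (h x hx)

/-- **The lattice lemma**, in terms of `augF`, `nrmN`, `lat`. -/
theorem lattice_main (hn : 0 < n) (hs : s ^ n = 1)
    (hb₁ : LinearIndependent ℝ b₁) (hb₂ : LinearIndependent ℝ b₂)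
    (hspan : Submodule.span ℝ (Set.range b₁) = Submodule.span ℝ (Set.range b₂))
    (h₁ : ∀ i, s (b₁ i) ∈ Submodule.span ℤ (Set.range b₁))
    (h₂ : ∀ i, s (b₂ i) ∈ Submodule.span ℤ (Set.range b₂)) :
    hIndexSub (augF s) (nrmN s n) (lat b₁) ≠ 0 ∧ hIndexSub (nrmN s n) (augF s) (lat b₁) ≠ 0 ∧
    hIndexSub (augF s) (nrmN s n) (lat b₂) ≠ 0 ∧ hIndexSub (nrmN s n) (augF s) (lat b₂) ≠ 0 ∧
      hIndexSub (augF s) (nrmN s n) (lat b₁) * hIndexSub (nrmN s n) (augF s) (lat b₂) =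
        hIndexSub (augF s) (nrmN s n) (lat b₂) * hIndexSub (nrmN s n) (augF s) (lat b₁) := by
  have hΛ₁ : MapsInto (lat b₁) (lat b₁) s := mapsInto_of_mem_span h₁
  have hΛ₂ : MapsInto (lat b₂) (lat b₂) s := mapsInto_of_mem_span h₂
  obtain ⟨f1a, f1c⟩ := hIndexSub_ne_zero (n := n) hn (lat_fg b₁) hΛ₁
  obtain ⟨f2a, f2c⟩ := hIndexSub_ne_zero (n := n) hn (lat_fg b₂) hΛ₂
  refine ⟨f1a, f1c, f2a, f2c, ?_⟩
  obtain ⟨ψ, d, hd, hcomm, hmaps, hinj, hsurj⟩ := exists_comparison hn hs hb₁ hb₂ hspan h₁ h₂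
  -- intertwining relations
  have hψs : ∀ x, ψ (s x) = s (ψ x) := fun x => LinearMap.congr_fun hcomm.eq x
  have hΨF : ∀ x, ψ.toAddMonoidHom (augF s x) = augF s (ψ.toAddMonoidHom x) := by
    intro x
    have h := LinearMap.congr_fun (hcomm.sub_right (Commute.one_right ψ)).eq x
    exact h
  have hΨN : ∀ x, ψ.toAddMonoidHom (nrmN s n x) = nrmN s n (ψ.toAddMonoidHom x) := by
    intro x
    have h := LinearMap.congr_fun
      (Commute.sum_right (Finset.range n) (fun k => s ^ k) ψ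
        (fun k _ => hcomm.pow_right k)).eq x
    exact h
  -- stability
  have hF₁ : lat b₁ ≤ (lat b₁).comap (augF s) := fun x hx => mapsInto_augF hΛ₁ x hx
  have hN₁ : lat b₁ ≤ (lat b₁).comap (nrmN s n) := fun x hx => mapsInto_nrmN hΛ₁ x hx
  have hF₂ : lat b₂ ≤ (lat b₂).comap (augF s) := fun x hx => mapsInto_augF hΛ₂ x hx
  have hN₂ : lat b₂ ≤ (lat b₂).comap (nrmN s n) := fun x hx => mapsInto_nrmN hΛ₂ x hx
  have hF' : (lat b₁).map ψ.toAddMonoidHom ≤ ((lat b₁).map ψ.toAddMonoidHom).comap (augF s) := by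
    rintro _ ⟨x, hx, rfl⟩
    exact ⟨augF s x, hF₁ hx, hΨF x⟩
  have hN' : (lat b₁).map ψ.toAddMonoidHom ≤
      ((lat b₁).map ψ.toAddMonoidHom).comap (nrmN s n) := by
    rintro _ ⟨x, hx, rfl⟩
    exact ⟨nrmN s n x, hN₁ hx, hΨN x⟩
  -- finite kernel
  have hker : ψ.toAddMonoidHom.ker ⊓ lat b₁ = ⊥ := by
    rw [eq_bot_iff]
    rintro x ⟨hx0, hx⟩
    exact hinj x hx hx0
  have hfin : Finite ↥(ψ.toAddMonoidHom.ker ⊓ lat b₁) := by
    rw [hker]
    infer_instance
  have A := rh_of_finite_ker (augF s) (nrmN s n) (augF s) (nrmN s n) ψ.toAddMonoidHom hΨF hΨN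
    (lat b₁) hF₁ hN₁ (fun x _ => augF_nrmN hs x) (fun x _ => nrmN_augF hs x) hfin
  -- finite index
  have hle : (lat b₁).map ψ.toAddMonoidHom ≤ lat b₂ := by
    rintro _ ⟨x, hx, rfl⟩
    exact hmaps x hx
  have hidx : ((lat b₁).map ψ.toAddMonoidHom).relIndex (lat b₂) ≠ 0 := by
    refine relIndex_ne_zero_of_fg_of_zsmul _ _ (lat_fg b₂) d hd ?_
    intro y hy
    obtain ⟨x, hx, hxy⟩ := hsurj y hy
    exact ⟨x, hx, hxy⟩
  have Bq := rh_of_finite_index (augF s) (nrmN s n) ((lat b₁).map ψ.toAddMonoidHom) (lat b₂)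
    hle hidx hF' hN' hF₂ hN₂ (fun x _ => augF_nrmN hs x) (fun x _ => nrmN_augF hs x)
  -- combine
  simp only [rhIdx_eq_hIndexSub] at A Bq
  have hfin' : RHFinite (augF s) (nrmN s n) ((lat b₁).map ψ.toAddMonoidHom) := by
    refine A.1.mp ⟨?_, ?_⟩
    · rw [rhIdx_eq_hIndexSub]; exact f1a
    · rw [rhIdx_eq_hIndexSub]; exact f1c
  obtain ⟨g1, g2⟩ := hfin'
  rw [rhIdx_eq_hIndexSub] at g1 g2
  have hA := A.2
  have hB := Bq.2
  have hpos : 0 < hIndexSub (augF s) (nrmN s n) ((lat b₁).map ψ.toAddMonoidHom) *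
      hIndexSub (nrmN s n) (augF s) ((lat b₁).map ψ.toAddMonoidHom) :=
    Nat.pos_of_ne_zero (Nat.mul_ne_zero g1 g2)
  refine Nat.eq_of_mul_eq_mul_right hpos ?_
  calc hIndexSub (augF s) (nrmN s n) (lat b₁) * hIndexSub (nrmN s n) (augF s) (lat b₂) *
        (hIndexSub (augF s) (nrmN s n) ((lat b₁).map ψ.toAddMonoidHom) *
          hIndexSub (nrmN s n) (augF s) ((lat b₁).map ψ.toAddMonoidHom))
      = (hIndexSub (augF s) (nrmN s n) (lat b₁) *
          hIndexSub (nrmN s n) (augF s) ((lat b₁).map ψ.toAddMonoidHom)) *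
        (hIndexSub (augF s) (nrmN s n) ((lat b₁).map ψ.toAddMonoidHom) *
          hIndexSub (nrmN s n) (augF s) (lat b₂)) := by ring
    _ = (hIndexSub (nrmN s n) (augF s) (lat b₁) *
          hIndexSub (augF s) (nrmN s n) ((lat b₁).map ψ.toAddMonoidHom)) *
        (hIndexSub (nrmN s n) (augF s) ((lat b₁).map ψ.toAddMonoidHom) *
          hIndexSub (augF s) (nrmN s n) (lat b₂)) := by rw [hA, hB]
    _ = hIndexSub (augF s) (nrmN s n) (lat b₂) * hIndexSub (nrmN s n) (augF s) (lat b₁) *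
        (hIndexSub (augF s) (nrmN s n) ((lat b₁).map ψ.toAddMonoidHom) *
          hIndexSub (nrmN s n) (augF s) ((lat b₁).map ψ.toAddMonoidHom)) := by ring

end Final

/-- **GU-LAT**: the lattice lemma `LatticeSpec` of `SpecUnits.lean`. -/
theorem latticeSpec : Fermat.Agent.S55.G.LatticeSpec.{u} := by
  intro V _ _ s n r hn hs b₁ b₂ hb₁ hb₂ hspan h₁ h₂
  exact lattice_main hn hs hb₁ hb₂ hspan h₁ h₂

end Fermat.Agent.S55.G.GULat155
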