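/-
S55, layer G, block G-U, leaf **GU-ORD** (`SUnitsOrdSpec`), helper59.

The valuation map on `T`-units: for `L/K` Galois number fields and a finite set `T` of primes
of `K`, the map `x ↦ (ord_w x)_{w | T}` is Galois-equivariant, its kernel on the `T`-units is the
group of units of `𝓞 L`, its image on the `T`-units has finite index, and the product of the
orders of the stabilisers over the orbits of the primes above `T` is `∏_{v ∈ T} e_v f_v`.
-/
import Mathlib
import Fermat.Agent.S55.G.SpecUnits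

set_option autoImplicit false
set_option linter.unusedSectionVars false
set_option linter.style.haveILetI false

namespace Fermat.Agent.S55.G.GUOrd59

open NumberField IsDedekindDomain Fermat.Agent.S55.G
open scoped Pointwise

universe u v

variable (K : Type u) (L : Type v) [Field K] [Field L] [NumberField K] [NumberField L]
  [Algebra K L] [IsGalois K L]

/-! ## 1. The Galois action on height-one primes -/

/-- The action of the Galois group on the height-one primes of `𝓞 L`. -/
noncomputable def hosSMul (σ : L ≃ₐ[K] L) (w : HeightOneSpectrum (𝓞 L)) :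
    HeightOneSpectrum (𝓞 L) where
  asIdeal := σ • w.asIdeal
  isPrime := inferInstance
  ne_bot := by
    intro h
    apply w.ne_bot
    have h2 : σ⁻¹ • (σ • w.asIdeal) = σ⁻¹ • (⊥ : Ideal (𝓞 L)) := by rw [h]
    rw [inv_smul_smul] at h2
    rw [h2]
    exact Ideal.smul_bot _

@[simp]
theorem hosSMul_asIdeal (σ : L ≃ₐ[K] L) (w : HeightOneSpectrum (𝓞 L)) :
    (hosSMul K L σ w).asIdeal = σ • w.asIdeal := rfl

theorem hosSMul_one (w : HeightOneSpectrum (𝓞 L)) : hosSMul K L 1 w = w := by
  ext1
  simp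

theorem hosSMul_mul (σ τ : L ≃ₐ[K] L) (w : HeightOneSpectrum (𝓞 L)) :
    hosSMul K L (σ * τ) w = hosSMul K L σ (hosSMul K L τ w) := by
  ext1
  simp [mul_smul]

theorem hosSMul_mem_primesAbove (T : Finset (HeightOneSpectrum (𝓞 K))) (σ : L ≃ₐ[K] L)
    {w : HeightOneSpectrum (𝓞 L)} (hw : w ∈ primesAbove K L T) :
    hosSMul K L σ w ∈ primesAbove K L T := by
  obtain ⟨v, hv, hwv⟩ := hw
  refine ⟨v, hv, ?_⟩
  rw [hosSMul_asIdeal, Ideal.under_smul]
  exact hwv

/-- The action of the Galois group on the primes above `T`. -/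
@[reducible]
noncomputable def primesAboveAction (T : Finset (HeightOneSpectrum (𝓞 K))) :
    MulAction (L ≃ₐ[K] L) ↥(primesAbove K L T) where
  smul σ w := ⟨hosSMul K L σ w.1, hosSMul_mem_primesAbove K L T σ w.2⟩
  one_smul w := Subtype.ext (hosSMul_one K L w.1)
  mul_smul σ τ w := Subtype.ext (hosSMul_mul K L σ τ w.1)

theorem primesAboveAction_smul_coe (T : Finset (HeightOneSpectrum (𝓞 K))) (σ : L ≃ₐ[K] L)
    (w : ↥(primesAbove K L T)) :
    ((letI := primesAboveAction K L T; σ • w : ↥(primesAbove K L T)) :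
      HeightOneSpectrum (𝓞 L)) = hosSMul K L σ w.1 := rfl

/-! ## 2. Equivariance of the valuations -/

theorem coe_smul_int (σ : L ≃ₐ[K] L) (x : 𝓞 L) : ((σ • x : 𝓞 L) : L) = σ (x : L) := rfl

theorem le_of_forall_exp {a b : WithZero (Multiplicative ℤ)} (hb0 : b ≠ 0) (hb1 : b ≤ 1)
    (h : ∀ n : ℕ, b ≤ WithZero.exp (-(n : ℤ)) → a ≤ WithZero.exp (-(n : ℤ))) : a ≤ b := by
  have hb : WithZero.exp (WithZero.log b) = b := WithZero.exp_log hb0
  have hle : WithZero.log b ≤ 0 := by
    rw [← hb, ← WithZero.exp_zero, WithZero.exp_le_exp] at hb1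
    exact hb1
  obtain ⟨n, hn⟩ : ∃ n : ℕ, WithZero.log b = -(n : ℤ) :=
    ⟨(-WithZero.log b).toNat, by omega⟩
  have := h n (by rw [← hn, hb])
  rwa [← hn, hb] at this

theorem intValuation_hosSMul (σ : L ≃ₐ[K] L) (w : HeightOneSpectrum (𝓞 L)) (r : 𝓞 L) :
    (hosSMul K L σ w).intValuation (σ • r) = w.intValuation r := by
  have key : ∀ n : ℕ, (hosSMul K L σ w).intValuation (σ • r) ≤ WithZero.exp (-(n : ℤ)) ↔
      w.intValuation r ≤ WithZero.exp (-(n : ℤ)) := by
    intro n
    rw [HeightOneSpectrum.intValuation_le_pow_iff_mem,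
      HeightOneSpectrum.intValuation_le_pow_iff_mem, hosSMul_asIdeal, ← smul_pow',
      Ideal.smul_mem_pointwise_smul_iff]
  by_cases hr : r = 0
  · subst hr
    simp
  · have hr' : σ • r ≠ 0 := by
      intro h
      apply hr
      have : σ⁻¹ • (σ • r) = σ⁻¹ • (0 : 𝓞 L) := by rw [h]
      rwa [inv_smul_smul, smul_zero] at this
    apply le_antisymm
    · exact le_of_forall_exp (w.intValuation_ne_zero r hr) (w.intValuation_le_one r)
        (fun n hn => (key n).mpr hn)
    · exact le_of_forall_exp ((hosSMul K L σ w).intValuation_ne_zero _ hr')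
        ((hosSMul K L σ w).intValuation_le_one _) (fun n hn => (key n).mp hn)

theorem valuation_hosSMul (σ : L ≃ₐ[K] L) (w : HeightOneSpectrum (𝓞 L)) (x : L) :
    (hosSMul K L σ w).valuation L (σ x) = w.valuation L x := by
  obtain ⟨a, b, hb, rfl⟩ := IsFractionRing.div_surjective (A := 𝓞 L) x
  rw [map_div₀ σ, map_div₀, map_div₀]
  have e1 : σ (algebraMap (𝓞 L) L a) = algebraMap (𝓞 L) L (σ • a) := rfl
  have e2 : σ (algebraMap (𝓞 L) L b) = algebraMap (𝓞 L) L (σ • b) := rfl
  rw [e1, e2, HeightOneSpectrum.valuation_of_algebraMap, HeightOneSpectrum.valuation_of_algebraMap,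
    HeightOneSpectrum.valuation_of_algebraMap, HeightOneSpectrum.valuation_of_algebraMap,
    intValuation_hosSMul, intValuation_hosSMul]

/-! ## 3. The valuation map -/

/-- The valuation map `x ↦ (ord_w x)_w` on `Lˣ`, with values in the permutation lattice on the
primes above `T`. -/
noncomputable def ordHom (T : Finset (HeightOneSpectrum (𝓞 K))) :
    Additive Lˣ →+ (↥(primesAbove K L T) → ℤ) where
  toFun x w := Multiplicative.toAdd (w.1.valuationOfNeZero (Additive.toMul x))
  map_zero' := by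
    funext w
    simp
  map_add' x y := by
    funext w
    simp

theorem ordHom_apply (T : Finset (HeightOneSpectrum (𝓞 K))) (x : Additive Lˣ)
    (w : ↥(primesAbove K L T)) :
    ordHom K L T x w = Multiplicative.toAdd (w.1.valuationOfNeZero (Additive.toMul x)) := rfl

theorem ordHom_eq_zero_iff (T : Finset (HeightOneSpectrum (𝓞 K))) (x : Additive Lˣ)
    (w : ↥(primesAbove K L T)) :
    ordHom K L T x w = 0 ↔ w.1.valuation L ((Additive.toMul x : Lˣ) : L) = 1 := by
  rw [ordHom_apply, ← HeightOneSpectrum.valuationOfNeZero_eq]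
  constructor
  · intro h
    have : w.1.valuationOfNeZero (Additive.toMul x) = 1 := by
      apply Multiplicative.toAdd.injective
      simpa using h
    rw [this]
    rfl
  · intro h
    have : w.1.valuationOfNeZero (Additive.toMul x) = 1 := by
      exact_mod_cast h
    rw [this]
    rfl

theorem ordHom_equivariant (T : Finset (HeightOneSpectrum (𝓞 K))) (τ : L ≃ₐ[K] L)
    (x : Additive Lˣ) :
    ordHom K L T (unitsHom K L τ x) =
      @permHom (L ≃ₐ[K] L) _ ↥(primesAbove K L T) (primesAboveAction K L T) τ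
        (ordHom K L T x) := by
  funext w
  letI := primesAboveAction K L T
  change Multiplicative.toAdd (w.1.valuationOfNeZero (Additive.toMul (unitsHom K L τ x))) =
    Multiplicative.toAdd ((τ⁻¹ • w).1.valuationOfNeZero (Additive.toMul x))
  congr 1
  rw [← WithZero.coe_inj, HeightOneSpectrum.valuationOfNeZero_eq,
    HeightOneSpectrum.valuationOfNeZero_eq]
  have h := valuation_hosSMul K L τ⁻¹ w.1 (τ ((Additive.toMul x : Lˣ) : L))
  have e : τ⁻¹ (τ ((Additive.toMul x : Lˣ) : L)) = ((Additive.toMul x : Lˣ) : L) :=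
    τ.symm_apply_apply _
  rw [e] at h
  rw [primesAboveAction_smul_coe, h]
  rfl

/-! ## 4. The kernel on the `T`-units -/

theorem mem_sUnits_iff (T : Finset (HeightOneSpectrum (𝓞 K))) (x : Additive Lˣ) :
    x ∈ sUnits K L T ↔
      ∀ w : HeightOneSpectrum (𝓞 L), w ∉ primesAbove K L T →
        w.valuation L ((Additive.toMul x : Lˣ) : L) = 1 := Iff.rfl

theorem mem_intUnits_iff (x : Additive Lˣ) :
    x ∈ intUnits L ↔ ∃ u : (𝓞 L)ˣ,
      Units.map ((algebraMap (𝓞 L) L : 𝓞 L →+* L) : 𝓞 L →* L) u = Additive.toMul x := Iff.rfl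

theorem valuation_eq_one_of_mem_intUnits {x : Additive Lˣ} (hx : x ∈ intUnits L)
    (w : HeightOneSpectrum (𝓞 L)) : w.valuation L ((Additive.toMul x : Lˣ) : L) = 1 := by
  obtain ⟨u, hu⟩ := (mem_intUnits_iff L x).mp hx
  rw [← hu, ← HeightOneSpectrum.valuationOfNeZero_eq, HeightOneSpectrum.valuation_of_unit_eq]
  rfl

theorem mem_intUnits_of_valuation_eq_one {x : Additive Lˣ}
    (hx : ∀ w : HeightOneSpectrum (𝓞 L), w.valuation L ((Additive.toMul x : Lˣ) : L) = 1) :
    x ∈ intUnits L := by
  set y : Lˣ := Additive.toMul x with hy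
  obtain ⟨a, ha⟩ := HeightOneSpectrum.mem_integers_of_valuation_le_one L (y : L)
    (fun w => (hx w).le)
  obtain ⟨b, hb⟩ := HeightOneSpectrum.mem_integers_of_valuation_le_one L ((y⁻¹ : Lˣ) : L)
    (fun w => by
      have := hx w
      rw [Units.val_inv_eq_inv_val, map_inv₀, this, inv_one])
  have hinj : Function.Injective (algebraMap (𝓞 L) L) := IsFractionRing.injective (𝓞 L) L
  have hab : a * b = 1 := by
    apply hinj
    rw [map_mul, map_one, ha, hb, Units.mul_inv]
  have hba : b * a = 1 := by rw [mul_comm, hab]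
  refine (mem_intUnits_iff L x).mpr ⟨⟨a, b, hab, hba⟩, ?_⟩
  apply Units.ext
  simpa using ha

theorem ker_inf_sUnits (T : Finset (HeightOneSpectrum (𝓞 K))) :
    (ordHom K L T).ker ⊓ sUnits K L T = intUnits L := by
  ext x
  constructor
  · intro hx
    obtain ⟨h1, h2⟩ := AddSubgroup.mem_inf.mp hx
    apply mem_intUnits_of_valuation_eq_one
    intro w
    by_cases hw : w ∈ primesAbove K L T
    · have : ordHom K L T x ⟨w, hw⟩ = 0 := by
        rw [AddMonoidHom.mem_ker.mp h1]
        rfl
      exact (ordHom_eq_zero_iff K L T x ⟨w, hw⟩).mp this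
    · exact (mem_sUnits_iff K L T x).mp h2 w hw
  · intro hx
    refine AddSubgroup.mem_inf.mpr ⟨AddMonoidHom.mem_ker.mpr ?_, ?_⟩
    · funext w
      exact (ordHom_eq_zero_iff K L T x w).mpr (valuation_eq_one_of_mem_intUnits L hx w.1)
    · exact (mem_sUnits_iff K L T x).mpr (fun w _ => valuation_eq_one_of_mem_intUnits L hx w)

/-! ## 5. The image has finite index -/

theorem primesAbove_finite (T : Finset (HeightOneSpectrum (𝓞 K))) :
    (primesAbove K L T).Finite := by
  have h1 : (⋃ v ∈ T, (v.asIdeal.primesOver (𝓞 L))).Finite :=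
    Set.Finite.biUnion T.finite_toSet (fun v _ => IsDedekindDomain.primesOver_finite v.asIdeal (𝓞 L))
  refine Set.Finite.of_injOn (f := fun w : HeightOneSpectrum (𝓞 L) => w.asIdeal) ?_ ?_ h1
  · rintro w ⟨v, hv, hwv⟩
    simp only [Set.mem_iUnion]
    exact ⟨v, hv, w.isPrime, ⟨hwv.symm⟩⟩
  · intro w _ w' _ h
    exact HeightOneSpectrum.ext h

theorem exists_pow_eq_span (w : HeightOneSpectrum (𝓞 L)) :
    ∃ a : 𝓞 L, a ≠ 0 ∧ w.asIdeal ^ (Fintype.card (ClassGroup (𝓞 L))) = Ideal.span {a} := by
  set h := Fintype.card (ClassGroup (𝓞 L)) with hh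
  have hI : w.asIdeal ∈ nonZeroDivisors (Ideal (𝓞 L)) :=
    mem_nonZeroDivisors_of_ne_zero w.ne_bot
  have hIh : w.asIdeal ^ h ∈ nonZeroDivisors (Ideal (𝓞 L)) :=
    mem_nonZeroDivisors_of_ne_zero (pow_ne_zero _ w.ne_bot)
  have h1 : ClassGroup.mk0 ⟨w.asIdeal ^ h, hIh⟩ = 1 := by
    have : (⟨w.asIdeal ^ h, hIh⟩ : nonZeroDivisors (Ideal (𝓞 L))) = ⟨w.asIdeal, hI⟩ ^ h := rfl
    rw [this, map_pow, hh]
    exact pow_card_eq_one
  obtain ⟨a, ha⟩ := ((ClassGroup.mk0_eq_one_iff hIh).mp h1).principal
  refine ⟨a, ?_, ?_⟩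
  · rintro rfl
    apply pow_ne_zero h w.ne_bot
    rw [ha]
    simp
  · rw [ha]

theorem eq_exp_of_lt_of_le {x : WithZero (Multiplicative ℤ)} {n : ℤ}
    (h1 : ¬ x ≤ WithZero.exp (n - 1)) (h2 : x ≤ WithZero.exp n) : x = WithZero.exp n := by
  have hx0 : x ≠ 0 := by
    rintro rfl
    exact h1 zero_le
  have hx : WithZero.exp (WithZero.log x) = x := WithZero.exp_log hx0
  rw [← hx] at h1 h2 ⊢
  rw [WithZero.exp_le_exp] at h1 h2
  congr 1
  omega

theorem intValuation_of_pow_eq_span (w : HeightOneSpectrum (𝓞 L)) {a : 𝓞 L} {h : ℕ}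
    (ha : w.asIdeal ^ h = Ideal.span {a}) :
    w.intValuation a = WithZero.exp (-(h : ℤ)) := by
  apply eq_exp_of_lt_of_le
  · have e : (-(h : ℤ) - 1) = -((h + 1 : ℕ) : ℤ) := by push_cast; ring
    rw [e, HeightOneSpectrum.intValuation_le_pow_iff_mem]
    intro hmem
    have hle : w.asIdeal ^ h ≤ w.asIdeal ^ (h + 1) := by
      rw [ha, Ideal.span_singleton_le_iff_mem]
      exact hmem
    have hlt := Ideal.pow_right_strictAnti w.asIdeal w.ne_bot w.isPrime.ne_top (Nat.lt_succ_self h)
    exact absurd hle (not_le_of_gt hlt)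
  · rw [HeightOneSpectrum.intValuation_le_pow_iff_mem, ha]
    exact Ideal.mem_span_singleton_self a

theorem intValuation_of_pow_eq_span_of_ne (w w' : HeightOneSpectrum (𝓞 L)) (hne : w' ≠ w)
    {a : 𝓞 L} {h : ℕ} (ha : w.asIdeal ^ h = Ideal.span {a}) :
    w'.intValuation a = 1 := by
  rw [HeightOneSpectrum.intValuation_eq_one_iff]
  intro hmem
  apply hne
  have hle : w.asIdeal ^ h ≤ w'.asIdeal := by
    rw [ha, Ideal.span_singleton_le_iff_mem]
    exact hmem
  have hle' : w.asIdeal ≤ w'.asIdeal := by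
    by_cases h0 : h = 0
    · subst h0
      rw [pow_zero, Ideal.one_eq_top, top_le_iff] at hle
      exact absurd hle w'.isPrime.ne_top
    · exact (Ideal.IsPrime.pow_le_iff (hP := w'.isPrime) h0).mp hle
  exact (HeightOneSpectrum.ext (w.isMaximal.eq_of_le w'.isPrime.ne_top hle')).symm

open scoped Classical in
theorem exists_sUnit_single (T : Finset (HeightOneSpectrum (𝓞 K))) (w : ↥(primesAbove K L T)) :
    ∃ x : Additive Lˣ, x ∈ sUnits K L T ∧
      ordHom K L T x = Pi.single w (-(Fintype.card (ClassGroup (𝓞 L)) : ℤ)) := by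
  classical
  obtain ⟨a, ha0, ha⟩ := exists_pow_eq_span L w.1
  have ha0' : algebraMap (𝓞 L) L a ≠ 0 := by
    rwa [Ne, map_eq_zero_iff _ (IsFractionRing.injective (𝓞 L) L)]
  refine ⟨Additive.ofMul (Units.mk0 _ ha0'), ?_, ?_⟩
  · rw [mem_sUnits_iff]
    intro w' hw'
    have hne : w' ≠ w.1 := fun h => hw' (h ▸ w.2)
    change w'.valuation L (algebraMap (𝓞 L) L a) = 1
    rw [HeightOneSpectrum.valuation_of_algebraMap]
    exact intValuation_of_pow_eq_span_of_ne L w.1 w' hne ha
  · funext w'
    rw [ordHom_apply]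
    by_cases hww : w' = w
    · subst hww
      rw [Pi.single_eq_same]
      have : (w'.1.valuationOfNeZero (Units.mk0 _ ha0') : WithZero (Multiplicative ℤ)) =
          WithZero.exp (-(Fintype.card (ClassGroup (𝓞 L)) : ℤ)) := by
        rw [HeightOneSpectrum.valuationOfNeZero_eq]
        change w'.1.valuation L (algebraMap (𝓞 L) L a) = _
        rw [HeightOneSpectrum.valuation_of_algebraMap]
        exact intValuation_of_pow_eq_span L w'.1 ha
      have h2 : w'.1.valuationOfNeZero (Units.mk0 _ ha0') =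
          Multiplicative.ofAdd (-(Fintype.card (ClassGroup (𝓞 L)) : ℤ)) := by
        rw [← WithZero.coe_inj, this]
        rfl
      change Multiplicative.toAdd (w'.1.valuationOfNeZero (Units.mk0 _ ha0')) = _
      rw [h2]
      rfl
    · rw [Pi.single_eq_of_ne hww]
      have hne : w'.1 ≠ w.1 := fun h => hww (Subtype.ext h)
      have : (w'.1.valuationOfNeZero (Units.mk0 _ ha0') : WithZero (Multiplicative ℤ)) = 1 := by
        rw [HeightOneSpectrum.valuationOfNeZero_eq]
        change w'.1.valuation L (algebraMap (𝓞 L) L a) = _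
        rw [HeightOneSpectrum.valuation_of_algebraMap]
        exact intValuation_of_pow_eq_span_of_ne L w.1 w'.1 hne ha
      have h2 : w'.1.valuationOfNeZero (Units.mk0 _ ha0') = 1 := by
        exact_mod_cast this
      change Multiplicative.toAdd (w'.1.valuationOfNeZero (Units.mk0 _ ha0')) = _
      rw [h2]
      rfl

theorem index_map_ne_zero (T : Finset (HeightOneSpectrum (𝓞 K)))
    [Fintype ↥(primesAbove K L T)] :
    ((sUnits K L T).map (ordHom K L T)).index ≠ 0 := by
  classical
  set h := Fintype.card (ClassGroup (𝓞 L)) with hh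
  have hpos : 0 < h := Fintype.card_pos
  haveI : NeZero h := ⟨hpos.ne'⟩
  let φ : (↥(primesAbove K L T) → ℤ) →+ (↥(primesAbove K L T) → ZMod h) :=
    AddMonoidHom.compLeft (Int.castAddHom (ZMod h)) _
  have hker : φ.ker.index ≠ 0 := AddSubgroup.index_ne_zero_of_finite
  have hle : φ.ker ≤ (sUnits K L T).map (ordHom K L T) := by
    intro f hf
    have hdiv : ∀ w, (h : ℤ) ∣ f w := by
      intro w
      have : φ f w = 0 := by rw [AddMonoidHom.mem_ker.mp hf]; rfl
      exact (ZMod.intCast_zmod_eq_zero_iff_dvd (f w) h).mp this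
    choose c hc using hdiv
    have hf' : f = ∑ w, (-(c w)) • (Pi.single w (-(h : ℤ)) : ↥(primesAbove K L T) → ℤ) := by
      funext w'
      rw [Finset.sum_apply]
      simp only [Pi.smul_apply, smul_eq_mul]
      rw [Finset.sum_eq_single w']
      · rw [Pi.single_eq_same, hc w']
        ring
      · intro b _ hb
        rw [Pi.single_eq_of_ne (Ne.symm hb), mul_zero]
      · intro hw'
        exact absurd (Finset.mem_univ w') hw'
    rw [hf']
    apply AddSubgroup.sum_mem
    intro w _
    apply AddSubgroup.zsmul_mem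
    obtain ⟨x, hx, hxw⟩ := exists_sUnit_single K L T w
    exact ⟨x, hx, hxw⟩
  exact ne_zero_of_dvd_ne_zero hker (AddSubgroup.index_dvd_of_le hle)

/-! ## 6. Orbits and stabilisers -/

section Stab

variable (T : Finset (HeightOneSpectrum (𝓞 K)))

/-- The prime of `K` in `T` below a prime of `L` above `T`. -/
noncomputable def below (w : ↥(primesAbove K L T)) : ↥T :=
  ⟨w.2.choose, w.2.choose_spec.1⟩

theorem below_spec (w : ↥(primesAbove K L T)) :
    w.1.asIdeal.under (𝓞 K) = (below K L T w).1.asIdeal :=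
  w.2.choose_spec.2

theorem below_eq_of_under_eq (w : ↥(primesAbove K L T)) (v : ↥T)
    (h : w.1.asIdeal.under (𝓞 K) = v.1.asIdeal) : below K L T w = v := by
  apply Subtype.ext
  apply HeightOneSpectrum.ext
  rw [← below_spec, h]

theorem below_smul (σ : L ≃ₐ[K] L) (w : ↥(primesAbove K L T)) :
    below K L T (letI := primesAboveAction K L T; σ • w) = below K L T w := by
  apply below_eq_of_under_eq
  rw [primesAboveAction_smul_coe, hosSMul_asIdeal, Ideal.under_smul]
  exact below_spec K L T w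

/-- The map from orbits of primes above `T` to `T`. -/
noncomputable def orbitBelow :
    (letI := primesAboveAction K L T
     MulAction.orbitRel.Quotient (L ≃ₐ[K] L) ↥(primesAbove K L T)) → ↥T :=
  letI := primesAboveAction K L T
  Quotient.lift (s := MulAction.orbitRel (L ≃ₐ[K] L) ↥(primesAbove K L T)) (below K L T) (by
    rintro a b ⟨σ, rfl⟩
    exact below_smul K L T σ b)

theorem orbitBelow_mk (w : ↥(primesAbove K L T)) :
    orbitBelow K L T
      (letI := primesAboveAction K L T
       (Quotient.mk (MulAction.orbitRel (L ≃ₐ[K] L) ↥(primesAbove K L T)) w)) =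
      below K L T w := rfl

theorem orbitBelow_injective : Function.Injective (orbitBelow K L T) := by
  letI := primesAboveAction K L T
  intro o o'
  induction o using Quotient.inductionOn with
  | _ w =>
  induction o' using Quotient.inductionOn with
  | _ w' =>
  intro h
  rw [orbitBelow_mk, orbitBelow_mk] at h
  apply Quotient.sound
  -- transitivity of the Galois action on the primes over `below w`
  haveI h1 : w.1.asIdeal.LiesOver (below K L T w).1.asIdeal := ⟨(below_spec K L T w).symm⟩
  haveI h2 : w'.1.asIdeal.LiesOver (below K L T w).1.asIdeal :=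
    ⟨by rw [h]; exact (below_spec K L T w').symm⟩
  obtain ⟨σ, hσ⟩ := Ideal.exists_smul_eq_of_isGaloisGroup (below K L T w).1.asIdeal
    w'.1.asIdeal w.1.asIdeal (L ≃ₐ[K] L)
  refine ⟨σ, ?_⟩
  apply Subtype.ext
  apply HeightOneSpectrum.ext
  exact hσ

theorem orbitBelow_surjective : Function.Surjective (orbitBelow K L T) := by
  letI := primesAboveAction K L T
  intro v
  obtain ⟨⟨P, hP, hPv⟩⟩ := (inferInstance : Nonempty (v.1.asIdeal.primesOver (𝓞 L)))
  have hP0 : P ≠ ⊥ := by
    rintro rfl
    apply v.1.ne_bot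
    have := hPv.over
    rw [this]
    exact Ideal.under_bot (𝓞 K) (𝓞 L)
  let w : ↥(primesAbove K L T) := ⟨⟨P, hP, hP0⟩, v.1, v.2, hPv.over.symm⟩
  refine ⟨Quotient.mk _ w, ?_⟩
  rw [orbitBelow_mk]
  exact below_eq_of_under_eq K L T w v hPv.over.symm

theorem stabilizer_eq (w : ↥(primesAbove K L T)) :
    (letI := primesAboveAction K L T
     MulAction.stabilizer (L ≃ₐ[K] L) w) = MulAction.stabilizer (L ≃ₐ[K] L) w.1.asIdeal := by
  letI := primesAboveAction K L T
  ext σ
  rw [MulAction.mem_stabilizer_iff, MulAction.mem_stabilizer_iff]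
  constructor
  · intro h
    have := congrArg (fun w : ↥(primesAbove K L T) => w.1.asIdeal) h
    exact this
  · intro h
    apply Subtype.ext
    apply HeightOneSpectrum.ext
    exact h

theorem card_stabilizer (w : ↥(primesAbove K L T)) :
    Nat.card ↥(letI := primesAboveAction K L T
      MulAction.stabilizer (L ≃ₐ[K] L) w) =
      (below K L T w).1.asIdeal.ramificationIdxIn (𝓞 L) *
        (below K L T w).1.asIdeal.inertiaDegIn (𝓞 L) := by
  rw [stabilizer_eq]
  haveI h1 : w.1.asIdeal.LiesOver (below K L T w).1.asIdeal := ⟨(below_spec K L T w).symm⟩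
  exact Ideal.card_stabilizer_eq (G := L ≃ₐ[K] L) (below K L T w).1.asIdeal w.1.asIdeal

theorem stabProd_eq [Fintype ↥(primesAbove K L T)] :
    @stabProd (L ≃ₐ[K] L) _ ↥(primesAbove K L T) (primesAboveAction K L T) _ =
      finDegProd K L T := by
  letI := primesAboveAction K L T
  unfold stabProd finDegProd
  rw [← Finset.prod_coe_sort T]
  letI : Fintype (MulAction.orbitRel.Quotient (L ≃ₐ[K] L) ↥(primesAbove K L T)) :=
    Fintype.ofFinite _
  refine Fintype.prod_bijective (orbitBelow K L T)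
    ⟨orbitBelow_injective K L T, orbitBelow_surjective K L T⟩ _ _ ?_
  intro o
  rw [card_stabilizer]
  have : orbitBelow K L T o = below K L T o.out := by
    conv_lhs => rw [← Quotient.out_eq o]
    rfl
  rw [this]

end Stab

/-! ## 7. The leaf -/

theorem sUnitsOrd : SUnitsOrdSpec.{u, v} := by
  intro K L _ _ _ _ _ _ T
  haveI : Finite ↥(primesAbove K L T) := (primesAbove_finite K L T).to_subtype
  letI : Fintype ↥(primesAbove K L T) := Fintype.ofFinite _
  refine ⟨primesAboveAction K L T, inferInstance, ordHom K L T, ?_, ?_, ?_, ?_⟩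
  · exact ordHom_equivariant K L T
  · exact ker_inf_sUnits K L T
  · exact index_map_ne_zero K L T
  · exact stabProd_eq K L T

end Fermat.Agent.S55.G.GUOrd59
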