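/-
S55, layer G, leaf **J-GLUE** (helper604), closed form: everything except the orbit count
`JCountSpec` is taken from main.

* `shapiroJ : ShapiroJSpec` (G-LOC, unconditional: helper897 `shapiroJ_of` + T8 helper303 +
  T9a helper635);
* `card_H2_JRep_closed` : `|H²(G, J_S(L))| = ∏_{r ∈ R} |D_r|` for cyclic `G`;
* `jHerbrand_of_count : JCountSpec → JHerbrandSpec`;
* `firstInequalityCycSpec_of_count : JCountSpec → FirstInequalityCycSpec`,
  `firstInequalitySpec_of_count : JCountSpec → FirstInequalitySpec`.

No `sorry`.
-/
import Fermat.Agent.S55.G.JGlueH604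
import Fermat.Agent.S55.G.LocH897.ShapiroJ
import Fermat.Agent.S55.T.ShapiroH303
import Fermat.Agent.S55.T.SumH635
import Fermat.Agent.S55.L.H715.OuterClosed
import Fermat.Agent.S55.G.FI.TransportH895

set_option autoImplicit false
set_option linter.unusedSectionVars false

open scoped NumberField TensorProduct
open IsDedekindDomain CategoryTheory groupCohomology
open Fermat.Agent.S55.G

noncomputable section

namespace Fermat.Agent.S55.G.JGlueH604

/-- **G-LOC**, unconditional. -/
theorem shapiroJ : ShapiroJSpec :=
  LocH897.shapiroJ_of Fermat.Agent.S55.T.ShapiroH303.shapiroExplicit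
    Fermat.Agent.S55.T.H635.finiteProd

/-- `|H²(G, J_S(L))| = ∏_{r ∈ R} |D_r|` for a finite cyclic group `G` acting faithfully on `L`
and a set `R` of representatives of the `G`-orbits of places above `S`. -/
theorem card_H2_JRep_closed (S : Finset Nat.Primes) (G L : Type) [Group G] [Finite G] [Field L]
    [NumberField L] [MulSemiringAction G L] [FaithfulSMul G L] [IsCyclic G]
    (R : Finset (SPlace S L))
    (hR : ∀ 𝔪 : SPlace S L, ∃! r : SPlace S L, r ∈ R ∧ ∃ g : G, sPlaceSMul S G g r = 𝔪) :
    Nat.card (groupCohomology (JRep G S L) 2) = ∏ r : R, Nat.card (decomp S G r.1) :=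
  card_H2_JRep S G L shapiroJ Fermat.Agent.S55.L.Closed.h2CardCyclic R hR

/-- `|H²(D_𝔪, L_𝔪ˣ)| = |D_𝔪|` for a finite cyclic group `G` acting faithfully on `L`. -/
theorem card_H2_locRep_closed (S : Finset Nat.Primes) (G L : Type) [Group G] [Finite G]
    [Field L] [NumberField L] [MulSemiringAction G L] [FaithfulSMul G L] [IsCyclic G]
    (𝔪 : SPlace S L) :
    Nat.card (groupCohomology (LocRep S G 𝔪) 2) = Nat.card (decomp S G 𝔪) :=
  card_H2_locRep S G Fermat.Agent.S55.L.Closed.h2CardCyclic 𝔪

/-- **J-GLUE** from the orbit count. -/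
theorem jHerbrand_of_count (hC : JCountSpec) : FIH895.JHerbrandSpec :=
  jHerbrand_of shapiroJ Fermat.Agent.S55.L.Closed.h2CardCyclic hC

/-- **G-FIc** (first inequality, cyclic groups of odd order) from the orbit count. -/
theorem firstInequalityCycSpec_of_count (hC : JCountSpec) : FirstInequalityCycSpec :=
  FIH895.firstInequalityCycSpec_of_J (jHerbrand_of_count hC)

/-- **G-FI** (first inequality, groups of odd prime order) from the orbit count. -/
theorem firstInequalitySpec_of_count (hC : JCountSpec) : FirstInequalitySpec :=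
  FIH895.firstInequalitySpec_of_J (jHerbrand_of_count hC)

end Fermat.Agent.S55.G.JGlueH604
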