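import Mathlib
import Fermat.Agent.S55.G.SpecUnits2
import Fermat.Agent.S55.G.OrdH707

/-!
# S55 / layer G / block G-U, leaf GU-STAB (helper707, spare)

`sUnitsStable : SUnitsStableSpec` : the `T`-units are stable under `Gal(L/K)`;
immediate from `OrdH707.valuation_smulH`.
-/

set_option autoImplicit false

namespace Fermat.Agent.S55.G.StabH707

open Fermat.Agent.S55.G.OrdH707 NumberField IsDedekindDomain

universe u v

/-- **GU-STAB**: the `T`-units are Galois stable. -/
theorem sUnitsStable : SUnitsStableSpec.{u, v} := by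
  intro K L _ _ _ _ _ _ T τ x hx
  rw [mem_sUnits_iff] at hx ⊢
  intro w hw
  have h1 := valuation_smulH K L τ (smulH K L τ⁻¹ w) ((Additive.toMul x : Lˣ) : L)
  rw [← smulH_mul, mul_inv_cancel, smulH_one] at h1
  have h2 : smulH K L τ⁻¹ w ∉ primesAbove K L T := by
    intro h
    apply hw
    have := smulH_mem K L T τ h
    rwa [← smulH_mul, mul_inv_cancel, smulH_one] at this
  have h3 := hx _ h2
  rw [← h1] at h3
  exact h3

end Fermat.Agent.S55.G.StabH707
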