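/-
S55, layer G, block G-U (helper595): toolkit for `stabProd` (product over the orbits of the
orders of the stabilisers) — invariance under equivariant bijections, disjoint unions.
-/
import Mathlib
import Fermat.Agent.S55.G.SpecUnits
import Fermat.Agent.S55.G.PermBasic

set_option autoImplicit false
set_option linter.unusedSectionVars false

namespace Fermat.Agent.S55.G.GU595

universe u v u' v'

section Congr

variable {G : Type u} [Group G] {X : Type v} [MulAction G X] [Fintype X]
  {G' : Type u'} [Group G'] {X' : Type v'} [MulAction G' X'] [Fintype X']

/-- Stabilisers of points in the same orbit have the same order. -/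
lemma card_stabilizer_eq_of_orbitRel {a b : X} (h : MulAction.orbitRel G X a b) :
    Nat.card (MulAction.stabilizer G a) = Nat.card (MulAction.stabilizer G b) := by
  rw [MulAction.orbitRel_apply] at h
  obtain ⟨g, hg⟩ := h
  exact Nat.card_congr (MulAction.stabilizerEquivStabilizer (g := g) (a := b) (b := a)
    hg.symm).symm.toEquiv

/-- The stabiliser product in terms of an arbitrary choice of representatives. -/
lemma card_stabilizer_out (x : X) :
    Nat.card (MulAction.stabilizer G
      (Quotient.mk (MulAction.orbitRel G X) x).out) = Nat.card (MulAction.stabilizer G x) :=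
  card_stabilizer_eq_of_orbitRel (Quotient.exact (Quotient.out_eq _))

/-- `stabProd` is invariant under equivariant bijections along a group isomorphism. -/
theorem stabProd_congr (e : G ≃* G') (f : X ≃ X') (hf : ∀ g x, f (g • x) = e g • f x) :
    stabProd G X = stabProd G' X' := by
  classical
  unfold stabProd
  have hrel : ∀ x y : X,
      MulAction.orbitRel G X x y ↔ MulAction.orbitRel G' X' (f x) (f y) := by
    intro x y
    rw [MulAction.orbitRel_apply, MulAction.orbitRel_apply]
    constructor
    · rintro ⟨g, hg⟩
      refine ⟨e g, ?_⟩
      show e g • f y = f x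
      rw [← hf]
      exact congrArg f hg
    · rintro ⟨g', hg'⟩
      refine ⟨e.symm g', f.injective ?_⟩
      show f (e.symm g' • y) = f x
      rw [hf, e.apply_symm_apply]
      exact hg'
  let F : MulAction.orbitRel.Quotient G X ≃ MulAction.orbitRel.Quotient G' X' :=
    Quotient.congr f hrel
  have hstab : ∀ x : X, Nat.card (MulAction.stabilizer G x) =
      Nat.card (MulAction.stabilizer G' (f x)) := by
    intro x
    refine Nat.card_congr (Equiv.subtypeEquiv e.toEquiv (fun g => ?_))
    rw [MulAction.mem_stabilizer_iff, MulAction.mem_stabilizer_iff]
    show g • x = x ↔ e g • f x = f x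
    rw [← hf]
    exact f.injective.eq_iff.symm
  have hcard : ∀ o : MulAction.orbitRel.Quotient G X,
      Nat.card (MulAction.stabilizer G o.out) =
        Nat.card (MulAction.stabilizer G' (F o).out) := by
    intro o
    have h1 : F o = Quotient.mk (MulAction.orbitRel G' X') (f o.out) := by
      conv_lhs => rw [← Quotient.out_eq o]
      rfl
    rw [h1, card_stabilizer_out, hstab]
  exact @Fintype.prod_equiv _ _ _ (Fintype.ofFinite _) (Fintype.ofFinite _) _ F
    (fun o => Nat.card (MulAction.stabilizer G o.out))
    (fun o' => Nat.card (MulAction.stabilizer G' o'.out)) hcard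

end Congr

end Fermat.Agent.S55.G.GU595
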