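/-
S55, layer G, block G-U (helper595): BRIDGE from `sUnitsHerbrandSpec` (vocabulary of
`SpecUnits.lean`) to helper421's global modules (`G/Defs.lean`: `sUnit S L`, `ERep S G L`) and
helper895's cyclic Herbrand vocabulary (`h0`, `h1`, `gAct`).

Main result `eRep_herbrand`: for `L/K` Galois with cyclic group `G = L ≃ₐ[K] L = ⟨σ⟩`,
`S` a finite set of rational primes and `T = primesOfKAbove K S`,
`h0(E_S) * [L:K] = h1(E_S) * (∏_{v | ∞} n_v * ∏_{v ∈ T} e_v f_v)`, both indices finite.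
-/
import Mathlib
import Fermat.Agent.S55.G.Defs
import Fermat.Agent.S55.G.UnitsHerbrand
import Fermat.Agent.S55.Herbrand.RepCyclic

set_option autoImplicit false
set_option linter.unusedSectionVars false

namespace Fermat.Agent.S55.G.GU595

open Fermat.Agent.S55.Herbrand NumberField IsDedekindDomain

section Bridge

variable (K L : Type) [Field K] [Field L] [NumberField K] [NumberField L] [Algebra K L]

/-- The set of primes of `K` above the rational primes in `S` is finite. -/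
lemma finite_primesOfKAbove (S : Finset Nat.Primes) :
    {v : HeightOneSpectrum (𝓞 K) | ∃ q ∈ S, ((q : ℕ) : 𝓞 K) ∈ v.asIdeal}.Finite := by
  have h : {v : HeightOneSpectrum (𝓞 K) | ∃ q ∈ S, ((q : ℕ) : 𝓞 K) ∈ v.asIdeal} =
      ⋃ q ∈ S, {v : HeightOneSpectrum (𝓞 K) | ((q : ℕ) : 𝓞 K) ∈ v.asIdeal} := by
    ext v
    simp
  rw [h]
  refine Set.Finite.biUnion S.finite_toSet (fun q _ => ?_)
  have hq : (Ideal.span {((q : ℕ) : 𝓞 K)} : Ideal (𝓞 K)) ≠ 0 := by
    intro h0
    have : ((q : ℕ) : 𝓞 K) = 0 := by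
      simpa using (Ideal.span_singleton_eq_bot.1 h0)
    exact q.2.ne_zero (by exact_mod_cast this)
  refine (Ideal.finite_factors hq).subset (fun v hv => ?_)
  simp only [Set.mem_ofPred_eq] at hv ⊢
  rw [Ideal.dvd_span_singleton]
  exact hv

/-- The primes of `K` above the rational primes in `S`. -/
noncomputable def primesOfKAbove (S : Finset Nat.Primes) : Finset (HeightOneSpectrum (𝓞 K)) :=
  (finite_primesOfKAbove K S).toFinset

lemma mem_primesOfKAbove (S : Finset Nat.Primes) (v : HeightOneSpectrum (𝓞 K)) :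
    v ∈ primesOfKAbove K S ↔ ∃ q ∈ S, ((q : ℕ) : 𝓞 K) ∈ v.asIdeal := by
  unfold primesOfKAbove
  rw [Set.Finite.mem_toFinset]
  rfl

/-- The primes of `L` above `primesOfKAbove K S` are the primes of `L` above `S`. -/
lemma mem_primesAbove_iff_isAbove (S : Finset Nat.Primes) (w : HeightOneSpectrum (𝓞 L)) :
    w ∈ primesAbove K L (primesOfKAbove K S) ↔ IsAbove S L w := by
  constructor
  · rintro ⟨v, hv, hwv⟩
    obtain ⟨q, hq, hqv⟩ := (mem_primesOfKAbove K S v).1 hv
    refine ⟨q, hq, ?_⟩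
    rw [← hwv, Ideal.under_def, Ideal.mem_comap, map_natCast] at hqv
    exact hqv
  · rintro ⟨q, hq, hqw⟩
    have hmem : ((q : ℕ) : 𝓞 K) ∈ w.asIdeal.under (𝓞 K) := by
      rw [Ideal.under_def, Ideal.mem_comap, map_natCast]
      exact hqw
    have hne : w.asIdeal.under (𝓞 K) ≠ ⊥ := by
      intro h0
      rw [h0, Ideal.mem_bot] at hmem
      exact q.2.ne_zero (by exact_mod_cast hmem)
    refine ⟨⟨w.asIdeal.under (𝓞 K), inferInstance, hne⟩, ?_, rfl⟩
    exact (mem_primesOfKAbove K S _).2 ⟨q, hq, hmem⟩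

/-- helper421's `S`-units are the `T`-units of `SpecUnits.lean` for `T = primesOfKAbove K S`. -/
lemma sUnit_eq_sUnits (S : Finset Nat.Primes) :
    (sUnit S L).toAddSubgroup = sUnits K L (primesOfKAbove K S) := by
  ext x
  rw [Submodule.mem_toAddSubgroup, mem_sUnit_iff]
  show _ ↔ (Additive.toMul x : Lˣ) ∈ (primesAbove K L (primesOfKAbove K S)).unit L
  have hmem : (Additive.toMul x : Lˣ) ∈ (primesAbove K L (primesOfKAbove K S)).unit L ↔
      ∀ w : HeightOneSpectrum (𝓞 L), w ∉ primesAbove K L (primesOfKAbove K S) →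
        w.valuation L ((Additive.toMul x : Lˣ) : L) = 1 := Iff.rfl
  rw [hmem]
  constructor
  · intro h w hw
    rw [mem_primesAbove_iff_isAbove] at hw
    exact (ordAt_eq_zero_iff w x).1 (h ⟨w, hw⟩)
  · intro h w
    refine (ordAt_eq_zero_iff w.1 x).2 (h w.1 ?_)
    rw [mem_primesAbove_iff_isAbove]
    exact w.2

end Bridge

section Herbrand

variable (K L : Type) [Field K] [Field L] [NumberField K] [NumberField L] [Algebra K L]
  [IsGalois K L]

/-- The inclusion of the `S`-units into `Additive Lˣ`, with source the carrier of `ERep`. -/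
noncomputable def eIncl (S : Finset Nat.Primes) : (ERep S (L ≃ₐ[K] L) L).V →+ Additive Lˣ :=
  (sUnit S L).subtype.toAddMonoidHom

lemma eIncl_injective (S : Finset Nat.Primes) : Function.Injective (eIncl K L S) :=
  (sUnit S L).injective_subtype

lemma eIncl_rho (S : Finset Nat.Primes) (τ : L ≃ₐ[K] L) (x : (ERep S (L ≃ₐ[K] L) L).V) :
    eIncl K L S ((ERep S (L ≃ₐ[K] L) L).ρ τ x) = unitsHom K L τ (eIncl K L S x) := rfl

lemma eIncl_range (S : Finset Nat.Primes) :
    (eIncl K L S).range = sUnits K L (primesOfKAbove K S) := by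
  rw [← sUnit_eq_sUnits K L S]
  ext x
  constructor
  · rintro ⟨y, rfl⟩
    exact y.2
  · intro hx
    exact ⟨⟨x, hx⟩, rfl⟩

/-- **Herbrand quotient of the `S`-units** in the vocabulary of `G/Defs.lean` and
`Herbrand/Cyclic.lean`. -/
theorem eRep_herbrand (S : Finset Nat.Primes) (σ : L ≃ₐ[K] L)
    (hσ : ∀ τ : L ≃ₐ[K] L, τ ∈ Subgroup.zpowers σ) :
    h0 (gAct (ERep S (L ≃ₐ[K] L) L) σ) (Nat.card (L ≃ₐ[K] L)) ≠ 0 ∧
    h1 (gAct (ERep S (L ≃ₐ[K] L) L) σ) (Nat.card (L ≃ₐ[K] L)) ≠ 0 ∧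
    h0 (gAct (ERep S (L ≃ₐ[K] L) L) σ) (Nat.card (L ≃ₐ[K] L)) * Module.finrank K L =
      h1 (gAct (ERep S (L ≃ₐ[K] L) L) σ) (Nat.card (L ≃ₐ[K] L)) *
        (infDegProd K L * finDegProd K L (primesOfKAbove K S)) := by
  have hif : ∀ a : (ERep S (L ≃ₐ[K] L) L).V,
      eIncl K L S (delta (gAct (ERep S (L ≃ₐ[K] L) L) σ) a) =
        unitsAug K L σ (eIncl K L S a) := fun a => rfl
  have hig : ∀ a : (ERep S (L ≃ₐ[K] L) L).V,
      eIncl K L S (normN (gAct (ERep S (L ≃ₐ[K] L) L) σ) (Nat.card (L ≃ₐ[K] L)) a) =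
        unitsNorm K L (eIncl K L S a) := by
    intro a
    rw [normN_gAct_apply _ σ hσ, unitsNorm_apply, map_sum]
    exact Finset.sum_congr rfl (fun τ _ => eIncl_rho K L S τ a)
  have e0 : h0 (gAct (ERep S (L ≃ₐ[K] L) L) σ) (Nat.card (L ≃ₐ[K] L)) =
      hIndexSub (unitsAug K L σ) (unitsNorm K L) (sUnits K L (primesOfKAbove K S)) := by
    rw [← eIncl_range K L S]
    exact hIndex_eq_hIndexSub (eIncl_injective K L S) hif hig
  have e1 : h1 (gAct (ERep S (L ≃ₐ[K] L) L) σ) (Nat.card (L ≃ₐ[K] L)) =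
      hIndexSub (unitsNorm K L) (unitsAug K L σ) (sUnits K L (primesOfKAbove K S)) := by
    rw [← eIncl_range K L S]
    exact hIndex_eq_hIndexSub (eIncl_injective K L S) hig hif
  rw [e0, e1]
  exact sUnitsHerbrandSpec K L σ hσ (primesOfKAbove K S)

end Herbrand

end Fermat.Agent.S55.G.GU595
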