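/-
S55, layer G, block G-U (helper595): the Herbrand quotient of the `S`-units in the form needed
by the first inequality (G-FI): ARBITRARY finite cyclic group `G` acting faithfully on the number
field `L` (helper421's `G/Defs.lean`), right-hand side as a stabiliser product over the
`G`-orbits of the primes of `L` above `S`.

* `primeInAction S G L` : the action of `G` on `PrimeIn S L`;
* `stabProdIn S G L`    : `∏_{G-orbits of primes w above S} |G_w|`;
* `eRep_herbrand_orbit` : `h0(E_S) * |G| = h1(E_S) * (∏_{v | ∞} n_v) * stabProdIn S G L`;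
* `eRep_herbrand_orbit_of_odd` : for `|G|` odd, `h0(E_S) * |G| = h1(E_S) * stabProdIn S G L`.
-/
import Mathlib
import Fermat.Agent.S55.G.Defs
import Fermat.Agent.S55.G.UnitsBridge
import Fermat.Agent.S55.G.OrdH707
import Fermat.Agent.S55.G.StabProd

set_option autoImplicit false
set_option linter.unusedSectionVars false
set_option linter.style.haveILetI false

namespace Fermat.Agent.S55.G.GU595

open Fermat.Agent.S55.Herbrand NumberField IsDedekindDomain
open scoped Pointwise

section PrimeIn

variable (S : Finset Nat.Primes) (G L : Type) [Group G] [Field L] [NumberField L]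
  [MulSemiringAction G L]

/-- The action of `G` on the finite primes of `L` above `S`
(a definition, NOT a global instance). -/
abbrev primeInAction : MulAction G (PrimeIn S L) where
  smul g w := ⟨primeSMul G g w.1, (isAbove_primeSMul_iff S G g w.1).2 w.2⟩
  one_smul w := Subtype.ext (HeightOneSpectrum.ext (one_smul G w.1.asIdeal))
  mul_smul g h w := Subtype.ext (HeightOneSpectrum.ext (mul_smul g h w.1.asIdeal))

lemma primeInAction_coe (g : G) (w : PrimeIn S L) :
    (letI := primeInAction S G L; g • w).1 = primeSMul G g w.1 := rfl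

/-- There are finitely many primes of `L` above `S`. -/
lemma finite_primeIn : Finite (PrimeIn S L) :=
  (finite_primesOfKAbove L S).to_subtype

/-- `∏_{G-orbits of primes w of L above S} |G_w|`. -/
noncomputable def stabProdIn : ℕ :=
  letI := primeInAction S G L
  haveI : Finite (PrimeIn S L) := finite_primeIn S L
  letI : Fintype (PrimeIn S L) := Fintype.ofFinite _
  stabProd G (PrimeIn S L)

end PrimeIn

section Main

variable (S : Finset Nat.Primes) (G L : Type) [Group G] [Finite G] [Field L] [NumberField L]
  [MulSemiringAction G L] [FaithfulSMul G L]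

/-- The inclusion of the `S`-units into `Additive Lˣ`, with source the carrier of `ERep S G L`. -/
noncomputable def eInclG : (ERep S G L).V →+ Additive Lˣ :=
  (sUnit S L).subtype.toAddMonoidHom

lemma eInclG_injective : Function.Injective (eInclG S G L) :=
  (sUnit S L).injective_subtype

lemma eInclG_rho (τ : G) (x : (ERep S G L).V) :
    eInclG S G L ((ERep S G L).ρ τ x) = lRepr G L τ (eInclG S G L x) := rfl

lemma eInclG_range :
    (eInclG S G L).range = sUnits (FixedPoints.subfield G L) L
      (primesOfKAbove (FixedPoints.subfield G L) S) := by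
  rw [← sUnit_eq_sUnits (FixedPoints.subfield G L) L S]
  ext x
  constructor
  · rintro ⟨y, rfl⟩
    exact y.2
  · intro hx
    exact ⟨⟨x, hx⟩, rfl⟩

lemma lRepr_eq_unitsHom_toAlgAut (τ : G) (x : Additive Lˣ) :
    lRepr G L τ x =
      unitsHom (FixedPoints.subfield G L) L (FixedPoints.toAlgAutMulEquiv G L τ) x := rfl

/-- The stabiliser product of the primes above `S` is `∏_{v ∈ T} e_v f_v`. -/
lemma stabProdIn_eq_finDegProd :
    stabProdIn S G L = finDegProd (FixedPoints.subfield G L) L
      (primesOfKAbove (FixedPoints.subfield G L) S) := by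
  rw [← OrdH707.stabProd_eq (FixedPoints.subfield G L) L
    (primesOfKAbove (FixedPoints.subfield G L) S)]
  unfold stabProdIn
  letI := primeInAction S G L
  haveI : Finite (PrimeIn S L) := finite_primeIn S L
  letI : Fintype (PrimeIn S L) := Fintype.ofFinite _
  letI := OrdH707.actX (FixedPoints.subfield G L) L
    (primesOfKAbove (FixedPoints.subfield G L) S)
  letI := OrdH707.fintypeX (FixedPoints.subfield G L) L
    (primesOfKAbove (FixedPoints.subfield G L) S)
  refine stabProd_congr (FixedPoints.toAlgAutMulEquiv G L)
    (Equiv.subtypeEquivRight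
      (fun w => (mem_primesAbove_iff_isAbove (FixedPoints.subfield G L) L S w).symm)) ?_
  intro g w
  apply Subtype.ext
  apply HeightOneSpectrum.ext
  rfl

/-- **Herbrand quotient of the `S`-units**, general cyclic `G`, orbit form. -/
theorem eRep_herbrand_orbit (σ : G) (hσ : ∀ τ : G, τ ∈ Subgroup.zpowers σ) :
    h0 (gAct (ERep S G L) σ) (Nat.card G) ≠ 0 ∧
    h1 (gAct (ERep S G L) σ) (Nat.card G) ≠ 0 ∧
    h0 (gAct (ERep S G L) σ) (Nat.card G) * Nat.card G =
      h1 (gAct (ERep S G L) σ) (Nat.card G) *
        (infDegProd (FixedPoints.subfield G L) L * stabProdIn S G L) := by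
  have hσ' : ∀ τ : L ≃ₐ[FixedPoints.subfield G L] L,
      τ ∈ Subgroup.zpowers (FixedPoints.toAlgAutMulEquiv G L σ) := by
    intro τ
    obtain ⟨g, rfl⟩ := (FixedPoints.toAlgAutMulEquiv G L).surjective τ
    obtain ⟨k, hk⟩ := Subgroup.mem_zpowers_iff.1 (hσ g)
    exact Subgroup.mem_zpowers_iff.2 ⟨k, by rw [← map_zpow, hk]⟩
  have hif : ∀ a : (ERep S G L).V,
      eInclG S G L (delta (gAct (ERep S G L) σ) a) =
        unitsAug (FixedPoints.subfield G L) L (FixedPoints.toAlgAutMulEquiv G L σ)
          (eInclG S G L a) := fun a => rfl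
  have hig : ∀ a : (ERep S G L).V,
      eInclG S G L (normN (gAct (ERep S G L) σ) (Nat.card G) a) =
        unitsNorm (FixedPoints.subfield G L) L (eInclG S G L a) := by
    intro a
    haveI : Fintype G := Fintype.ofFinite G
    rw [normN_gAct_apply _ σ hσ, unitsNorm_apply, map_sum]
    refine Fintype.sum_equiv (FixedPoints.toAlgAutMulEquiv G L).toEquiv _ _ (fun τ => ?_)
    exact eInclG_rho S G L τ a
  have e0 : h0 (gAct (ERep S G L) σ) (Nat.card G) =
      hIndexSub (unitsAug (FixedPoints.subfield G L) L (FixedPoints.toAlgAutMulEquiv G L σ))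
        (unitsNorm (FixedPoints.subfield G L) L)
        (sUnits (FixedPoints.subfield G L) L (primesOfKAbove (FixedPoints.subfield G L) S)) := by
    rw [← eInclG_range S G L]
    exact hIndex_eq_hIndexSub (eInclG_injective S G L) hif hig
  have e1 : h1 (gAct (ERep S G L) σ) (Nat.card G) =
      hIndexSub (unitsNorm (FixedPoints.subfield G L) L)
        (unitsAug (FixedPoints.subfield G L) L (FixedPoints.toAlgAutMulEquiv G L σ))
        (sUnits (FixedPoints.subfield G L) L (primesOfKAbove (FixedPoints.subfield G L) S)) := by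
    rw [← eInclG_range S G L]
    exact hIndex_eq_hIndexSub (eInclG_injective S G L) hig hif
  have hcard : Nat.card G = Module.finrank (FixedPoints.subfield G L) L := by
    rw [← IsGalois.card_aut_eq_finrank]
    exact Nat.card_congr (FixedPoints.toAlgAutMulEquiv G L).toEquiv
  rw [e0, e1, stabProdIn_eq_finDegProd, hcard]
  exact sUnitsHerbrandSpec (FixedPoints.subfield G L) L (FixedPoints.toAlgAutMulEquiv G L σ) hσ'
    (primesOfKAbove (FixedPoints.subfield G L) S)

/-- For `|G|` odd, all infinite places are unramified. -/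
lemma infDegProd_eq_one_of_odd (hodd : Odd (Nat.card G)) :
    infDegProd (FixedPoints.subfield G L) L = 1 := by
  have hcard : Nat.card G = Module.finrank (FixedPoints.subfield G L) L := by
    rw [← IsGalois.card_aut_eq_finrank]
    exact Nat.card_congr (FixedPoints.toAlgAutMulEquiv G L).toEquiv
  unfold infDegProd
  refine Finset.prod_eq_one (fun v _ => ?_)
  have hv : v.IsUnramifiedIn L := by
    by_contra h
    have := InfinitePlace.even_finrank_of_not_isUnramifiedIn h
    rw [← hcard] at this
    exact (Nat.not_even_iff_odd.2 hodd) this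
  simp [hv]

/-- **Herbrand quotient of the `S`-units**, `G` cyclic of odd order, orbit form. -/
theorem eRep_herbrand_orbit_of_odd (σ : G) (hσ : ∀ τ : G, τ ∈ Subgroup.zpowers σ)
    (hodd : Odd (Nat.card G)) :
    h0 (gAct (ERep S G L) σ) (Nat.card G) ≠ 0 ∧
    h1 (gAct (ERep S G L) σ) (Nat.card G) ≠ 0 ∧
    h0 (gAct (ERep S G L) σ) (Nat.card G) * Nat.card G =
      h1 (gAct (ERep S G L) σ) (Nat.card G) * stabProdIn S G L := by
  have h := eRep_herbrand_orbit S G L σ hσ
  rw [infDegProd_eq_one_of_odd G L hodd, one_mul] at h
  exact h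

end Main

end Fermat.Agent.S55.G.GU595
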